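import Fermat.Agent.Newforms.Petersson
import Fermat.Agent.Eigenforms.Character
import Mathlib.RingTheory.Nilpotent.Lemmas
import Mathlib.LinearAlgebra.Eigenspace.Triangularizable
import Mathlib.FieldTheory.IsAlgClosed.AlgebraicClosure

/-!
# Semisimplicity of the Hecke algebra

The Hecke algebra away from the level is reduced (`heckeAlgebra_isReduced`) and its common
eigenvectors span the space of forms (`span_heckeEigenvectors`).
-/

set_option autoImplicit false

noncomputable section

open CongruenceSubgroup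
open scoped ComplexConjugate

namespace FLTAgent.Newforms

variable {N : ℕ} [NeZero N] {S : Set ℕ}

theorem peterssonInt_add_left (f f' g : CuspForm (Gamma0 N) 2) :
    peterssonInt (f + f') g = peterssonInt f g + peterssonInt f' g := by
  rw [← peterssonInt_symm g, peterssonInt_add_right, map_add, peterssonInt_symm, peterssonInt_symm]

theorem peterssonInt_smul_left (c : ℂ) (f g : CuspForm (Gamma0 N) 2) :
    peterssonInt (c • f) g = conj c * peterssonInt f g := by
  rw [← peterssonInt_symm g, peterssonInt_smul_right, map_mul, peterssonInt_symm]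

theorem peterssonInt_zero_left (g : CuspForm (Gamma0 N) 2) : peterssonInt 0 g = 0 := by
  rw [← peterssonInt_symm g, peterssonInt_zero_right, map_zero]

/-- The Hecke algebra away from the level consists of self-adjoint operators. -/
theorem peterssonInt_hecke (hNS : ∀ q : ℕ, q.Prime → q ∣ N → q ∈ S)
    (t : CuspForm.heckeAlgebra N 2 S) :
    ∀ f g : CuspForm (Gamma0 N) 2, peterssonInt (t.1 f) g = peterssonInt f (t.1 g) := by
  obtain ⟨T, hT⟩ := t
  induction hT using Algebra.adjoin_induction with
  | mem x hx =>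
    rcases hx with ⟨ℓ, hℓ, hℓN, -, rfl⟩ | ⟨q, hqN, hq, hqS, rfl⟩
    · exact peterssonInt_heckeTLin hℓ hℓN
    · exact absurd (hNS q hq hqN) hqS
  | algebraMap r =>
    intro f g
    simp only [Module.algebraMap_end_apply, ← Int.cast_smul_eq_zsmul ℂ r]
    rw [peterssonInt_smul_left, peterssonInt_smul_right, map_intCast]
  | add x y _ _ hx hy =>
    intro f g
    simp only [LinearMap.add_apply]
    rw [peterssonInt_add_left, peterssonInt_add_right, hx, hy]
  | mul x y hxm hym hx hy =>
    intro f g
    simp only [Module.End.mul_apply]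
    rw [hx, hy]
    refine congrArg (peterssonInt f) ?_
    have h := congrArg (fun u : CuspForm.heckeAlgebra N 2 S => u.1 g)
      (mul_comm (⟨x, hxm⟩ : CuspForm.heckeAlgebra N 2 S) ⟨y, hym⟩)
    simpa using h.symm

theorem hecke_eq_zero_of_sq_eq_zero (hNS : ∀ q : ℕ, q.Prime → q ∣ N → q ∈ S)
    {t : CuspForm.heckeAlgebra N 2 S} (h : t * t = 0) : t = 0 := by
  refine Subtype.ext (LinearMap.ext fun f => eq_zero_of_peterssonInt_self ?_)
  rw [peterssonInt_hecke hNS, ← Module.End.mul_apply, ← MulMemClass.coe_mul, h,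
    ZeroMemClass.coe_zero, LinearMap.zero_apply, peterssonInt_zero_right]

/-- The Hecke algebra away from the level is reduced. -/
theorem heckeAlgebra_isReduced (hNS : ∀ q : ℕ, q.Prime → q ∣ N → q ∈ S) :
    IsReduced (CuspForm.heckeAlgebra N 2 S) := by
  refine ⟨fun t ⟨n, hn⟩ => ?_⟩
  have key : ∀ k : ℕ, ∀ u : CuspForm.heckeAlgebra N 2 S, u ^ 2 ^ k = 0 → u = 0 := by
    intro k
    induction k with
    | zero => intro u hu; simpa using hu
    | succ k ih =>
      intro u hu
      refine hecke_eq_zero_of_sq_eq_zero hNS (ih (u * u) ?_)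
      rwa [← pow_two, ← pow_mul, ← pow_succ']
  exact key n t (pow_eq_zero_of_le (Nat.lt_two_pow_self).le hn)

/-- The orthogonal complement for the Petersson inner product. -/
def peterssonOrth (U : Submodule ℂ (CuspForm (Gamma0 N) 2)) :
    Submodule ℂ (CuspForm (Gamma0 N) 2) where
  carrier := {g | ∀ u ∈ U, peterssonInt u g = 0}
  add_mem' {a b} ha hb u hu := by rw [peterssonInt_add_right, ha u hu, hb u hu, add_zero]
  zero_mem' u _ := peterssonInt_zero_right u
  smul_mem' c g hg u hu := by rw [peterssonInt_smul_right, hg u hu, mul_zero]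

theorem mem_peterssonOrth {U : Submodule ℂ (CuspForm (Gamma0 N) 2)}
    {g : CuspForm (Gamma0 N) 2} :
    g ∈ peterssonOrth U ↔ ∀ u ∈ U, peterssonInt u g = 0 := Iff.rfl

theorem isCompl_peterssonOrth (hint : CuspForm.HasIntegralStructure N 2)
    (U : Submodule ℂ (CuspForm (Gamma0 N) 2)) : IsCompl U (peterssonOrth U) := by
  have := Eigenforms.cuspForm_finiteDimensional hint
  constructor
  · rw [Submodule.disjoint_def]
    exact fun g hg hg' => eq_zero_of_peterssonInt_self (hg' g hg)
  · rw [codisjoint_iff, eq_top_iff]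
    intro g _
    let b := Module.finBasis ℂ U
    let L : CuspForm (Gamma0 N) 2 →ₗ[ℂ] (Fin (Module.finrank ℂ U) → ℂ) :=
      LinearMap.pi fun i => peterssonRight (b i : CuspForm (Gamma0 N) 2)
    have hL : ∀ u : CuspForm (Gamma0 N) 2, L u = 0 → u ∈ peterssonOrth U := by
      intro u hu v hv
      have hv' : v ∈ Submodule.span ℂ (Set.range fun i => (b i : CuspForm (Gamma0 N) 2)) := by
        have h := congrArg (Submodule.map U.subtype) b.span_eq
        rw [Submodule.map_span, ← Set.range_comp, Submodule.map_subtype_top] at h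
        exact h.symm ▸ hv
      induction hv' using Submodule.span_induction with
      | mem x hx =>
        obtain ⟨i, rfl⟩ := hx
        exact congrFun hu i
      | zero => exact peterssonInt_zero_left u
      | add x y hx hy ihx ihy =>
        have hx' : x ∈ U := Submodule.span_le.mpr (by rintro _ ⟨i, rfl⟩; exact (b i).2) hx
        have hy' : y ∈ U := Submodule.span_le.mpr (by rintro _ ⟨i, rfl⟩; exact (b i).2) hy
        rw [peterssonInt_add_left, ihx hx', ihy hy', add_zero]
      | smul c x hx ihx =>
        have hx' : x ∈ U := Submodule.span_le.mpr (by rintro _ ⟨i, rfl⟩; exact (b i).2) hx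
        rw [peterssonInt_smul_left, ihx hx', mul_zero]
    have hbij : Function.Surjective (L ∘ₗ U.subtype) := by
      refine (LinearMap.injective_iff_surjective_of_finrank_eq_finrank ?_).mp ?_
      · rw [Module.finrank_fintype_fun_eq_card, Fintype.card_fin]
      · refine (injective_iff_map_eq_zero _).mpr fun u hu => ?_
        exact Subtype.ext (eq_zero_of_peterssonInt_self (hL u.1 hu u.1 u.2))
    obtain ⟨u, hu⟩ := hbij (L g)
    refine Submodule.mem_sup.mpr ⟨u.1, u.2, g - u.1, hL _ ?_, add_sub_cancel _ _⟩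
    rw [map_sub, sub_eq_zero]
    exact hu.symm

/-- Common eigenvectors of the Hecke algebra away from `S`. -/
def heckeEigenvectors (N : ℕ) [NeZero N] (S : Set ℕ) : Set (CuspForm (Gamma0 N) 2) :=
  {g | ∀ t : CuspForm.heckeAlgebra N 2 S, ∃ c : ℂ, t.1 g = c • g}

theorem exists_eigenvector_mem (hint : CuspForm.HasIntegralStructure N 2)
    {U : Submodule ℂ (CuspForm (Gamma0 N) 2)} (hU : U ≠ ⊥)
    (hstab : ∀ t : CuspForm.heckeAlgebra N 2 S, ∀ u ∈ U, t.1 u ∈ U) :
    ∃ g ∈ U, g ≠ 0 ∧ g ∈ heckeEigenvectors N S := by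
  have := Eigenforms.cuspForm_finiteDimensional hint
  induction hn : Module.finrank ℂ U using Nat.strong_induction_on generalizing U with
  | _ n IH =>
    by_cases hall : ∀ t : CuspForm.heckeAlgebra N 2 S, ∃ c : ℂ, ∀ u ∈ U, t.1 u = c • u
    · obtain ⟨g, hg, hg0⟩ := Submodule.exists_mem_ne_zero_of_ne_bot hU
      exact ⟨g, hg, hg0, fun t => (hall t).imp fun c hc => hc g hg⟩
    push Not at hall
    obtain ⟨t, ht⟩ := hall
    have : Nontrivial U := Submodule.nontrivial_iff_ne_bot.mpr hU
    obtain ⟨c, hc⟩ := Module.End.exists_eigenvalue (LinearMap.restrict t.1 (hstab t))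
    obtain ⟨v, hv⟩ := hc.exists_hasEigenvector
    obtain ⟨u₀, hu₀, hne⟩ := ht c
    set U' : Submodule ℂ (CuspForm (Gamma0 N) 2) := U ⊓ LinearMap.ker (t.1 - c • LinearMap.id)
    have hlt : U' < U := lt_of_le_of_ne inf_le_left fun h => hne (by
      have := (h ▸ hu₀ : u₀ ∈ U').2
      simpa [sub_eq_zero] using this)
    have hne' : U' ≠ ⊥ := fun h => hv.2 (Subtype.ext (by
      have h1 := congrArg Subtype.val hv.apply_eq_smul
      simp only [LinearMap.coe_restrict_apply, SetLike.val_smul] at h1
      have h2 : (v : CuspForm (Gamma0 N) 2) ∈ U' := ⟨v.2, by simp [h1]⟩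
      rw [h] at h2
      exact h2))
    obtain ⟨g, hg, hg0, hgE⟩ := IH _ (hn ▸ Submodule.finrank_lt_finrank_of_lt hlt) hne'
      (fun s u hu => ⟨hstab s u hu.1, by
        have h1 := hu.2
        simp only [SetLike.mem_coe, LinearMap.mem_ker, LinearMap.sub_apply, LinearMap.smul_apply,
          LinearMap.id_apply, sub_eq_zero] at h1 ⊢
        rw [← Module.End.mul_apply, ← MulMemClass.coe_mul, mul_comm, MulMemClass.coe_mul,
          Module.End.mul_apply, h1, map_smul]⟩) rfl
    exact ⟨g, hg.1, hg0, hgE⟩

/-- Common eigenvectors of the Hecke operators away from the level span the space of forms. -/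
theorem span_heckeEigenvectors (hint : CuspForm.HasIntegralStructure N 2)
    (hNS : ∀ q : ℕ, q.Prime → q ∣ N → q ∈ S) :
    Submodule.span ℂ (heckeEigenvectors N S) = ⊤ := by
  set W := Submodule.span ℂ (heckeEigenvectors N S)
  have hW : ∀ t : CuspForm.heckeAlgebra N 2 S, ∀ u ∈ W, t.1 u ∈ W := by
    intro t u hu
    induction hu using Submodule.span_induction with
    | mem x hx =>
      obtain ⟨c, hc⟩ := hx t
      exact hc ▸ W.smul_mem c (Submodule.subset_span hx)
    | zero => simp
    | add x y _ _ ihx ihy => rw [map_add]; exact W.add_mem ihx ihy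
    | smul c x _ ihx => rw [map_smul]; exact W.smul_mem c ihx
  have hbot : peterssonOrth W = ⊥ := by
    by_contra h
    obtain ⟨g, hg, hg0, hgE⟩ := exists_eigenvector_mem hint h fun t u hu v hv => by
      rw [← peterssonInt_hecke hNS t v u]
      exact hu _ (hW t v hv)
    exact hg0 (eq_zero_of_peterssonInt_self (hg g (Submodule.subset_span hgE)))
  have h := (isCompl_peterssonOrth hint W).sup_eq_top
  rwa [hbot, sup_bot_eq] at h

end FLTAgent.Newforms

end
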