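import Fermat.Agent.Eigenforms.Character
import Fermat.Prelude.Def_CuspForm_Newforms

/-!
# Occurrence of eigen-systems

Newforms attached to eigenforms (`exists_newform_of_eigenform`), and a criterion for an
eigen-system to occur at a lower level (`goodEigensystemOccursAt_of_eigenvector`).
-/

set_option autoImplicit false

noncomputable section

open CongruenceSubgroup ModularFormClass FLTAgent.Eigenforms

namespace FLTAgent.Newforms

variable {N : ℕ}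

/-- A nonzero common eigenvector in a lower level witnesses `GoodEigensystemOccursAt`. -/
theorem goodEigensystemOccursAt_of_eigenvector {M : ℕ} [NeZero M]
    (hint : CuspForm.HasIntegralStructure M 2) (hMN : M ∣ N) {f : CuspForm (Gamma0 N) 2}
    {h : CuspForm (Gamma0 M) 2} (h0 : h ≠ 0)
    (heig : ∀ ℓ (hℓ : ℓ.Prime) (hℓN : ¬ ℓ ∣ N),
      CuspForm.heckeTLin 2 hℓ (fun hh => hℓN (hh.trans hMN)) h = qCoeff f ℓ • h) :
    f.GoodEigensystemOccursAt M := by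
  obtain ⟨g, hg, hgh⟩ := exists_eigenform_of_eigenvector (S := {ℓ | ℓ ∣ N}) hint h0
    (fun ℓ hℓ _ hℓN => ⟨_, heig ℓ hℓ hℓN⟩) (fun q hqM _ hqN => absurd (hqM.trans hMN) hqN)
  refine ⟨g, hg, fun ℓ hℓ hℓN => ?_⟩
  rw [← eigenChar_T (S := {ℓ | ℓ ∣ N}) hg hℓ (fun hh => hℓN (hh.trans hMN)) hℓN]
  exact smul_left_injective ℂ h0 ((hgh _).symm.trans (heig ℓ hℓ hℓN))

theorem goodEigensystemOccursAt_trans {M K : ℕ} {f : CuspForm (Gamma0 N) 2}
    {g : CuspForm (Gamma0 M) 2} (hMN : M ∣ N)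
    (hfg : ∀ ℓ : ℕ, ℓ.Prime → ¬ ℓ ∣ N → qCoeff g ℓ = qCoeff f ℓ)
    (h : g.GoodEigensystemOccursAt K) : f.GoodEigensystemOccursAt K := by
  obtain ⟨k, hk, hkg⟩ := h
  exact ⟨k, hk, fun ℓ hℓ hℓN =>
    (hkg ℓ hℓ fun hh => hℓN (hh.trans hMN)).trans (hfg ℓ hℓ hℓN)⟩

/-- The good eigen-system of every normalised eigenform comes from a newform of a level dividing
the given one. -/
theorem exists_newform_of_eigenform [NeZero N] {f : CuspForm (Gamma0 N) 2}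
    (hf : f.IsNormalizedEigenform) :
    ∃ (M : ℕ) (_ : NeZero M) (g : CuspForm (Gamma0 M) 2), M ∣ N ∧ g.IsNewform ∧
      ∀ ℓ : ℕ, ℓ.Prime → ¬ ℓ ∣ N → qCoeff g ℓ = qCoeff f ℓ := by
  classical
  have hex : ∃ M, M ∣ N ∧ f.GoodEigensystemOccursAt M :=
    ⟨N, dvd_rfl, CuspForm.GoodEigensystemOccursAt.refl hf⟩
  set M := Nat.find hex with hMdef
  obtain ⟨hMN, g, hg, hgf⟩ := Nat.find_spec hex
  have hM0 : M ≠ 0 := fun h => NeZero.ne N (Nat.eq_zero_of_zero_dvd (h ▸ hMN))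
  refine ⟨M, ⟨hM0⟩, g, hMN, ⟨hg, fun K hKM hKne hK => ?_⟩, hgf⟩
  refine Nat.find_min hex (lt_of_le_of_ne (Nat.le_of_dvd (Nat.pos_of_ne_zero hM0) hKM) hKne)
    ⟨hKM.trans hMN, ?_⟩
  exact goodEigensystemOccursAt_trans hMN hgf hK

end FLTAgent.Newforms

end
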