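import Fermat.Agent.Newforms.Slash

/-!
# Cosets of the Hecke correspondence

The `ℓ + 1` left cosets of integral matrices of determinant `ℓ` (`exists_eq_mul_heckeMat`), and
commutation of `T_ℓ` with slash operators (`heckeT_slash`).
-/

set_option autoImplicit false

noncomputable section

open CongruenceSubgroup UpperHalfPlane Matrix
open scoped MatrixGroups ModularForm

namespace FLTAgent.Newforms

/-- The standard representatives of determinant `p`. -/
def heckeMat (p : ℕ) : Option (Fin p) → IMat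
  | none => !![(p : ℤ), 0; 0, 1]
  | some j => !![1, (j : ℤ); 0, (p : ℤ)]

theorem det_heckeMat (p : ℕ) (x : Option (Fin p)) : (heckeMat p x).det = p := by
  cases x <;> simp [heckeMat, Matrix.det_fin_two_of]

theorem intGL_heckeMat {p : ℕ} (hp : p ≠ 0) (x : Option (Fin p)) :
    intGL (heckeMat p x) =
      x.elim (ModularForm.heckeDiagMatrix p) fun j => ModularForm.heckeMatrix p j := by
  have hdet : (heckeMat p x).det ≠ 0 := by rw [det_heckeMat]; exact_mod_cast hp
  refine Units.ext ?_
  rw [val_intGL hdet]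
  cases x <;> ext i j <;> fin_cases i <;> fin_cases j <;>
    simp [heckeMat, ModularForm.val_heckeMatrix hp, ModularForm.val_heckeDiagMatrix hp]

theorem heckeT_eq_sum (k : ℤ) {p : ℕ} (hp : p ≠ 0) (f : ℍ → ℂ) :
    ModularForm.heckeT k p f = ∑ x : Option (Fin p), f ∣[k] intGL (heckeMat p x) := by
  rw [Fintype.sum_option, ModularForm.heckeT_def, add_comm]
  simp only [intGL_heckeMat hp, Option.elim]
  rw [Fin.sum_univ_eq_sum_range fun j => f ∣[k] ModularForm.heckeMatrix p j]

/-- Classification of integral matrices of determinant `p` with lower left entry divisible by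
`N`, up to left multiplication by `Γ₀(N)`. -/
theorem exists_eq_mul_heckeMat {N p : ℕ} (hp : p.Prime) (hpN : ¬ p ∣ N) (C : IMat)
    (hdet : C.det = p) (hC : (N : ℤ) ∣ C 1 0) :
    ∃ y, ∃ g ∈ Gamma0 N, C = (g : SL(2, ℤ)).1 * heckeMat p y := by
  have : Fact p.Prime := ⟨hp⟩
  rw [Matrix.det_fin_two] at hdet
  have hmem : ∀ x : SL(2, ℤ), (N : ℤ) ∣ x.1 1 0 → x ∈ Gamma0 N := fun x h =>
    Gamma0_mem.mpr ((ZMod.intCast_zmod_eq_zero_iff_dvd _ _).mpr h)
  have hcop : IsCoprime (N : ℤ) (p : ℤ) :=
    (Nat.isCoprime_iff_coprime.mpr (hp.coprime_iff_not_dvd.mpr hpN)).symm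
  by_cases h : (p : ℤ) ∣ C 0 0 ∧ (p : ℤ) ∣ C 1 0
  · obtain ⟨⟨a, ha⟩, ⟨c, hc⟩⟩ := h
    have hd : (!![a, C 0 1; c, C 1 1] : IMat).det = 1 := by
      rw [Matrix.det_fin_two_of]
      refine mul_left_cancel₀ (show (p : ℤ) ≠ 0 by exact_mod_cast hp.ne_zero) ?_
      rw [ha, hc] at hdet
      linear_combination hdet
    refine ⟨none, ⟨_, hd⟩, hmem _ (hcop.dvd_of_dvd_mul_left (hc ▸ hC)), ?_⟩
    ext i j
    fin_cases i <;> fin_cases j <;> simp [heckeMat, Matrix.mul_apply, Fin.sum_univ_two, ha, hc] <;>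
      ring
  · have hdet' : ((C 0 0 : ZMod p)) * C 1 1 = C 0 1 * C 1 0 := by
      have h' := congrArg (fun z : ℤ => (z : ZMod p)) hdet
      push_cast at h'
      rw [ZMod.natCast_self] at h'
      linear_combination h'
    obtain ⟨y, hy1, hy2⟩ : ∃ y : ZMod p,
        (C 0 1 : ZMod p) = y * C 0 0 ∧ (C 1 1 : ZMod p) = y * C 1 0 := by
      by_cases ha : (C 0 0 : ZMod p) = 0
      · have hc : (C 1 0 : ZMod p) ≠ 0 := fun hc =>
          h ⟨(ZMod.intCast_zmod_eq_zero_iff_dvd _ _).mp ha,
            (ZMod.intCast_zmod_eq_zero_iff_dvd _ _).mp hc⟩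
        refine ⟨C 1 1 / C 1 0, ?_, by field_simp⟩
        rw [ha, zero_mul] at hdet'
        rw [ha, mul_zero]
        exact (mul_eq_zero.mp hdet'.symm).resolve_right hc
      · exact ⟨C 0 1 / C 0 0, by field_simp, by field_simp; linear_combination hdet'⟩
    obtain ⟨b, hb⟩ : (p : ℤ) ∣ C 0 1 - (y.val : ℤ) * C 0 0 := by
      rw [← ZMod.intCast_zmod_eq_zero_iff_dvd]
      push_cast
      rw [ZMod.natCast_zmod_val, hy1, sub_self]
    obtain ⟨d, hd⟩ : (p : ℤ) ∣ C 1 1 - (y.val : ℤ) * C 1 0 := by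
      rw [← ZMod.intCast_zmod_eq_zero_iff_dvd]
      push_cast
      rw [ZMod.natCast_zmod_val, hy2, sub_self]
    have hdet1 : (!![C 0 0, b; C 1 0, d] : IMat).det = 1 := by
      rw [Matrix.det_fin_two_of]
      refine mul_left_cancel₀ (show (p : ℤ) ≠ 0 by exact_mod_cast hp.ne_zero) ?_
      linear_combination hdet - C 0 0 * hd + C 1 0 * hb
    refine ⟨some ⟨y.val, y.val_lt⟩, ⟨_, hdet1⟩, hmem _ hC, ?_⟩
    ext i j
    fin_cases i <;> fin_cases j <;> simp [heckeMat, Matrix.mul_apply, Fin.sum_univ_two,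
      -ZMod.natCast_val]
    · linear_combination hb
    · linear_combination hd

theorem eq_of_dvd_heckeMat_mul_adjugate {p : ℕ} (hp : p.Prime) (x x' : Option (Fin p))
    (h : ∀ i j, (p : ℤ) ∣ (heckeMat p x * (heckeMat p x').adjugate) i j) : x = x' := by
  rcases x with _ | j <;> rcases x' with _ | j'
  · rfl
  · have h1 := h 1 1
    simp [heckeMat, Matrix.adjugate_fin_two_of, Matrix.mul_apply, Fin.sum_univ_two] at h1
    exact absurd (Int.eq_one_of_dvd_one (by positivity) h1) (by exact_mod_cast hp.ne_one)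
  · have h1 := h 0 0
    simp [heckeMat, Matrix.adjugate_fin_two_of, Matrix.mul_apply, Fin.sum_univ_two] at h1
    exact absurd (Int.eq_one_of_dvd_one (by positivity) h1) (by exact_mod_cast hp.ne_one)
  · have h1 := h 0 1
    simp [heckeMat, Matrix.adjugate_fin_two_of, Matrix.mul_apply, Fin.sum_univ_two] at h1
    refine congrArg some (Fin.ext ?_)
    have h2 : ((j : ℤ) - (j' : ℤ)) = 0 :=
      Int.eq_zero_of_abs_lt_dvd (m := (p : ℤ)) (by rwa [sub_eq_add_neg, add_comm]) <| by
        have := j.isLt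
        have := j'.isLt
        rw [abs_lt]
        omega
    omega

/-- `A` commutes with the Hecke correspondence at `p`. -/
def HeckeCompat (M p : ℕ) (A : IMat) : Prop :=
  ∀ x : Option (Fin p), ∃ C : IMat, (M : ℤ) ∣ C 1 0 ∧ A * heckeMat p x = C * A

/-- Slashing by a matrix compatible with the Hecke correspondence commutes with `T_p`. -/
theorem heckeT_slash {M p : ℕ} (hp : p.Prime) (hpM : ¬ p ∣ M) {A : IMat} (hA : A.det ≠ 0)
    (hAp : ¬ (p : ℤ) ∣ A.det) (h : HeckeCompat M p A) {F : ℍ → ℂ} (hF : IsGamma0Inv M F) :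
    ModularForm.heckeT 2 p (F ∣[(2 : ℤ)] intGL A) =
      ModularForm.heckeT 2 p F ∣[(2 : ℤ)] intGL A := by
  have hp0 : (p : ℤ) ≠ 0 := by exact_mod_cast hp.ne_zero
  have hy : ∀ x, ∃ y, ∃ g ∈ Gamma0 M,
      A * heckeMat p x = (g : SL(2, ℤ)).1 * heckeMat p y * A := by
    intro x
    obtain ⟨C, hC, heq⟩ := h x
    have hd : C.det = p := by
      have h1 := congrArg Matrix.det heq
      rw [Matrix.det_mul, Matrix.det_mul, det_heckeMat, mul_comm] at h1
      exact (mul_right_cancel₀ hA h1).symm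
    obtain ⟨y, g, hg, hCg⟩ := exists_eq_mul_heckeMat hp hpM C hd hC
    exact ⟨y, g, hg, by rw [heq, hCg]⟩
  choose π g hg hπ using hy
  have hinj : Function.Injective π := fun x x' hxx => by
    refine eq_of_dvd_heckeMat_mul_adjugate hp x x' fun i j => ?_
    -- `A h_x adj(h_x') adj A` is `p` times an integral matrix
    have e : A * (heckeMat p x * (heckeMat p x').adjugate) * A.adjugate =
        ((p : ℤ) * A.det) • ((g x).1 * (g x').1.adjugate) := by
      have e' : Matrix.adjugate (A * heckeMat p x') =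
          A.adjugate * (heckeMat p (π x')).adjugate * (g x').1.adjugate := by
        rw [hπ x', Matrix.adjugate_mul_distrib, Matrix.adjugate_mul_distrib, mul_assoc]
      rw [Matrix.adjugate_mul_distrib] at e'
      calc A * (heckeMat p x * (heckeMat p x').adjugate) * A.adjugate
          = A * heckeMat p x * ((heckeMat p x').adjugate * A.adjugate) := by
            simp only [mul_assoc]
        _ = (g x).1 * (heckeMat p (π x) * (A * A.adjugate) * (heckeMat p (π x')).adjugate) *
            (g x').1.adjugate := by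
          rw [e', hπ x]
          simp only [mul_assoc]
        _ = _ := by
          rw [hxx, Matrix.mul_adjugate, mul_smul_comm, mul_one, smul_mul_assoc,
            Matrix.mul_adjugate, det_heckeMat, smul_smul, mul_smul_comm, mul_one, smul_mul_assoc,
            mul_comm A.det]
    have e2 := congrArg (fun X => A.adjugate * X * A) e
    simp only [← mul_assoc, Matrix.adjugate_mul, Matrix.smul_mul, one_mul] at e2
    simp only [mul_assoc, Matrix.adjugate_mul, Matrix.mul_smul, Matrix.smul_mul, mul_one,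
      smul_smul] at e2
    have e3 := congrFun (congrFun e2 i) j
    simp only [Matrix.smul_apply, smul_eq_mul] at e3
    have hdvd : (p : ℤ) ∣
        A.det * A.det * (heckeMat p x * (heckeMat p x').adjugate) i j := by
      rw [e3]
      exact Dvd.dvd.mul_right (Dvd.intro _ rfl) _
    have hpp : Prime (p : ℤ) := Nat.prime_iff_prime_int.mp hp
    exact ((hpp.dvd_mul.mp hdvd).resolve_left
      fun h' => hAp ((hpp.dvd_mul.mp h').elim id id))
  rw [heckeT_eq_sum 2 hp.ne_zero, heckeT_eq_sum 2 hp.ne_zero, SlashAction.sum_slash,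
    ← Equiv.sum_comp (Equiv.ofBijective π (Finite.injective_iff_bijective.mp hinj))
    (fun y => (F ∣[(2 : ℤ)] intGL (heckeMat p y)) ∣[(2 : ℤ)] intGL A)]
  refine Finset.sum_congr rfl fun x _ => ?_
  have hdx : ∀ z, (heckeMat p z).det ≠ 0 := fun z => by rw [det_heckeMat]; exact hp0
  have hdg : ∀ z : SL(2, ℤ), z.1.det ≠ 0 := fun z => by rw [z.2]; exact one_ne_zero
  rw [← SlashAction.slash_mul, intGL_mul hA (hdx x), hπ x,
    ← intGL_mul (by rw [Matrix.det_mul]; exact mul_ne_zero (hdg _) (hdx _)) hA,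
    ← intGL_mul (hdg _) (hdx _), ← mapGL_eq_intGL, SlashAction.slash_mul, SlashAction.slash_mul,
    hF _ (hg x)]
  rfl

end FLTAgent.Newforms

end
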