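import Mathlib.Analysis.Complex.UpperHalfPlane.Measure
import Mathlib.NumberTheory.Modular
import Mathlib.MeasureTheory.Group.Action
import Mathlib.MeasureTheory.Integral.Bochner.Basic
import Mathlib.MeasureTheory.Measure.Lebesgue.EqHaar
import Mathlib.MeasureTheory.Measure.Prod
import Mathlib.Analysis.SpecialFunctions.ImproperIntegrals
import Mathlib.GroupTheory.Index

/-!
# Integration over quotients of the upper half-plane

Integration of `H`-invariant functions on the upper half-plane over `H \ ℍ`, for finite index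
subgroups `H` of `SL(2, ℤ)`, through weight functions (`IsWeight`): all weights give the same
integral (`integral_weight_eq`).
-/

set_option autoImplicit false

noncomputable section

open MeasureTheory UpperHalfPlane ENNReal ModularGroup
open scoped MatrixGroups Modular

namespace FLTAgent.Newforms

theorem countable_SL2Z : Countable SL(2, ℤ) :=
  inferInstanceAs (Countable {A : Fin 2 → Fin 2 → ℤ // Matrix.det A = 1})

theorem countable_subgroup_SL2Z (H : Subgroup SL(2, ℤ)) : Countable H :=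
  haveI := countable_SL2Z
  inferInstance

attribute [local instance] countable_SL2Z countable_subgroup_SL2Z

/-- The standard fundamental domain is measurable. -/
theorem measurableSet_fd : MeasurableSet (𝒟 : Set ℍ) := isClosed_fd.measurableSet

/-- The action of a modular matrix is a measurable embedding. -/
theorem measurableEmbedding_SL_smul (g : SL(2, ℤ)) : MeasurableEmbedding fun τ : ℍ => g • τ :=
  measurableEmbedding_const_smul (Matrix.SpecialLinearGroup.mapGL ℝ g : GL (Fin 2) ℝ)

theorem measurePreserving_SL_smul (g : SL(2, ℤ)) :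
    MeasurePreserving (fun τ : ℍ => g • τ) volume volume :=
  measurePreserving_smul (μ := (volume : Measure ℍ))
    (Matrix.SpecialLinearGroup.mapGL ℝ g : GL (Fin 2) ℝ)

theorem measurable_SL_smul (g : SL(2, ℤ)) : Measurable (fun τ : ℍ => g • τ) :=
  (measurePreserving_SL_smul g).measurable

theorem volume_pos_of_isOpen {U : Set ℍ} (hU : IsOpen U) (hne : U.Nonempty) :
    0 < volume U := by
  rw [volume_eq_lintegral]
  have hO : IsOpen ((↑) '' U : Set ℂ) := isOpenEmbedding_coe.isOpenMap U hU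
  refine (setLIntegral_pos_iff (by fun_prop)).mpr ?_
  refine lt_of_lt_of_le (hO.measure_pos volume (hne.image _))
    (measure_mono (Set.subset_inter ?_ subset_rfl))
  rintro _ ⟨τ, -, rfl⟩
  simp [Function.mem_support, τ.im_ne_zero]

/-- The invariant volume of the fundamental domain is finite. -/
theorem volume_fd_lt_top : volume (𝒟 : Set ℍ) < ∞ := by
  rw [volume_eq_lintegral]
  let F : ℝ × ℝ → ℝ≥0∞ := fun p => (Set.Icc (-(1 / 2) : ℝ) (1 / 2)).indicator 1 p.1 *
    (Set.Ioi (1 / 2 : ℝ)).indicator (fun y => ENNReal.ofReal (y ^ (-2 : ℝ))) p.2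
  have hF : Measurable F := by fun_prop (disch := measurability)
  have hmp := Complex.volume_preserving_equiv_real_prod
  refine lt_of_le_of_lt (b := ∫⁻ z : ℂ, F (Complex.measurableEquivRealProd z)) ?_ ?_
  · rw [← lintegral_indicator (measurableEmbedding_coe.measurableSet_image.mpr
      isClosed_fd.measurableSet)]
    refine lintegral_mono fun z => ?_
    by_cases hz : z ∈ UpperHalfPlane.coe '' (𝒟 : Set ℍ)
    swap
    · rw [Set.indicator_of_notMem hz]
      exact bot_le
    rw [Set.indicator_of_mem hz]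
    obtain ⟨τ, hτ, rfl⟩ := hz
    have him : 1 / 2 < τ.im := by nlinarith [three_le_four_mul_im_sq_of_mem_fd hτ, τ.im_pos]
    have hre : τ.re ∈ Set.Icc (-(1 / 2) : ℝ) (1 / 2) := abs_le.mp hτ.2
    have hre' : (τ : ℂ).re ∈ Set.Icc (-(1 / 2) : ℝ) (1 / 2) := hre
    have him' : (τ : ℂ).im ∈ Set.Ioi (1 / 2 : ℝ) := him
    simp only [F, Complex.measurableEquivRealProd_apply]
    rw [Set.indicator_of_mem hre', Set.indicator_of_mem him', Pi.one_apply, one_mul,
      ENNReal.coe_nnreal_eq]
    refine ENNReal.ofReal_le_ofReal (le_of_eq ?_)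
    rw [show (-2 : ℝ) = ((-2 : ℤ) : ℝ) by norm_num, Real.rpow_intCast, NNReal.coe_pow,
      NNReal.coe_div]
    simp [Real.norm_eq_abs, abs_of_pos τ.im_pos, zpow_neg, UpperHalfPlane.coe_im]
  · rw [hmp.lintegral_comp hF, Measure.volume_eq_prod,
      lintegral_prod_mul (by fun_prop (disch := measurability))
        (by fun_prop (disch := measurability)),
      lintegral_indicator_one measurableSet_Icc, lintegral_indicator measurableSet_Ioi]
    refine ENNReal.mul_lt_top (by simp) ?_
    exact lt_of_le_of_lt (lintegral_ofReal_le_lintegral_enorm _)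
      (integrableOn_Ioi_rpow_of_lt (by norm_num) (by norm_num : (0 : ℝ) < 1 / 2)).2

/-- The boundary of the fundamental domain is null. -/
theorem volume_fd_diff_fdo : volume ((𝒟 : Set ℍ) \ 𝒟ᵒ) = 0 := by
  rw [volume_eq_lintegral]
  refine setLIntegral_measure_zero _ _ ?_
  refine measure_mono_null (t := Metric.sphere (0 : ℂ) 1 ∪
    ({z : ℂ | z.re = 1 / 2} ∪ {z : ℂ | z.re = -(1 / 2)})) ?_ ?_
  · rintro _ ⟨τ, ⟨⟨h1, h2⟩, hnot⟩, rfl⟩
    rcases h1.lt_or_eq with h | h
    · rcases h2.lt_or_eq with h' | h'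
      · exact absurd ⟨h, h'⟩ hnot
      · right
        rcases abs_eq (by norm_num : (0 : ℝ) ≤ 1 / 2) |>.mp h' with h'' | h''
        · exact Or.inl h''
        · exact Or.inr h''
    · left
      rw [mem_sphere_zero_iff_norm]
      nlinarith [Complex.normSq_eq_norm_sq (τ : ℂ), norm_nonneg (τ : ℂ)]
  · have hline : ∀ c : ℝ, volume {z : ℂ | z.re = c} = 0 := fun c => by
      have : {z : ℂ | z.re = c} = Complex.measurableEquivRealProd ⁻¹' ({c} ×ˢ Set.univ) := by
        ext z; simp
      rw [this, Complex.volume_preserving_equiv_real_prod.measure_preimage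
        ((measurableSet_singleton c).prod MeasurableSet.univ).nullMeasurableSet,
        Measure.volume_eq_prod, Measure.prod_prod, Real.volume_singleton, zero_mul]
    simp [measure_union_null_iff, Measure.addHaar_sphere, hline]

/-- A weight function for `H`: its sum over every `H`-orbit is `2` almost everywhere. -/
structure IsWeight (H : Subgroup SL(2, ℤ)) (w : ℍ → ℝ≥0∞) : Prop where
  measurable : Measurable w
  tsum_eq : ∀ᵐ τ, ∑' h : H, w ((h : SL(2, ℤ)) • τ) = 2
  finite : ∫⁻ τ, w τ ≠ ∞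

/-- The indicator of the fundamental domain is a weight for `SL(2, ℤ)`. -/
theorem isWeight_top : IsWeight ⊤ ((𝒟 : Set ℍ).indicator 1) := by
  refine ⟨measurable_one.indicator isClosed_fd.measurableSet, ?_, ?_⟩
  · have hnull : ∀ g : SL(2, ℤ), ∀ᵐ τ : ℍ, g • τ ∉ (𝒟 : Set ℍ) \ 𝒟ᵒ := fun g => by
      rw [ae_iff]
      simp only [not_not]
      exact (measurePreserving_SL_smul g).quasiMeasurePreserving.preimage_null volume_fd_diff_fdo
    filter_upwards [ae_all_iff.mpr hnull] with τ hτ
    obtain ⟨g, hg⟩ := exists_smul_mem_fd τ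
    have hgo : g • τ ∈ (𝒟ᵒ : Set ℍ) := by_contra fun h => hτ g ⟨hg, h⟩
    have hne : g ≠ -g := fun h => by
      have h2 : g.1 = -g.1 := congrArg Subtype.val h
      have h3 := congrArg Matrix.det h2
      have h00 : ∀ i j, g.1 i j = 0 := fun i j => by
        have := congrFun (congrFun h2 i) j
        simp only [Matrix.neg_apply] at this
        omega
      rw [g.2, Matrix.det_neg, g.2] at h3
      have h4 := g.2
      rw [Matrix.det_fin_two, h00, h00, h00] at h4
      simp at h4
    have hmem : ∀ g' : SL(2, ℤ), g' ∉ ({g, -g} : Finset SL(2, ℤ)) →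
        (𝒟 : Set ℍ).indicator (1 : ℍ → ℝ≥0∞) (g' • τ) = 0 := fun g' hg' => by
      refine Set.indicator_of_notMem (fun h => hg' ?_) _
      rcases eq_one_or_neg_one_of_mem_fdo_mem_fd (g := g' * g⁻¹) hgo
        (by rwa [mul_smul, inv_smul_smul]) with h1 | h1
      · simp [show g' = g by rwa [mul_inv_eq_one] at h1]
      · simp [show g' = -g by rw [mul_inv_eq_iff_eq_mul.mp h1, neg_one_mul]]
    have hneg : (-g : SL(2, ℤ)) • τ ∈ (𝒟 : Set ℍ) := by rwa [SL_neg_smul]
    rw [← (Equiv.subtypeUnivEquiv (fun g : SL(2, ℤ) => Subgroup.mem_top g)).symm.tsum_eq]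
    simp only [Equiv.subtypeUnivEquiv_symm_apply]
    rw [tsum_eq_sum (s := {g, -g}) hmem, Finset.sum_pair hne, Set.indicator_of_mem hg,
      Set.indicator_of_mem hneg]
    simp only [Pi.one_apply]
    norm_num
  · rw [lintegral_indicator_one isClosed_fd.measurableSet]
    exact volume_fd_lt_top.ne

theorem IsWeight.comp_smul {H H' : Subgroup SL(2, ℤ)} {w : ℍ → ℝ≥0∞} (hw : IsWeight H w)
    (A : GL (Fin 2) ℝ) (e : H' ≃ H)
    (he : ∀ h : H', ∀ τ : ℍ,
      A • ((h : SL(2, ℤ)) • τ) = ((e h : SL(2, ℤ)) • (A • τ : ℍ))) :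
    IsWeight H' (fun τ => w (A • τ)) := by
  refine ⟨hw.measurable.comp (measurePreserving_smul (μ := volume) A).measurable, ?_, ?_⟩
  · filter_upwards [(measurePreserving_smul (μ := volume) A).quasiMeasurePreserving.ae hw.tsum_eq]
      with τ hτ
    rw [← hτ, ← e.tsum_eq]
    exact tsum_congr fun h => by rw [he]
  · rw [(measurePreserving_smul (μ := volume) A).lintegral_comp hw.measurable]
    exact hw.finite

/-- Weights of a larger group obtained from weights of a smaller one. -/
theorem IsWeight.sum {H H' : Subgroup SL(2, ℤ)} {w : ℍ → ℝ≥0∞} (hw : IsWeight H w)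
    {X : Type*} [Fintype X] (r : X → SL(2, ℤ)) (e : X × H' ≃ H)
    (he : ∀ (x : X) (h : H'), r x * (h : SL(2, ℤ)) = (e (x, h) : SL(2, ℤ))) :
    IsWeight H' (fun τ => ∑ x, w (r x • τ)) := by
  refine ⟨Finset.measurable_fun_sum _ fun x _ => hw.measurable.comp (measurable_SL_smul _), ?_, ?_⟩
  · filter_upwards [hw.tsum_eq] with τ hτ
    rw [← hτ, ← e.tsum_eq, ENNReal.tsum_prod', Summable.tsum_finsetSum fun _ _ => ENNReal.summable,
      tsum_fintype (L := SummationFilter.unconditional X)]
    exact Finset.sum_congr rfl fun x _ => tsum_congr fun h => by rw [← mul_smul, he]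
  · rw [lintegral_finsetSum _ (f := fun x τ => w (r x • τ)) fun x _ =>
      hw.measurable.comp (measurable_SL_smul _)]
    refine ENNReal.sum_ne_top.mpr fun x _ => ?_
    rw [(measurePreserving_SL_smul _).lintegral_comp hw.measurable]
    exact hw.finite

/-- The standard weight of a finite index subgroup. -/
def stdWeight (H : Subgroup SL(2, ℤ)) [H.FiniteIndex] (τ : ℍ) : ℝ≥0∞ :=
  letI : Fintype (SL(2, ℤ) ⧸ H) := Subgroup.fintypeQuotientOfFiniteIndex
  ∑ q : SL(2, ℤ) ⧸ H, (𝒟 : Set ℍ).indicator 1 (q.out • τ)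

theorem isWeight_stdWeight (H : Subgroup SL(2, ℤ)) [H.FiniteIndex] : IsWeight H (stdWeight H) := by
  let : Fintype (SL(2, ℤ) ⧸ H) := Subgroup.fintypeQuotientOfFiniteIndex
  refine isWeight_top.sum (fun q : SL(2, ℤ) ⧸ H => q.out)
    (Equiv.ofBijective (fun p : (SL(2, ℤ) ⧸ H) × H =>
      (⟨p.1.out * p.2, Subgroup.mem_top _⟩ : (⊤ : Subgroup SL(2, ℤ)))) ⟨?_, ?_⟩) fun q h => rfl
  · rintro ⟨q, h⟩ ⟨q', h'⟩ heq
    have h1 : q.out * (h : SL(2, ℤ)) = q'.out * (h' : SL(2, ℤ)) := congrArg Subtype.val heq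
    obtain rfl : q = q' := by
      have h2 := congrArg (QuotientGroup.mk (s := H)) h1
      rwa [QuotientGroup.mk_mul_of_mem _ h.2, QuotientGroup.mk_mul_of_mem _ h'.2,
        QuotientGroup.out_eq', QuotientGroup.out_eq'] at h2
    exact Prod.ext rfl (Subtype.ext (mul_left_cancel h1))
  · rintro ⟨g, -⟩
    exact ⟨⟨QuotientGroup.mk g, ⟨(QuotientGroup.mk g : SL(2, ℤ) ⧸ H).out⁻¹ * g,
      QuotientGroup.eq.mp (QuotientGroup.out_eq' _)⟩⟩, Subtype.ext (mul_inv_cancel_left _ _)⟩

theorem setLIntegral_weight_eq {H : Subgroup SL(2, ℤ)} {w w' : ℍ → ℝ≥0∞} (hw : IsWeight H w)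
    (hw' : IsWeight H w') {S : Set ℍ} (hS : MeasurableSet S)
    (hinv : ∀ h ∈ H, (fun τ : ℍ => h • τ) ⁻¹' S = S) :
    ∫⁻ τ in S, w τ = ∫⁻ τ in S, w' τ := by
  suffices key : ∀ {u u' : ℍ → ℝ≥0∞}, IsWeight H u → IsWeight H u' →
      2 * ∫⁻ τ in S, u τ = ∑' h : H, ∫⁻ τ in S, u τ * u' ((h : SL(2, ℤ)) • τ) by
    have hswap : ∀ h : H, ∫⁻ τ in S, w τ * w' ((h : SL(2, ℤ)) • τ) =
        ∫⁻ τ in S, w' τ * w ((h⁻¹ : H).1 • τ) := fun h => by
      have hmp := (measurePreserving_SL_smul (h : SL(2, ℤ))).restrict_preimage hS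
      rw [hinv _ h.2] at hmp
      refine ((hmp.lintegral_comp
        (hw'.measurable.mul (hw.measurable.comp (measurable_SL_smul _)))).symm.trans
        (lintegral_congr fun τ => ?_)).symm
      simp [mul_comm]
    refine (ENNReal.mul_right_inj two_ne_zero (by simp)).mp ?_
    rw [key hw hw', key hw' hw, tsum_congr hswap,
      ← (Equiv.inv H).tsum_eq fun h => ∫⁻ τ in S, w' τ * w ((h : H).1 • τ)]
    rfl
  intro u u' hu hu'
  rw [← lintegral_tsum (fun h : H =>
    (hu.measurable.fun_mul (hu'.measurable.fun_comp (measurable_SL_smul _))).aemeasurable.restrict),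
    ← lintegral_const_mul _ hu.measurable]
  refine lintegral_congr_ae ?_
  filter_upwards [ae_restrict_of_ae hu'.tsum_eq] with τ hτ
  rw [ENNReal.tsum_mul_left, hτ, mul_comm]

/-- Invariant functions have the same integral against all weights. -/
theorem integral_weight_eq {H : Subgroup SL(2, ℤ)} {w w' : ℍ → ℝ≥0∞} (hw : IsWeight H w)
    (hw' : IsWeight H w') {Φ : ℍ → ℂ} (hΦ : Measurable Φ)
    (hinv : ∀ h ∈ H, ∀ τ, Φ (h • τ) = Φ τ) :
    ∫ τ, Φ τ ∂(volume.withDensity w) = ∫ τ, Φ τ ∂(volume.withDensity w') := by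
  have hm := hΦ.comap_le
  have hsm : StronglyMeasurable[MeasurableSpace.comap Φ Complex.measurableSpace] Φ :=
    (Measurable.of_comap_le (f := Φ) le_rfl).stronglyMeasurable
  rw [integral_trim hm hsm, integral_trim hm hsm]
  congr 1
  refine @Measure.ext _ (MeasurableSpace.comap Φ Complex.measurableSpace) _ _ fun S hS => ?_
  rw [trim_measurableSet_eq hm hS, trim_measurableSet_eq hm hS, withDensity_apply _ (hm S hS),
    withDensity_apply _ (hm S hS)]
  obtain ⟨T, hT, rfl⟩ := hS
  refine setLIntegral_weight_eq hw hw' (hΦ hT) fun h hh => ?_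
  ext τ
  simp [hinv h hh τ, -sl_moeb]

theorem integrable_weight {H : Subgroup SL(2, ℤ)} {w : ℍ → ℝ≥0∞} (hw : IsWeight H w)
    {Φ : ℍ → ℂ} (hΦ : Continuous Φ) {C : ℝ} (hC : ∀ τ, ‖Φ τ‖ ≤ C) :
    Integrable Φ (volume.withDensity w) :=
  have : IsFiniteMeasure ((volume : Measure ℍ).withDensity w) :=
    isFiniteMeasure_withDensity hw.finite
  Integrable.of_bound hΦ.aestronglyMeasurable C (Filter.Eventually.of_forall hC)

end FLTAgent.Newforms

end
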