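import Fermat.Agent.Newforms.AtkinLehner
import Fermat.Agent.Newforms.Occurrence

/-!
# Coefficients of newforms at bad primes

The coefficients of newforms at primes dividing the level: `a_q² = 1` if `q ∥ N` and `a_q = 0`
if `q² ∣ N` (`newformBadPrimeCoeff`).
-/

set_option autoImplicit false

noncomputable section

open CongruenceSubgroup ModularFormClass UpperHalfPlane FLTAgent.Eigenforms
open scoped MatrixGroups ModularForm

namespace FLTAgent.Newforms

variable {N q : ℕ} [NeZero N]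

theorem heckeULin_eigenform {f : CuspForm (Gamma0 N) 2} (hf : f.IsNormalizedEigenform)
    (hq : q.Prime) (hqN : q ∣ N) : CuspForm.heckeULin 2 hqN f = qCoeff f q • f := by
  have h := heckeFormsGen_apply_eigenform hf ⟨q, hq⟩
  rwa [CuspForm.heckeFormsGen_of_dvd (q := ⟨q, hq⟩) hqN] at h

theorem heckeTLin_eigenform {f : CuspForm (Gamma0 N) 2} (hf : f.IsNormalizedEigenform)
    (hq : q.Prime) (hqN : ¬ q ∣ N) : CuspForm.heckeTLin 2 hq hqN f = qCoeff f q • f := by
  have h := heckeFormsGen_apply_eigenform hf ⟨q, hq⟩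
  rwa [CuspForm.heckeFormsGen_of_not_dvd (ℓ := ⟨q, hq⟩) hqN] at h

/-- A form invariant under `Γ₀(M)` which is an eigenvector for the good Hecke operators vanishes
if the eigen-system does not occur at level `M`. -/
theorem eq_zero_of_isGamma0Inv {M : ℕ} [NeZero M] (hint : CuspForm.HasIntegralStructure M 2)
    (hMN : M ∣ N) {f : CuspForm (Gamma0 N) 2} (hocc : ¬ f.GoodEigensystemOccursAt M)
    {h : CuspForm (Gamma0 N) 2} (hinv : IsGamma0Inv M ⇑h)
    (heig : ∀ ℓ (hℓ : ℓ.Prime) (hℓN : ¬ ℓ ∣ N),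
      CuspForm.heckeTLin 2 hℓ hℓN h = qCoeff f ℓ • h) : h = 0 := by
  by_contra h0
  refine hocc (goodEigensystemOccursAt_of_eigenvector hint hMN
    (h := lowerLevel h hinv) ?_ fun ℓ hℓ hℓN => ?_)
  · intro hh
    refine h0 (DFunLike.coe_injective ?_)
    show ⇑h = ⇑(0 : CuspForm (Gamma0 N) 2)
    rw [← coe_lowerLevel h hinv, hh, FunLike.coe_zero, FunLike.coe_zero]
  · refine DFunLike.coe_injective ?_
    have h1 := congrArg DFunLike.coe (heig ℓ hℓ hℓN)
    rw [CuspForm.coe_heckeTLin_apply, FunLike.coe_smul] at h1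
    rw [CuspForm.coe_heckeTLin_apply, FunLike.coe_smul, coe_lowerLevel, h1]

/-- If the eigen-system of `f` does not occur at level `N / q` with `q² ∣ N`, then `a_q = 0`. -/
theorem qCoeff_eq_zero_of_sq_dvd (hint : CuspForm.HasIntegralStructure (N / q) 2)
    {f : CuspForm (Gamma0 N) 2} (hf : f.IsNewformAt q) (hq : q.Prime) (hq2 : q ^ 2 ∣ N) :
    qCoeff f q = 0 := by
  obtain ⟨hfe, hqN, hocc⟩ := hf
  obtain ⟨M, hM⟩ := hqN
  have hMdiv : N / q = M := by rw [hM, Nat.mul_div_cancel_left _ hq.pos]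
  rw [hMdiv] at hocc hint
  have : NeZero M := ⟨fun h => NeZero.ne N (by rw [hM, h, Nat.mul_zero])⟩
  have hqM : q ∣ M := by
    rw [pow_two, hM] at hq2
    exact Nat.dvd_of_mul_dvd_mul_left hq.pos hq2
  have h := eq_zero_of_isGamma0Inv (f := f) hint ⟨q, by rw [hM, Nat.mul_comm]⟩ hocc
    (isGamma0Inv_heckeU_of_sq_dvd hq hM hqM f) fun ℓ hℓ hℓN => by
    rw [heckeULin_eigenform hfe hq ⟨M, hM⟩, map_smul, heckeTLin_eigenform hfe hℓ hℓN, smul_comm]
  rw [heckeULin_eigenform hfe hq ⟨M, hM⟩] at h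
  exact (smul_eq_zero.mp h).resolve_right hfe.ne_zero

/-- If the eigen-system of `f` does not occur at level `N / q` with `q ∥ N`, then the
Atkin–Lehner operator acts as `-a_q`. -/
theorem wLin_eq_neg_smul (hint : CuspForm.HasIntegralStructure (N / q) 2)
    {f : CuspForm (Gamma0 N) 2} (hf : f.IsNewformAt q) (d : ALData N q) :
    d.wLin f = -qCoeff f q • f := by
  obtain ⟨hfe, hqN, hocc⟩ := hf
  have hMdiv : N / q = d.M := Nat.div_eq_of_eq_mul_left d.hq.pos (d.hN.trans (Nat.mul_comm _ _))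
  rw [hMdiv] at hocc hint
  have : NeZero d.M := ⟨fun h => NeZero.ne N (by rw [d.hN, h, Nat.mul_zero])⟩
  have hinv := d.isGamma0Inv_trace (d.wLin f)
  rw [d.wLin_wLin, heckeULin_eigenform hfe d.hq] at hinv
  have h := eq_zero_of_isGamma0Inv (f := f) hint ⟨q, d.hN.trans (Nat.mul_comm _ _)⟩ hocc hinv
    fun ℓ hℓ hℓN => by
      rw [map_add, d.wLin_heckeTLin, map_smul, heckeTLin_eigenform hfe hℓ hℓN, map_smul, smul_add,
        smul_comm]
  exact (eq_neg_of_add_eq_zero_left h).trans (neg_smul (qCoeff f q) f).symm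

/-- If the eigen-system of `f` does not occur at level `N / q` with `q ∥ N`, then `a_q² = 1`. -/
theorem qCoeff_sq_eq_one (hint : CuspForm.HasIntegralStructure (N / q) 2)
    {f : CuspForm (Gamma0 N) 2} (hf : f.IsNewformAt q) (hq : q.Prime) (hq2 : ¬ q ^ 2 ∣ N) :
    qCoeff f q ^ 2 = 1 := by
  obtain ⟨d⟩ := exists_alData hq hf.2.1 hq2
  have h := wLin_eq_neg_smul hint hf d
  have h2 := congrArg d.wLin h
  rw [d.wLin_wLin, map_smul, h, smul_smul] at h2
  have h3 : (-qCoeff f q * -qCoeff f q - 1) • f = 0 := by rw [sub_smul, one_smul, ← h2, sub_self]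
  linear_combination (smul_eq_zero.mp h3).resolve_right hf.1.ne_zero

/-- The prelude property `NewformBadPrimeCoeff`. -/
theorem newformBadPrimeCoeff
    (hint : ∀ M : ℕ, [NeZero M] → M ∣ N → CuspForm.HasIntegralStructure M 2) :
    CuspForm.NewformBadPrimeCoeff N := by
  intro f hf q hq hqN
  have : NeZero (N / q) := ⟨(Nat.div_pos (Nat.le_of_dvd (NeZero.pos N) hqN) hq.pos).ne'⟩
  have hi := hint (N / q) (Nat.div_dvd_of_dvd hqN)
  have hfa := hf.isNewformAt hq hqN (NeZero.ne N)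
  exact ⟨fun h2 => qCoeff_sq_eq_one hi hfa hq h2, fun h2 => qCoeff_eq_zero_of_sq_dvd hi hfa hq h2⟩

end FLTAgent.Newforms

end
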