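import Fermat.Agent.Newforms.PrimeRemoval
import Fermat.Agent.Newforms.BadPrimes
import Fermat.Agent.Eigenforms.Bound

/-!
# The exponent of a prime in the level of the attached newform

An eigenform with `a_q = ± 1` at a prime `q` dividing its level exactly once has its system of
eigenvalues at a newform whose level is divisible by `q`, with the same `a_q`
(`dvd_level_of_qCoeff_sq_eq_one`).
-/

set_option autoImplicit false

noncomputable section

open CongruenceSubgroup ModularFormClass
open scoped MatrixGroups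

namespace FLTAgent.Newforms

open Eigenforms

theorem qCoeff_prime_pow_of_dvd {N q : ℕ} [NeZero N] {f : CuspForm (Gamma0 N) 2}
    (hf : f.IsNormalizedEigenform) (hq : q.Prime) (hqN : q ∣ N) (k : ℕ) :
    qCoeff f (q ^ k) = qCoeff f q ^ k := by
  induction k with
  | zero => simpa using hf.qCoeff_one
  | succ k ih =>
    have h := congrArg (fun F : CuspForm (Gamma0 N) 2 => qCoeff F (q ^ k))
      (heckeULin_eigenform hf hq hqN)
    simp only [qCoeff_heckeULin, qCoeff_smul] at h
    rw [pow_succ, h, ih, pow_succ, mul_comm]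

/-- The difference of two eigenforms with the same system is old at the level of each prime. -/
theorem exists_vSeq_eq {N q : ℕ} [NeZero N] [NeZero (N * q)] (hq : q.Prime) (hqN : ¬ q ∣ N)
    {u : CuspForm (Gamma0 (N * q)) 2}
    (hu : ∀ n : ℕ, n.Coprime (N * q) → qCoeff u n = 0) :
    ∃ y ∈ seqSpace N q 1, (fun k => qCoeff u (q ^ k)) = vSeq y := by
  have hmem := mem_shiftedOldspace_of_coprime (L := N * q) (NeZero.ne _) u hu
  unfold shiftedOldspace at hmem
  clear hu
  induction hmem using Submodule.span_induction with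
  | mem x hx =>
    obtain ⟨p, hp, M, hM0, hp0, hpM, g₀, rfl⟩ := hx
    have hpr := Nat.prime_of_mem_primeFactors hp
    by_cases hpe : p = q
    · subst hpe
      have hMN : M = N := Nat.eq_of_mul_eq_mul_left hp0 (by rw [hpM, mul_comm])
      subst hMN
      refine ⟨_, mem_seqSpace p 1 ((p : ℂ) • g₀), funext fun k => ?_⟩
      rw [qCoeff_oldLift]
      rcases k with _ | k
      · simp [vSeq, hpr.not_dvd_one]
      · rw [if_pos (dvd_pow_self p k.succ_ne_zero), vSeq, pow_succ, Nat.mul_div_cancel _ hpr.pos,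
          qCoeff_smul, one_mul]
    · refine ⟨0, zero_mem _, funext fun k => ?_⟩
      rw [qCoeff_oldLift, if_neg fun h => hpe ((Nat.prime_dvd_prime_iff_eq hpr hq).mp
        (hpr.dvd_of_dvd_pow h))]
      rcases k with _ | k <;> rfl
  | zero =>
    refine ⟨0, zero_mem _, funext fun k => ?_⟩
    rw [qCoeff_zero_form]
    rcases k with _ | k <;> rfl
  | add a b _ _ ha hb =>
    obtain ⟨y, hy, hy'⟩ := ha
    obtain ⟨z, hz, hz'⟩ := hb
    refine ⟨y + z, add_mem hy hz, funext fun k => ?_⟩
    rw [qCoeff_add, congrFun hy' k, congrFun hz' k]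
    rcases k with _ | k <;> simp [vSeq]
  | smul c a _ ha =>
    obtain ⟨y, hy, hy'⟩ := ha
    refine ⟨c • y, Submodule.smul_mem _ c hy, funext fun k => ?_⟩
    rw [qCoeff_smul, congrFun hy' k]
    rcases k with _ | k <;> simp [vSeq]

/-- The level of the newform of an eigenform with `a_q = ± 1`. -/
theorem dvd_level_of_qCoeff_sq_eq_one {N q : ℕ} [NeZero N] [NeZero (N * q)] (hq : q.Prime)
    (hqN : ¬ q ∣ N) {G : CuspForm (Gamma0 (N * q)) 2} (hG : G.IsNormalizedEigenform)
    {ε : ℂ} (hε : qCoeff G q = ε) (hε2 : ε ^ 2 = 1)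
    {M : ℕ} [NeZero M] (hM : M ∣ N * q) {g : CuspForm (Gamma0 M) 2} (hg : g.IsNewform)
    (heq : ∀ ℓ : ℕ, ℓ.Prime → ¬ ℓ ∣ N * q → qCoeff g ℓ = qCoeff G ℓ) :
    q ∣ M ∧ qCoeff g q = ε := by
  have hε0 : ε ≠ 0 := fun h => by simp [h] at hε2
  have hq0 : (q : ℂ) ≠ 0 := Nat.cast_ne_zero.mpr hq.ne_zero
  set u := G - raiseLevel hM 2 g
  have hu : ∀ n : ℕ, n.Coprime (N * q) → qCoeff u n = 0 := by
    intro n hn
    rw [qCoeff_sub, show qCoeff (raiseLevel hM 2 g) n = qCoeff g n from rfl]
    have h := qCoeff_eq_mul_of_eigen (L := N * q) dvd_rfl (a := fun ℓ => qCoeff G ℓ)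
      (fun p hp hpD => heckeTLin_eigenform hG hp hpD) hM
      (fun p hp hpD => (heckeTLin_eigenform hg.1 hp fun h => hpD (h.trans hM)).trans
        (by rw [heq p hp hpD])) hn
    rw [hg.1.qCoeff_one, hG.qCoeff_one, mul_one, mul_one] at h
    rw [h, sub_self]
  obtain ⟨Y, hY, hYu⟩ := exists_vSeq_eq hq hqN hu
  have hYk : ∀ k, Y k = ε ^ (k + 1) - qCoeff g (q ^ (k + 1)) := fun k => by
    have h := congrFun hYu (k + 1)
    simp only [vSeq] at h
    rw [← h, qCoeff_sub, show qCoeff (raiseLevel hM 2 g) _ = qCoeff g _ from rfl,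
      qCoeff_prime_pow_of_dvd hG hq (dvd_mul_left q N), hε]
  have hTY := tSeq_mem_seqSpace hq hqN hq.not_dvd_one _ hY
  have hgeom := geom_not_mem_seqSpace hq hqN hq.not_dvd_one hε0
  have hq2 : ¬ q ^ 2 ∣ M := fun h => hqN (Nat.dvd_of_mul_dvd_mul_right hq.pos
    (by rw [← pow_two]; exact h.trans hM))
  by_cases hqM : q ∣ M
  · refine ⟨hqM, ?_⟩
    set b := qCoeff g q
    have hb2 : b ^ 2 = 1 :=
      ((newformBadPrimeCoeff fun K _ _ => MFIntegral.hasIntegralStructure K 2) g hg q hq hqM).1 hq2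
    by_contra hne
    have hb : b = -ε :=
      (sq_eq_sq_iff_eq_or_eq_neg.mp (hb2.trans hε2.symm)).resolve_left hne
    have hYk' : ∀ k, Y k = ε * (ε ^ k + (-ε) ^ k) := fun k => by
      have e : qCoeff g (q ^ (k + 1)) = (-ε) ^ (k + 1) := by
        rw [qCoeff_prime_pow_of_dvd hg.1 hq hqM]; exact congrArg (· ^ (k + 1)) hb
      rw [hYk, e, pow_succ, pow_succ]
      ring
    have hTY' : ∀ k, tSeq (q : ℂ) Y k = (1 + q) * (ε ^ k - (-ε) ^ k) := fun k => by
      rcases k with _ | k
      · simp only [tSeq, hYk']; ring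
      · simp only [tSeq, hYk', pow_succ]
        linear_combination (ε ^ k * ε + (-ε) ^ k * ε) * hε2
    refine hgeom ?_
    have hq1 : (1 : ℂ) + q ≠ 0 := by exact_mod_cast (by omega : 1 + q ≠ 0)
    have h := (seqSpace N q 1).smul_mem (2 : ℂ)⁻¹ ((seqSpace N q 1).add_mem
      ((seqSpace N q 1).smul_mem ε⁻¹ hY) ((seqSpace N q 1).smul_mem ((1 : ℂ) + q)⁻¹ hTY))
    convert h using 1
    funext k
    simp only [Pi.smul_apply, Pi.add_apply, smul_eq_mul, hYk', hTY']
    field_simp
    ring
  · exfalso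
    have hMN : M ∣ N := (Nat.coprime_comm.mp
        (hq.coprime_iff_not_dvd.mpr hqM)).dvd_of_dvd_mul_right hM
    set a := qCoeff g q
    have hrec : ∀ k, qCoeff g (q ^ (k + 2)) =
        a * qCoeff g (q ^ (k + 1)) - q * qCoeff g (q ^ k) :=
      fun k => hg.1.qCoeff_prime_pow_of_not_dvd q k hq hqM
    have hA : ∀ k, tSeq (q : ℂ) Y k - a * Y k = ε * (ε + q / ε - a) * ε ^ k := fun k => by
      rcases k with _ | k
      · simp only [tSeq, hYk, pow_zero, zero_add, pow_one, hrec 0, hg.1.qCoeff_one]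
        field_simp
        ring
      · simp only [tSeq, hYk, hrec (k + 1)]
        field_simp
        ring
    by_cases hc : ε + q / ε - a = 0
    · have hlt := norm_qCoeff_prime_lt hg.1 hq hqM
      have ha : a = ε * (1 + q) := by
        rw [sub_eq_zero] at hc
        rw [← hc]
        field_simp
        linear_combination (-(q : ℂ)) * hε2
      have hn : ‖ε‖ = 1 := by
        have := congrArg norm hε2
        rw [norm_pow, norm_one] at this
        exact (pow_eq_one_iff_of_nonneg (norm_nonneg ε) two_ne_zero).mp this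
      rw [show qCoeff g q = a from rfl, ha, norm_mul, hn, one_mul] at hlt
      rw [show ((1 : ℂ) + q) = ((1 + q : ℕ) : ℂ) by push_cast; ring, Complex.norm_natCast] at hlt
      push_cast at hlt
      linarith
    · refine hgeom ?_
      have h := (seqSpace N q 1).smul_mem (ε * (ε + q / ε - a))⁻¹
        ((seqSpace N q 1).sub_mem hTY ((seqSpace N q 1).smul_mem a hY))
      convert h using 1
      funext k
      rw [Pi.smul_apply, Pi.sub_apply, Pi.smul_apply, smul_eq_mul, smul_eq_mul, hA,
        ← mul_assoc, inv_mul_cancel₀ (mul_ne_zero hε0 hc), one_mul]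

end FLTAgent.Newforms

end
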