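import Fermat.Agent.Newforms.MainLemma
import Fermat.Agent.Eigenforms.Oldforms
import Fermat.Agent.MFIntegral.IntegralStructure

/-!
# Removing primes from the main lemma

Consequences of the main lemma which come from the finite dimensionality of the spaces of forms:
primes not dividing the level can be dropped from its hypothesis
(`mem_shiftedOldspace_of_coprime`), and the coefficients at the powers of such a prime never form a
geometric sequence.
-/

set_option autoImplicit false

noncomputable section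

open CongruenceSubgroup UpperHalfPlane
open scoped MatrixGroups ModularForm

namespace FLTAgent.Newforms

open Eigenforms ModularFormClass

theorem qCoeff_oldLift {M N d : ℕ} [NeZero M] [NeZero N] (hd : 0 < d) (h : d * M ∣ N)
    (g : CuspForm (Gamma0 M) 2) (n : ℕ) :
    qCoeff (oldLift hd h g) n = if d ∣ n then (d : ℂ) * qCoeff g (n / d) else 0 := by
  symm
  refine ModularFormClass.qExpansion_coeff_unique
    (c := fun n => if d ∣ n then (d : ℂ) * qCoeff g (n / d) else 0) one_pos
    (one_mem_strictPeriods_Gamma0 N) (fun τ => ?_) n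
  have hA := det_diag_pos hd
  set A := intGL !![(d : ℤ), 0; 0, 1] with hAdef
  have hden : denom A τ = 1 := by simp [denom, hAdef, val_intGL hA.ne']
  have hτ : ((A • τ : ℍ) : ℂ) = d * τ := by
    rw [coe_smul_of_det_pos (by rw [hAdef, det_intGL hA.ne']; exact_mod_cast hA), hden, num]
    simp [hAdef, val_intGL hA.ne']
  have hval : oldLift hd h g τ = (d : ℂ) * g (A • τ) := by
    show (⇑g ∣[(2 : ℤ)] A) τ = _
    rw [ModularForm.slash_apply, hAdef, σ_intGL hA, det_intGL hA.ne', ← hAdef, hden]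
    simp [Matrix.det_fin_two_of]
    ring
  rw [hval]
  have hsum := (ModularForm.hasSum_qExpansion (f := g) one_pos (one_mem_strictPeriods_Gamma0 M)
    (A • τ)).mul_left (d : ℂ)
  have hinj : Function.Injective fun m : ℕ => d * m := fun a b hab =>
    Nat.eq_of_mul_eq_mul_left hd hab
  refine (hinj.hasSum_iff fun x hx => ?_).mp (hsum.congr_fun fun m => ?_)
  · rw [if_neg fun hdx => hx ?_, zero_smul]
    obtain ⟨m, rfl⟩ := hdx
    exact ⟨m, rfl⟩
  · simp only [Function.comp_apply, dvd_mul_right, if_true, Nat.mul_div_cancel_left _ hd,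
      smul_eq_mul]
    rw [Function.Periodic.qParam, Function.Periodic.qParam, ← Complex.exp_nat_mul,
      ← Complex.exp_nat_mul, hτ, mul_assoc (d : ℂ)]
    congr 2
    · push_cast; ring_nf

/-- `d ↦ d τ` commutes with the Hecke operators away from the level. -/
theorem heckeTLin_oldLift {M N d : ℕ} [NeZero M] [NeZero N] (hd : 0 < d) (h : d * M ∣ N) {p : ℕ}
    (hp : p.Prime) (hpN : ¬ p ∣ N) (g : CuspForm (Gamma0 M) 2) :
    CuspForm.heckeTLin 2 hp hpN (oldLift hd h g) =
      oldLift hd h (CuspForm.heckeTLin 2 hp (fun hh =>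
        hpN (hh.trans (dvd_trans (dvd_mul_left M d) h))) g) := by
  refine eq_of_qCoeff_eq fun n => ?_
  have hpd : ¬ p ∣ d := fun hh => hpN (hh.trans (dvd_trans (dvd_mul_right d M) h))
  have hco : d.Coprime p := (Nat.coprime_comm.mp (hp.coprime_iff_not_dvd.mpr hpd))
  rw [qCoeff_heckeTLin, qCoeff_oldLift, qCoeff_oldLift, qCoeff_oldLift, qCoeff_heckeTLin]
  by_cases hdn : d ∣ n
  · obtain ⟨m, rfl⟩ := hdn
    rw [if_pos (dvd_mul_of_dvd_left (dvd_mul_right d m) p), if_pos (dvd_mul_right d m),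
      Nat.mul_div_cancel_left _ hd, mul_assoc d m p, Nat.mul_div_cancel_left _ hd]
    by_cases hpm : p ∣ m
    · obtain ⟨k, rfl⟩ := hpm
      rw [if_pos (Dvd.intro_left _ (by ring : d * k * p = d * (p * k))), if_pos (dvd_mul_right p k),
        Nat.mul_div_cancel_left _ hp.pos, show d * (p * k) / p = d * k by
          rw [show d * (p * k) = p * (d * k) by ring, Nat.mul_div_cancel_left _ hp.pos],
        if_pos (dvd_mul_right d k), Nat.mul_div_cancel_left _ hd]
      ring
    · rw [if_neg hpm, if_neg fun hh => hpm ((Nat.Coprime.dvd_mul_left hco.symm).mp hh)]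
      ring
  · rw [if_neg hdn, if_neg fun hh => hdn (hco.dvd_of_dvd_mul_right hh), zero_add]
    split_ifs with hpn hdk
    · exact absurd (hdk.trans (Nat.div_dvd_of_dvd hpn)) hdn
    · rw [mul_zero]
    · rfl

/-- The effect of `T_r` on a sequence of coefficients at powers of `r`. -/
def tSeq (r : ℂ) (s : ℕ → ℂ) : ℕ → ℂ
  | 0 => s 1
  | k + 1 => s (k + 2) + r * s k

/-- Delay of a sequence. -/
def vSeq (s : ℕ → ℂ) : ℕ → ℂ
  | 0 => 0
  | k + 1 => s k

theorem tSeq_vSeq (r : ℂ) (s : ℕ → ℂ) : tSeq r (vSeq s) = s + r • vSeq (vSeq s) := by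
  funext k
  rcases k with _ | _ | k <;> simp [tSeq, vSeq]

/-- In a finite dimensional space stable under `T_r`, a sequence and its delay occur together
only if they vanish. -/
theorem eq_zero_of_vSeq_mem {r : ℂ} (hr : r ≠ 0) {W : Submodule ℂ (ℕ → ℂ)} [FiniteDimensional ℂ W]
    (hW : ∀ s ∈ W, tSeq r s ∈ W) {s : ℕ → ℂ} (h0 : s ∈ W) (h1 : vSeq s ∈ W) : s = 0 := by
  classical
  have hmem : ∀ k, vSeq^[k] s ∈ W ∧ vSeq^[k + 1] s ∈ W := by
    intro k
    induction k with
    | zero => exact ⟨h0, h1⟩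
    | succ k ih =>
      refine ⟨ih.2, ?_⟩
      have h := hW _ ih.2
      rw [Function.iterate_succ_apply', tSeq_vSeq] at h
      have h' := W.smul_mem r⁻¹ (W.sub_mem h ih.1)
      rw [add_sub_cancel_left, smul_smul, inv_mul_cancel₀ hr, one_smul] at h'
      simpa only [Function.iterate_succ_apply'] using h'
  by_contra hs
  obtain ⟨j, hj⟩ : ∃ j, s j ≠ 0 := Function.ne_iff.mp hs
  set j₀ := Nat.find (⟨j, hj⟩ : ∃ j, s j ≠ 0)
  have hj₀ : s j₀ ≠ 0 := Nat.find_spec (⟨j, hj⟩ : ∃ j, s j ≠ 0)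
  have hval : ∀ k i, vSeq^[k] s (k + i) = s i := by
    intro k
    induction k with
    | zero => simp
    | succ k ih =>
      intro i
      rw [Function.iterate_succ_apply', Nat.add_right_comm]
      exact ih i
  have hlow : ∀ k i, i < k + j₀ → vSeq^[k] s i = 0 := by
    intro k
    induction k with
    | zero =>
      intro i hi
      exact not_not.mp (Nat.find_min _ (by simpa using hi) : ¬ s i ≠ 0)
    | succ k ih =>
      intro i hi
      rw [Function.iterate_succ_apply']
      rcases i with _ | i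
      · rfl
      · exact ih i (by omega)
  set n := Module.finrank ℂ W
  have hli : LinearIndependent ℂ fun k : Fin (n + 1) => (⟨_, (hmem k).1⟩ : W) := by
    rw [Fintype.linearIndependent_iff]
    intro g hg k
    induction k using WellFoundedLT.induction with
    | _ k ih =>
      have h := congrArg (fun w : W => (w : ℕ → ℂ) (k + j₀)) hg
      simp only [Submodule.coe_sum, Submodule.coe_smul, Finset.sum_apply, Pi.smul_apply,
        smul_eq_mul, ZeroMemClass.coe_zero, Pi.zero_apply] at h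
      rw [Finset.sum_eq_single k (fun i _ hik => ?_) (fun hk => absurd (Finset.mem_univ k) hk)] at h
      · rw [hval] at h
        exact (mul_eq_zero.mp h).resolve_right hj₀
      · rcases lt_or_gt_of_ne hik with hlt | hlt
        · rw [ih i hlt, zero_mul]
        · rw [hlow _ _ (by have : (k : ℕ) < i := hlt; omega), mul_zero]
  have := hli.fintype_card_le_finrank
  rw [Fintype.card_fin] at this
  omega

variable {L : ℕ} [NeZero L]

/-- The coefficients at `m r^k` of the forms of level `L`. -/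
def seqSpace (L r m : ℕ) : Submodule ℂ (ℕ → ℂ) :=
  LinearMap.range (LinearMap.pi fun k => qCoeffAt L 2 (m * r ^ k))

omit [NeZero L] in
theorem mem_seqSpace (r m : ℕ) (f : CuspForm (Gamma0 L) 2) :
    (fun k => qCoeff f (m * r ^ k)) ∈ seqSpace L r m := ⟨f, rfl⟩

instance finiteDimensional_seqSpace (r m : ℕ) : FiniteDimensional ℂ (seqSpace L r m) :=
  have := Eigenforms.cuspForm_finiteDimensional (MFIntegral.hasIntegralStructure L 2)
  Module.Finite.range _

omit [NeZero L] in
theorem qCoeff_heckeTLin_seq {r : ℕ} (hr : r.Prime) (hrL : ¬ r ∣ L) {m : ℕ} (hm : ¬ r ∣ m)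
    (f : CuspForm (Gamma0 L) 2) :
    (fun k => qCoeff (CuspForm.heckeTLin 2 hr hrL f) (m * r ^ k)) =
      tSeq r fun k => qCoeff f (m * r ^ k) := by
  funext k
  rw [qCoeff_heckeTLin]
  rcases k with _ | k
  · simp [tSeq, hm]
  · rw [if_pos (dvd_mul_of_dvd_right (dvd_pow_self r k.succ_ne_zero) m), tSeq, pow_succ r k,
      ← mul_assoc m, Nat.mul_div_cancel _ hr.pos, show ((2 : ℤ) - 1) = 1 from rfl, zpow_one]
    congr 2
    ring

omit [NeZero L] in
theorem tSeq_mem_seqSpace {r : ℕ} (hr : r.Prime) (hrL : ¬ r ∣ L) {m : ℕ} (hm : ¬ r ∣ m) :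
    ∀ s ∈ seqSpace L r m, tSeq r s ∈ seqSpace L r m := by
  rintro _ ⟨f, rfl⟩
  exact qCoeff_heckeTLin_seq hr hrL hm f ▸ mem_seqSpace r m _

theorem eq_zero_of_vSeq_seqSpace {r : ℕ} (hr : r.Prime) (hrL : ¬ r ∣ L) {m : ℕ} (hm : ¬ r ∣ m)
    {s : ℕ → ℂ} (h0 : s ∈ seqSpace L r m) (h1 : vSeq s ∈ seqSpace L r m) : s = 0 :=
  eq_zero_of_vSeq_mem (Nat.cast_ne_zero.mpr hr.ne_zero) (tSeq_mem_seqSpace hr hrL hm) h0 h1

theorem delta_not_mem_seqSpace {r : ℕ} (hr : r.Prime) (hrL : ¬ r ∣ L) {m : ℕ} (hm : ¬ r ∣ m) :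
    (fun k => if k = 0 then (1 : ℂ) else 0) ∉ seqSpace L r m := by
  intro hmem
  set δ : ℕ → ℂ := fun k => if k = 0 then 1 else 0
  have h := tSeq_mem_seqSpace hr hrL hm _ hmem
  have e : tSeq r δ = (r : ℂ) • vSeq δ := by
    funext k
    rcases k with _ | _ | k <;> simp [tSeq, vSeq, δ]
  rw [e] at h
  have h' := (seqSpace L r m).smul_mem (r : ℂ)⁻¹ h
  rw [smul_smul, inv_mul_cancel₀ (Nat.cast_ne_zero.mpr hr.ne_zero), one_smul] at h'
  have := congrFun (eq_zero_of_vSeq_seqSpace hr hrL hm hmem h') 0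
  simp [δ] at this

theorem tSeq_geom (r : ℂ) {b : ℂ} (hb : b ≠ 0) :
    tSeq r (fun k => b ^ k) =
      (b + r / b) • (fun k => b ^ k) - (r / b) • fun k => if k = 0 then (1 : ℂ) else 0 := by
  funext k
  rcases k with _ | k
  · simp [tSeq]
  · simp only [tSeq, Pi.sub_apply, Pi.smul_apply, smul_eq_mul, Nat.succ_ne_zero, if_false]
    field_simp
    ring

theorem geom_not_mem_seqSpace {r : ℕ} (hr : r.Prime) (hrL : ¬ r ∣ L) {m : ℕ} (hm : ¬ r ∣ m)
    {b : ℂ} (hb : b ≠ 0) : (fun k => b ^ k) ∉ seqSpace L r m := by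
  intro hmem
  refine delta_not_mem_seqSpace hr hrL hm ?_
  have h := (seqSpace L r m).smul_mem ((r : ℂ) / b)⁻¹
    ((seqSpace L r m).sub_mem ((seqSpace L r m).smul_mem (b + r / b) hmem)
      (tSeq_mem_seqSpace hr hrL hm _ hmem))
  rwa [tSeq_geom (r : ℂ) hb, sub_sub_cancel, smul_smul,
    inv_mul_cancel₀ (div_ne_zero (Nat.cast_ne_zero.mpr hr.ne_zero) hb), one_smul] at h

/-- Vanishing away from the level and one further prime `r` forces vanishing away from the level. -/
theorem qCoeff_eq_zero_of_coprime_mul {r : ℕ} (hr : r.Prime) (hrL : ¬ r ∣ L)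
    (f : CuspForm (Gamma0 L) 2) (hf : ∀ n : ℕ, n.Coprime (L * r) → qCoeff f n = 0)
    {n : ℕ} (hn : n.Coprime L) : qCoeff f n = 0 := by
  classical
  have : NeZero (L * r) := ⟨mul_ne_zero (NeZero.ne L) hr.ne_zero⟩
  set F := raiseLevel (dvd_mul_right L r) 2 f
  have hF : ∀ n, qCoeff F n = qCoeff f n := fun n => rfl
  have hmain := mem_shiftedOldspace_of_qCoeff_eq_zero (N := L * r) (s := (L * r).primeFactors)
    (fun q hq => ⟨Nat.prime_of_mem_primeFactors hq,
      Nat.dvd_of_mem_primeFactors hq⟩) F fun n hn => by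
      rw [hF]
      refine hf n ?_
      refine Nat.coprime_of_dvd fun p hp hpn hpL => hn p ?_ hpn
      exact Nat.mem_primeFactors.mpr ⟨hp, hpL, NeZero.ne _⟩
  -- only the lifts at `r` contribute to coefficients prime to `L`
  have hy : ∀ G ∈ shiftedOldspace (L * r) (L * r).primeFactors, ∃ y : CuspForm (Gamma0 L) 2,
      ∀ n : ℕ, n.Coprime L → qCoeff G n = if r ∣ n then qCoeff y (n / r) else 0 := by
    intro G hG
    unfold shiftedOldspace at hG
    induction hG using Submodule.span_induction with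
    | mem x hx =>
      obtain ⟨p, hp, M, hM0, hp0, hpM, g₀, rfl⟩ := hx
      have hpr := Nat.prime_of_mem_primeFactors hp
      by_cases hpe : p = r
      · subst hpe
        have hML : M = L := Nat.eq_of_mul_eq_mul_left hp0 (by rw [hpM, mul_comm])
        subst hML
        refine ⟨(p : ℂ) • g₀, fun n _ => ?_⟩
        rw [qCoeff_oldLift, qCoeff_smul]
      · refine ⟨0, fun n hn => ?_⟩
        have hpL : p ∣ L := ((hpr.dvd_mul).mp (Nat.dvd_of_mem_primeFactors hp)).resolve_right
          fun h => hpe ((Nat.prime_dvd_prime_iff_eq hpr hr).mp h)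
        rw [qCoeff_oldLift, if_neg fun h => hpr.not_dvd_one (hn ▸ Nat.dvd_gcd h hpL),
          qCoeff_zero_form, ite_self]
    | zero => exact ⟨0, fun n _ => by rw [qCoeff_zero_form, qCoeff_zero_form, ite_self]⟩
    | add a b _ _ ha hb =>
      obtain ⟨y, hy⟩ := ha
      obtain ⟨z, hz⟩ := hb
      refine ⟨y + z, fun n hn => ?_⟩
      rw [qCoeff_add, hy n hn, hz n hn, qCoeff_add]
      split_ifs <;> simp
    | smul c a _ ha =>
      obtain ⟨y, hy⟩ := ha
      refine ⟨c • y, fun n hn => ?_⟩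
      rw [qCoeff_smul, hy n hn, qCoeff_smul]
      split_ifs <;> simp
  obtain ⟨y, hy⟩ := hy F hmain
  rcases eq_or_ne n 0 with rfl | hn0
  · exact qCoeff_at_zero f
  obtain ⟨k, m, hm, rfl⟩ := Nat.exists_eq_pow_mul_and_not_dvd hn0 r hr.ne_one
  have hmL : m.Coprime L := Nat.Coprime.coprime_mul_left hn
  have hcop : ∀ j, (m * r ^ j).Coprime L := fun j =>
    Nat.Coprime.mul_left hmL (Nat.Coprime.pow_left j (hr.coprime_iff_not_dvd.mpr hrL))
  have hs : (fun j => qCoeff f (m * r ^ j)) = vSeq fun j => qCoeff y (m * r ^ j) := by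
    funext j
    rw [← hF, hy _ (hcop j)]
    rcases j with _ | j
    · simp [vSeq, hm]
    · rw [if_pos (dvd_mul_of_dvd_right (dvd_pow_self r j.succ_ne_zero) m), vSeq, pow_succ,
        ← mul_assoc, Nat.mul_div_cancel _ hr.pos]
  have hz := eq_zero_of_vSeq_seqSpace hr hrL hm (mem_seqSpace r m y) (hs ▸ mem_seqSpace r m f)
  rw [mul_comm, congrFun hs k, hz]
  rcases k with _ | k <;> rfl

/-- Vanishing away from any modulus forces vanishing away from the level. -/
theorem qCoeff_eq_zero_of_coprime {D : ℕ} (hD : D ≠ 0) :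
    ∀ {L : ℕ} [NeZero L] (f : CuspForm (Gamma0 L) 2),
      (∀ n : ℕ, n.Coprime D → n.Coprime L → qCoeff f n = 0) →
        ∀ {n : ℕ}, n.Coprime L → qCoeff f n = 0 := by
  induction D using Nat.strong_induction_on with
  | _ D ih =>
    intro L _ f hf n hn
    rcases eq_or_ne D 1 with rfl | hD1
    · exact hf n (Nat.coprime_one_right n) hn
    obtain ⟨r, hr, D', rfl⟩ := Nat.exists_prime_and_dvd hD1
    have hD' : D' ≠ 0 := right_ne_zero_of_mul hD
    have hlt : D' < r * D' := lt_mul_of_one_lt_left (Nat.pos_of_ne_zero hD') hr.one_lt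
    refine ih D' hlt hD' f (fun n hnD hnL => ?_) hn
    by_cases hrn : r ∣ n
    · have hrL : ¬ r ∣ L := fun h => hr.not_dvd_one (hnL ▸ Nat.dvd_gcd hrn h)
      have : NeZero (L * r) := ⟨mul_ne_zero (NeZero.ne L) hr.ne_zero⟩
      refine qCoeff_eq_zero_of_coprime_mul hr hrL f (fun i hi => ?_) hnL
      refine (show qCoeff f i = qCoeff (raiseLevel (dvd_mul_right L r) 2 f) i from rfl).trans ?_
      refine ih D' hlt hD' _ (fun j hjD hjL => ?_) hi
      exact hf j ((Nat.Coprime.coprime_mul_left_right hjL).mul_right hjD)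
        (Nat.Coprime.coprime_mul_right_right hjL)
    · exact hf n ((Nat.coprime_comm.mp (hr.coprime_iff_not_dvd.mpr hrn)).mul_right hnD) hnL

/-- The main lemma without restriction on the primes. -/
theorem mem_shiftedOldspace_of_coprime {D : ℕ} (hD : D ≠ 0) (f : CuspForm (Gamma0 L) 2)
    (hf : ∀ n : ℕ, n.Coprime D → qCoeff f n = 0) :
    f ∈ shiftedOldspace L L.primeFactors :=
  mem_shiftedOldspace_of_qCoeff_eq_zero
    (fun _ hq => ⟨Nat.prime_of_mem_primeFactors hq, Nat.dvd_of_mem_primeFactors hq⟩) f fun _ hn =>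
    qCoeff_eq_zero_of_coprime hD f (fun i hi _ => hf i hi)
      (Nat.coprime_of_dvd fun p hp hpn hpL =>
        hn p (Nat.mem_primeFactors.mpr ⟨hp, hpL, NeZero.ne L⟩) hpn)

/-- A common eigenvector is determined, away from a modulus, by its first coefficient. -/
theorem qCoeff_eq_mul_of_eigen {D : ℕ} (hLD : L ∣ D) {a : ℕ → ℂ} {f : CuspForm (Gamma0 L) 2}
    (hf : ∀ (p : ℕ) (hp : p.Prime) (hpD : ¬ p ∣ D),
      CuspForm.heckeTLin 2 hp (fun h => hpD (h.trans hLD)) f = a p • f)
    {M : ℕ} [NeZero M] (hMD : M ∣ D) {g : CuspForm (Gamma0 M) 2}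
    (hg : ∀ (p : ℕ) (hp : p.Prime) (hpD : ¬ p ∣ D),
      CuspForm.heckeTLin 2 hp (fun h => hpD (h.trans hMD)) g = a p • g)
    {n : ℕ} (hn : n.Coprime D) : qCoeff f n * qCoeff g 1 = qCoeff g n * qCoeff f 1 := by
  induction n using Nat.strong_induction_on with
  | _ n ih =>
    rcases eq_or_ne n 1 with rfl | hn1
    · ring
    rcases eq_or_ne n 0 with rfl | hn0
    · simp [qCoeff_at_zero]
    obtain ⟨p, hp, m, rfl⟩ := Nat.exists_prime_and_dvd hn1
    have hpD : ¬ p ∣ D := fun h => hp.not_dvd_one (hn ▸ Nat.dvd_gcd (dvd_mul_right p m) h)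
    have hm : m ≠ 0 := right_ne_zero_of_mul hn0
    have hmn : m < p * m := lt_mul_of_one_lt_left (Nat.pos_of_ne_zero hm) hp.one_lt
    have e1 := congrArg (fun F : CuspForm (Gamma0 L) 2 => qCoeff F m) (hf p hp hpD)
    have e2 := congrArg (fun F : CuspForm (Gamma0 M) 2 => qCoeff F m) (hg p hp hpD)
    simp only [qCoeff_heckeTLin, qCoeff_smul] at e1 e2
    have ihm := ih m hmn (Nat.Coprime.coprime_mul_left hn)
    rw [mul_comm p m]
    split_ifs at e1 e2 with hpm
    · obtain ⟨k, rfl⟩ := hpm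
      have hk0 : k ≠ 0 := right_ne_zero_of_mul hm
      rw [Nat.mul_div_cancel_left _ hp.pos] at e1 e2
      have ihk := ih k (lt_trans (lt_mul_of_one_lt_left (Nat.pos_of_ne_zero hk0) hp.one_lt) hmn)
        (Nat.Coprime.coprime_mul_left (Nat.Coprime.coprime_mul_left hn))
      linear_combination qCoeff g 1 * e1 - qCoeff f 1 * e2 + a p * ihm -
        (p : ℂ) ^ ((2 : ℤ) - 1) * ihk
    · linear_combination qCoeff g 1 * e1 - qCoeff f 1 * e2 + a p * ihm

end FLTAgent.Newforms

end
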