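import Fermat.Agent.Newforms.Adjoint
import Fermat.Agent.Newforms.Semisimple
import Fermat.Agent.Newforms.PrimeRemoval
import Fermat.Agent.Newforms.BadPrimes

/-!
# Forms new at `q` of level `N q²`

Forms of level `N q²` (`q` prime to `N`) killed by `U_q` and by the trace to level `N q`: they are
the orthogonal complement of the forms coming from level `N q`, and their systems of eigenvalues
come from newforms of level divisible by `q²` (`sq_dvd_level_of_qNew`).
-/

set_option autoImplicit false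

noncomputable section

open CongruenceSubgroup UpperHalfPlane
open scoped MatrixGroups ModularForm ComplexConjugate

namespace FLTAgent.Newforms

open Eigenforms ModularFormClass

section Basic

variable {q N : ℕ} [NeZero (N * q)] [NeZero (q * (N * q))] (hq : q.Prime)

/-- Forms of level `q (N q)` killed by the trace to level `N q` and by `U_q`. -/
def qNew : Submodule ℂ (CuspForm (Gamma0 (q * (N * q))) 2) :=
  LinearMap.ker (trDown hq (dvd_mul_left q N)) ⊓
    LinearMap.ker (CuspForm.heckeULin 2 (dvd_mul_right q (N * q)))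

/-- Forms of level `q (N q)` coming from level `N q`. -/
def qOld : Submodule ℂ (CuspForm (Gamma0 (q * (N * q))) 2) :=
  LinearMap.range (raiseLevel (dvd_mul_left (N * q) q) 2) ⊔
    LinearMap.range (oldLift (M := N * q) (N := q * (N * q)) hq.pos dvd_rfl)

theorem mem_qNew_iff (x : CuspForm (Gamma0 (q * (N * q))) 2) :
    x ∈ qNew hq ↔ trDown hq (dvd_mul_left q N) x = 0 ∧
      CuspForm.heckeULin 2 (dvd_mul_right q (N * q)) x = 0 := Iff.rfl

theorem qNew_eq_peterssonOrth : qNew (N := N) hq = peterssonOrth (qOld hq) := by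
  refine le_antisymm (fun x hx u hu => ?_) fun x hx => ?_
  · obtain ⟨hx1, hx2⟩ := (mem_qNew_iff hq x).mp hx
    obtain ⟨_, ⟨y, rfl⟩, _, ⟨z, rfl⟩, rfl⟩ := Submodule.mem_sup.mp hu
    rw [← peterssonInt_symm, peterssonInt_add_right,
      ← peterssonInt_trDown hq (dvd_mul_left q N) x y, hx1,
      ← peterssonInt_uDown hq (dvd_mul_left q N) x (0 : CuspForm (Gamma0 (N * q)) 2) z (by
        rw [hx2, FunLike.coe_zero, FunLike.coe_zero]),
      peterssonInt_zero_left, peterssonInt_zero_left, add_zero, map_zero]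
  · refine (mem_qNew_iff hq x).mpr ⟨eq_zero_of_peterssonInt_self ?_, ?_⟩
    · rw [peterssonInt_trDown, ← peterssonInt_symm,
        hx _ (Submodule.mem_sup_left (LinearMap.mem_range_self _ _)), map_zero]
    · set u := lowerLevel (CuspForm.heckeULin 2 (dvd_mul_right q (N * q)) x)
        (isGamma0Inv_heckeU_of_sq_dvd hq rfl (dvd_mul_left q N) x) with hudef
      have hu : u = 0 := by
        refine eq_zero_of_peterssonInt_self ?_
        rw [peterssonInt_uDown hq (dvd_mul_left q N) x u u (coe_lowerLevel _ _),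
          ← peterssonInt_symm,
          hx _ (Submodule.mem_sup_right (LinearMap.mem_range_self _ _)), map_zero]
      refine DFunLike.coe_injective ?_
      rw [hudef] at hu
      show ⇑(CuspForm.heckeULin 2 (dvd_mul_right q (N * q)) x) =
        ⇑(0 : CuspForm (Gamma0 (q * (N * q))) 2)
      rw [← coe_lowerLevel _ (isGamma0Inv_heckeU_of_sq_dvd hq rfl (dvd_mul_left q N) x), hu,
        FunLike.coe_zero, FunLike.coe_zero]

theorem isCompl_qOld_qNew : IsCompl (qOld (N := N) hq) (qNew hq) := by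
  rw [qNew_eq_peterssonOrth]
  exact isCompl_peterssonOrth (MFIntegral.hasIntegralStructure _ 2) _

theorem exists_add_qNew (z : CuspForm (Gamma0 (q * (N * q))) 2) :
    ∃ o ∈ qOld hq, ∃ n ∈ qNew hq, o + n = z :=
  Submodule.mem_sup.mp (by rw [(isCompl_qOld_qNew hq).sup_eq_top]; exact Submodule.mem_top)

theorem eq_zero_of_mem_qOld_qNew {z : CuspForm (Gamma0 (q * (N * q))) 2} (h1 : z ∈ qOld hq)
    (h2 : z ∈ qNew hq) : z = 0 :=
  Submodule.disjoint_def.mp (isCompl_qOld_qNew hq).disjoint z h1 h2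

theorem heckeTLin_mem_qOld {p : ℕ} (hp : p.Prime) (hpN : ¬ p ∣ q * (N * q))
    {z : CuspForm (Gamma0 (q * (N * q))) 2} (hz : z ∈ qOld hq) :
    CuspForm.heckeTLin 2 hp hpN z ∈ qOld hq := by
  obtain ⟨_, ⟨y, rfl⟩, _, ⟨w, rfl⟩, rfl⟩ := Submodule.mem_sup.mp hz
  rw [map_add, heckeTLin_raiseLevel, heckeTLin_oldLift]
  exact Submodule.mem_sup.mpr
    ⟨_, LinearMap.mem_range_self _ _, _, LinearMap.mem_range_self _ _, rfl⟩

theorem heckeTLin_mem_qNew {p : ℕ} (hp : p.Prime) (hpN : ¬ p ∣ q * (N * q))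
    {z : CuspForm (Gamma0 (q * (N * q))) 2} (hz : z ∈ qNew hq) :
    CuspForm.heckeTLin 2 hp hpN z ∈ qNew hq := by
  rw [qNew_eq_peterssonOrth, mem_peterssonOrth] at hz ⊢
  intro u hu
  rw [← peterssonInt_heckeTLin]
  exact hz _ (heckeTLin_mem_qOld hq hp hpN hu)

/-- An eigenvector splits into eigenvectors. -/
theorem heckeTLin_qNew_part {p : ℕ} (hp : p.Prime) (hpN : ¬ p ∣ q * (N * q)) {c : ℂ}
    {o n : CuspForm (Gamma0 (q * (N * q))) 2} (ho : o ∈ qOld hq) (hn : n ∈ qNew hq)
    (h : CuspForm.heckeTLin 2 hp hpN (o + n) = c • (o + n)) :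
    CuspForm.heckeTLin 2 hp hpN n = c • n := by
  refine sub_eq_zero.mp (eq_zero_of_mem_qOld_qNew hq ?_
    (sub_mem (heckeTLin_mem_qNew hq hp hpN hn) (Submodule.smul_mem _ c hn)))
  rw [map_add, smul_add] at h
  rw [show CuspForm.heckeTLin 2 hp hpN n - c • n = c • o - CuspForm.heckeTLin 2 hp hpN o from
    sub_eq_sub_iff_add_eq_add.mpr ((add_comm _ _).trans h)]
  exact sub_mem (Submodule.smul_mem _ c ho) (heckeTLin_mem_qOld hq hp hpN ho)

end Basic

section Lift

variable {q N N₁ d : ℕ} [NeZero (N * q)] [NeZero (q * (N * q))] [NeZero (N₁ * q)]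
  [NeZero (q * (N₁ * q))] (hq : q.Prime)

omit [NeZero (N * q)] [NeZero (q * (N * q))] [NeZero (N₁ * q)] [NeZero (q * (N₁ * q))] in
theorem dvd_top (h : d * N₁ ∣ N) : d * (q * (N₁ * q)) ∣ q * (N * q) :=
  (dvd_of_eq (by ring)).trans (mul_dvd_mul_left q (mul_dvd_mul_right h q))

omit [NeZero (N * q)] [NeZero (q * (N * q))] [NeZero (N₁ * q)] [NeZero (q * (N₁ * q))] in
theorem dvd_mid (h : d * N₁ ∣ N) : d * (N₁ * q) ∣ N * q :=
  (dvd_of_eq (by ring)).trans (mul_dvd_mul_right h q)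

theorem oldLift_mem_qOld (hd : 0 < d) (h : d * N₁ ∣ N)
    {z : CuspForm (Gamma0 (q * (N₁ * q))) 2} (hz : z ∈ qOld hq) :
    oldLift hd (dvd_top h) z ∈ qOld (N := N) hq := by
  obtain ⟨_, ⟨y, rfl⟩, _, ⟨w, rfl⟩, rfl⟩ := Submodule.mem_sup.mp hz
  rw [map_add]
  refine Submodule.mem_sup.mpr ⟨_, LinearMap.mem_range_self _ (oldLift hd (dvd_mid h) y), _,
    LinearMap.mem_range_self _ (oldLift hd (dvd_mid h) w), ?_⟩
  congr 1
  refine DFunLike.coe_injective ?_
  show (⇑w ∣[(2 : ℤ)] intGL !![(d : ℤ), 0; 0, 1]) ∣[(2 : ℤ)] intGL !![(q : ℤ), 0; 0, 1] =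
    (⇑w ∣[(2 : ℤ)] intGL !![(q : ℤ), 0; 0, 1]) ∣[(2 : ℤ)] intGL !![(d : ℤ), 0; 0, 1]
  rw [← SlashAction.slash_mul, ← SlashAction.slash_mul,
    intGL_mul (det_diag_pos hd).ne' (det_diag_pos hq.pos).ne',
    intGL_mul (det_diag_pos hq.pos).ne' (det_diag_pos hd).ne']
  congr 2
  ext i j
  fin_cases i <;> fin_cases j <;> simp [Matrix.mul_apply, Fin.sum_univ_two, mul_comm]

theorem oldLift_mem_qNew (hd : 0 < d) (hqN : ¬ q ∣ N) (h : d * N₁ ∣ N)
    {z : CuspForm (Gamma0 (q * (N₁ * q))) 2} (hz : z ∈ qNew hq) :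
    oldLift hd (dvd_top h) z ∈ qNew (N := N) hq := by
  obtain ⟨hz1, hz2⟩ := (mem_qNew_iff hq z).mp hz
  obtain ⟨e, he⟩ := h
  have hqe : ¬ q ∣ e := fun hh => hqN (he ▸ dvd_mul_of_dvd_right hh _)
  have hqd : ¬ q ∣ d := fun hh => hqN (he ▸ dvd_mul_of_dvd_left (dvd_mul_of_dvd_left hh _) _)
  refine (mem_qNew_iff hq _).mpr ⟨DFunLike.coe_injective ?_, eq_of_qCoeff_eq fun n => ?_⟩
  · have : NeZero q := ⟨hq.ne_zero⟩
    set σ : Fin q → Fin q := fun j => ⟨e * j % q, Nat.mod_lt _ hq.pos⟩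
    have hσ : Function.Bijective σ := Finite.injective_iff_bijective.mp fun i j hij => by
      have h' : e * i ≡ e * j [MOD q] := congrArg Fin.val hij
      have := Nat.ModEq.cancel_left_of_coprime
        ((hq.coprime_iff_not_dvd.mpr hqe)) h'
      rw [Nat.ModEq, Nat.mod_eq_of_lt i.isLt, Nat.mod_eq_of_lt j.isLt] at this
      exact Fin.ext this
    have hterm : ∀ j : Fin q,
        (⇑(oldLift hd (dvd_top ⟨e, he⟩) z) ∣[(2 : ℤ)]
          (Matrix.SpecialLinearGroup.mapGL ℝ (trRep q (N * q) j) : GL (Fin 2) ℝ)) =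
        (⇑z ∣[(2 : ℤ)]
          (Matrix.SpecialLinearGroup.mapGL ℝ (trRep q (N₁ * q) (σ j)) : GL (Fin 2) ℝ)) ∣[(2 : ℤ)]
            intGL !![(d : ℤ), 0; 0, 1] := by
      intro j
      have hk : e * j % q + q * (e * j / q) = e * j := Nat.mod_add_div _ _
      set γ : SL(2, ℤ) := ⟨!![1, 0; ((q * (N₁ * q) * (e * j / q) : ℕ) : ℤ), 1],
        by simp [Matrix.det_fin_two_of]⟩
      have hγ : γ ∈ Gamma0 (q * (N₁ * q)) :=
        Gamma0_mem.mpr ((ZMod.intCast_zmod_eq_zero_iff_dvd _ _).mpr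
          (Int.natCast_dvd_natCast.mpr (dvd_mul_right _ _)))
      have hr : ∀ (K : ℕ) (i : Fin q), (trRep q K i).1.det ≠ 0 := fun K i => by simp
      show (⇑z ∣[(2 : ℤ)] intGL !![(d : ℤ), 0; 0, 1]) ∣[(2 : ℤ)] _ = _
      conv_rhs => rw [← isGamma0Inv_coe z γ hγ]
      rw [← SlashAction.slash_mul, ← SlashAction.slash_mul, ← SlashAction.slash_mul, mapGL_eq_intGL,
        mapGL_eq_intGL, mapGL_eq_intGL, intGL_mul (det_diag_pos hd).ne' (hr _ _),
        intGL_mul (hr _ _) (det_diag_pos hd).ne',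
        intGL_mul (A := γ.1) (by simp [γ])
          (by rw [Matrix.det_mul]; exact mul_ne_zero (hr _ _) (det_diag_pos hd).ne')]
      congr 2
      have hk' := congrArg (Nat.cast : ℕ → ℤ) hk
      have he' := congrArg (Nat.cast : ℕ → ℤ) he
      push_cast at hk' he'
      ext a b
      fin_cases a <;> fin_cases b <;>
        simp [γ, σ, coe_trRep, Matrix.mul_apply, Fin.sum_univ_two]
      linear_combination (-(N₁ : ℤ) * q * d) * hk' + ((q : ℤ) * (j : ℕ)) * he'
    show trSum q (N * q) (oldLift hd (dvd_top ⟨e, he⟩) z) = ⇑(0 : CuspForm (Gamma0 (N * q)) 2)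
    rw [trSum, Finset.sum_congr rfl fun j _ => hterm j,
      hσ.sum_comp (fun i => (⇑z ∣[(2 : ℤ)]
        (Matrix.SpecialLinearGroup.mapGL ℝ (trRep q (N₁ * q) i) : GL (Fin 2) ℝ)) ∣[(2 : ℤ)]
          intGL !![(d : ℤ), 0; 0, 1]), ← SlashAction.sum_slash]
    show trSum q (N₁ * q) z ∣[(2 : ℤ)] _ = _
    rw [← coe_trDown hq (dvd_mul_left q N₁), hz1, FunLike.coe_zero, SlashAction.zero_slash,
      FunLike.coe_zero]
  · rw [qCoeff_zero_form, qCoeff_heckeULin, qCoeff_oldLift]
    split_ifs with hdn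
    · have hco : d.Coprime q := Nat.coprime_comm.mp (hq.coprime_iff_not_dvd.mpr hqd)
      obtain ⟨m, rfl⟩ := hco.dvd_of_dvd_mul_right hdn
      have h0 := congrArg (fun F : CuspForm (Gamma0 (q * (N₁ * q))) 2 => qCoeff F m) hz2
      simp only [qCoeff_heckeULin, qCoeff_zero_form] at h0
      rw [mul_assoc, Nat.mul_div_cancel_left _ hd, h0, mul_zero]
    · rfl

end Lift

/-- The components of the lifts to level `q (N q)` in the forms killed by `U_q` and the trace
have vanishing first coefficient. -/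
theorem exists_of_mem_shiftedOldspace {q N : ℕ} [NeZero (N * q)] [NeZero (q * (N * q))]
    (hq : q.Prime) (hqN : ¬ q ∣ N) {F : CuspForm (Gamma0 (q * (N * q))) 2}
    (hF : F ∈ shiftedOldspace (q * (N * q)) (q * (N * q)).primeFactors) :
    ∃ o ∈ qOld hq, ∃ n ∈ qNew hq, qCoeff n 1 = 0 ∧ o + n = F := by
  unfold shiftedOldspace at hF
  induction hF using Submodule.span_induction with
  | mem x hx =>
    obtain ⟨p, hp, M, hM0, hp0, hpM, g₀, rfl⟩ := hx
    have hpr := Nat.prime_of_mem_primeFactors hp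
    by_cases hpe : p = q
    · subst hpe
      obtain rfl : M = N * p := Nat.eq_of_mul_eq_mul_left hp0 hpM
      exact ⟨_, Submodule.mem_sup_right (LinearMap.mem_range_self _ g₀), 0, zero_mem _,
        qCoeff_zero_form 1, add_zero _⟩
    · have hpN : p ∣ N := by
        rcases hpr.dvd_mul.mp (Nat.dvd_of_mem_primeFactors hp) with h | h
        · exact absurd ((Nat.prime_dvd_prime_iff_eq hpr hq).mp h) hpe
        · exact (hpr.dvd_mul.mp h).resolve_right fun h' =>
            hpe ((Nat.prime_dvd_prime_iff_eq hpr hq).mp h')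
      obtain ⟨N₁, rfl⟩ := hpN
      obtain rfl : M = q * (N₁ * q) := Nat.eq_of_mul_eq_mul_left hp0 (by rw [hpM]; ring)
      have : NeZero (N₁ * q) := ⟨fun h => NeZero.ne (p * N₁ * q) (by rw [mul_assoc, h, mul_zero])⟩
      obtain ⟨o, ho, n, hn, hon⟩ := exists_add_qNew hq g₀
      refine ⟨_, oldLift_mem_qOld hq hp0 dvd_rfl ho, _, oldLift_mem_qNew hq hp0 hqN dvd_rfl hn,
        ?_, ?_⟩
      · rw [qCoeff_oldLift, if_neg hpr.not_dvd_one]
      · rw [← map_add, hon]
  | zero => exact ⟨0, zero_mem _, 0, zero_mem _, qCoeff_zero_form 1, add_zero _⟩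
  | add a b _ _ ha hb =>
    obtain ⟨o, ho, n, hn, h1, rfl⟩ := ha
    obtain ⟨o', ho', n', hn', h1', rfl⟩ := hb
    exact ⟨o + o', add_mem ho ho', n + n', add_mem hn hn',
      by rw [qCoeff_add, h1, h1', add_zero], by abel⟩
  | smul c a _ ha =>
    obtain ⟨o, ho, n, hn, h1, rfl⟩ := ha
    exact ⟨c • o, Submodule.smul_mem _ _ ho, c • n, Submodule.smul_mem _ _ hn,
      by rw [qCoeff_smul, h1, mul_zero], by rw [smul_add]⟩

/-- No eigenvector killed by `U_q` and the trace has the system of a form of level dividing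
`N q`. -/
theorem eq_zero_of_qNew_of_dvd {q N : ℕ} [NeZero (N * q)] [NeZero (q * (N * q))] (hq : q.Prime)
    (hqN : ¬ q ∣ N) {M : ℕ} [NeZero M] (hM : M ∣ N * q) {g : CuspForm (Gamma0 M) 2}
    (hg : g.IsNormalizedEigenform) :
    ∀ (N' : ℕ) [NeZero (N' * q)] [NeZero (q * (N' * q))] (hN' : N' ∣ N)
      (x : CuspForm (Gamma0 (q * (N' * q))) 2), x ∈ qNew hq →
      (∀ (p : ℕ) (hp : p.Prime) (hpD : ¬ p ∣ q * (N * q)),
        CuspForm.heckeTLin 2 hp (fun h =>
          hpD (h.trans (mul_dvd_mul_left q (mul_dvd_mul_right hN' q)))) x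
          = qCoeff g p • x) → x = 0 := by
  intro N'
  induction N' using Nat.strong_induction_on with
  | _ N' ih =>
  intro _ _ hN' x hx heig
  have hqN' : ¬ q ∣ N' := fun h => hqN (h.trans hN')
  have hLD : q * (N' * q) ∣ q * (N * q) := mul_dvd_mul_left q (mul_dvd_mul_right hN' q)
  -- coefficients prime to the level
  have hcoef : ∀ n : ℕ, n.Coprime (q * (N * q)) → qCoeff x n = qCoeff g n * qCoeff x 1 := by
    intro n hn
    have h := qCoeff_eq_mul_of_eigen (L := q * (N' * q)) hLD (a := fun p => qCoeff g p) heig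
      (hM.trans (dvd_mul_left _ q)) (fun p hp hpD => heckeTLin_eigenform hg hp _) hn
    rwa [hg.qCoeff_one, mul_one] at h
  have hx1 : qCoeff x 1 = 0 := by
    have h1N : 1 * N' ∣ N := by rwa [one_mul]
    set X := oldLift (N := q * (N * q)) one_pos (dvd_top (q := q) h1N) x
    have hX : X ∈ qNew hq := oldLift_mem_qNew hq one_pos hqN h1N hx
    have hXn : ∀ n, qCoeff X n = qCoeff x n := fun n => by
      rw [qCoeff_oldLift, if_pos (one_dvd n), Nat.cast_one, one_mul, Nat.div_one]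
    set G := raiseLevel (dvd_mul_left (N * q) q) 2 (raiseLevel hM 2 g)
    have hmain := mem_shiftedOldspace_of_coprime (L := q * (N * q)) (NeZero.ne (q * (N * q)))
      (X - qCoeff x 1 • G) fun n hn => by
        rw [qCoeff_sub, qCoeff_smul, hXn, hcoef n hn, show qCoeff G n = qCoeff g n from rfl]
        ring
    obtain ⟨o, ho, n, hn, hn1, hon⟩ := exists_of_mem_shiftedOldspace hq hqN hmain
    have hz : X - n = 0 := eq_zero_of_mem_qOld_qNew hq (by
      rw [show X - n = o + qCoeff x 1 • G by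
        rw [sub_eq_iff_eq_add, add_right_comm, hon, sub_add_cancel]]
      exact add_mem ho (Submodule.smul_mem _ _
        (Submodule.mem_sup_left (LinearMap.mem_range_self _ _))))
      (sub_mem hX hn)
    rw [← hXn, sub_eq_zero.mp hz, hn1]
  by_contra hne
  have hxx : peterssonInt x x ≠ 0 := fun h => hne (eq_zero_of_peterssonInt_self h)
  have hreal : ∀ (p : ℕ) (hp : p.Prime) (hpD : ¬ p ∣ q * (N * q)),
      conj (qCoeff g p) = qCoeff g p := by
    intro p hp hpD
    have h := peterssonInt_heckeTLin hp (fun h => hpD (h.trans hLD)) x x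
    rw [heig p hp hpD, peterssonInt_smul_left, peterssonInt_smul_right] at h
    exact mul_right_cancel₀ hxx h
  have hsh : x ∈ shiftedOldspace (q * (N' * q)) (q * (N' * q)).primeFactors :=
    mem_shiftedOldspace_of_coprime (NeZero.ne (q * (N * q))) x fun n hn => by
      rw [hcoef n hn, hx1, mul_zero]
  refine hxx ?_
  have hperp : shiftedOldspace (q * (N' * q)) (q * (N' * q)).primeFactors ≤
      LinearMap.ker (peterssonRight x) := by
    refine Submodule.span_le.mpr ?_
    rintro _ ⟨p, hp, M₁, hM₁0, hp0, hpM, g₀, rfl⟩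
    show peterssonInt x _ = 0
    have hx' : x ∈ peterssonOrth (qOld hq) := by rwa [← qNew_eq_peterssonOrth]
    have hxold : ∀ o ∈ qOld hq, peterssonInt x o = 0 := fun o ho => by
      rw [← peterssonInt_symm, hx' o ho, map_zero]
    have hpr := Nat.prime_of_mem_primeFactors hp
    by_cases hpe : p = q
    · subst hpe
      obtain rfl : M₁ = N' * p := Nat.eq_of_mul_eq_mul_left hp0 hpM
      exact hxold _ (Submodule.mem_sup_right (LinearMap.mem_range_self _ g₀))
    have hpN : p ∣ N' := by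
      rcases hpr.dvd_mul.mp (Nat.dvd_of_mem_primeFactors hp) with h | h
      · exact absurd ((Nat.prime_dvd_prime_iff_eq hpr hq).mp h) hpe
      · exact (hpr.dvd_mul.mp h).resolve_right fun h' =>
          hpe ((Nat.prime_dvd_prime_iff_eq hpr hq).mp h')
    obtain ⟨N₁, rfl⟩ := hpN
    obtain rfl : M₁ = q * (N₁ * q) := Nat.eq_of_mul_eq_mul_left hp0 (by rw [hpM]; ring)
    have : NeZero (N₁ * q) := ⟨fun h => NeZero.ne (p * N₁ * q) (by rw [mul_assoc, h, mul_zero])⟩
    have hN₁N : N₁ ∣ N := (dvd_mul_left N₁ p).trans hN'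
    have hN₁0 : N₁ ≠ 0 := left_ne_zero_of_mul (NeZero.ne (N₁ * q))
    have hL₁D : q * (N₁ * q) ∣ q * (N * q) := mul_dvd_mul_left q (mul_dvd_mul_right hN₁N q)
    let S : Set ℕ := {l | l ∣ q * (N * q)}
    have hspan := span_heckeEigenvectors (N := q * (N₁ * q)) (S := S)
      (MFIntegral.hasIntegralStructure _ 2) fun l _ hl => hl.trans hL₁D
    have hz : g₀ ∈ Submodule.span ℂ (heckeEigenvectors (q * (N₁ * q)) S) :=
      hspan ▸ Submodule.mem_top
    induction hz using Submodule.span_induction with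
    | mem v hv =>
      by_cases hsys : ∀ (l : ℕ) (hl : l.Prime) (hlD : ¬ l ∣ q * (N * q)),
          CuspForm.heckeTLin 2 hl (fun h => hlD (h.trans hL₁D)) v = qCoeff g l • v
      · obtain ⟨o, ho, n, hn, rfl⟩ := exists_add_qNew hq v
        obtain rfl : n = 0 :=
          ih N₁ (lt_mul_of_one_lt_left (Nat.pos_of_ne_zero hN₁0) hpr.one_lt) hN₁N n hn
            fun l hl hlD => heckeTLin_qNew_part hq hl _ ho hn (hsys l hl hlD)
        rw [add_zero]
        exact hxold _ (oldLift_mem_qOld hq hp0 dvd_rfl ho)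
      · push Not at hsys
        obtain ⟨l, hl, hlD, hlv⟩ := hsys
        obtain ⟨c, hc⟩ := hv (CuspForm.heckeAlgebra.T hl (fun h => hlD (h.trans hL₁D)) hlD)
        rw [CuspForm.heckeAlgebra.coe_T] at hc
        have h := peterssonInt_heckeTLin hl (fun h => hlD (h.trans hLD)) x
          (oldLift hp0 hpM.dvd v)
        rw [heig l hl hlD, heckeTLin_oldLift, hc, map_smul, peterssonInt_smul_left,
          peterssonInt_smul_right, hreal l hl hlD] at h
        by_contra h0
        exact hlv (by rw [hc, mul_right_cancel₀ h0 h])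
    | zero => rw [map_zero, peterssonInt_zero_right]
    | add a b _ _ ha hb => rw [map_add, peterssonInt_add_right, ha, hb, add_zero]
    | smul c a _ ha => rw [map_smul, peterssonInt_smul_right, ha, mul_zero]
  exact hperp hsh

/-- An eigenvector killed by `U_q` and the trace has its system at a newform of level divisible
by `q²`. -/
theorem sq_dvd_level_of_qNew {q N : ℕ} [NeZero (N * q)] [NeZero (q * (N * q))] (hq : q.Prime)
    (hqN : ¬ q ∣ N) {x : CuspForm (Gamma0 (q * (N * q))) 2} (hx : x ∈ qNew hq) (hx0 : x ≠ 0)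
    {M : ℕ} [NeZero M] (hM : M ∣ q * (N * q)) {g : CuspForm (Gamma0 M) 2}
    (hg : g.IsNormalizedEigenform)
    (heig : ∀ (p : ℕ) (hp : p.Prime) (hpD : ¬ p ∣ q * (N * q)),
      CuspForm.heckeTLin 2 hp hpD x = qCoeff g p • x) :
    q ^ 2 ∣ M := by
  by_contra hq2
  refine hx0 (eq_zero_of_qNew_of_dvd hq hqN ?_ hg N dvd_rfl x hx heig)
  by_cases hqM : q ∣ M
  · obtain ⟨m, rfl⟩ := hqM
    have hqm : ¬ q ∣ m := fun h => hq2 (by rw [pow_two]; exact mul_dvd_mul_left q h)
    have h1 := Nat.dvd_of_mul_dvd_mul_left hq.pos hM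
    have h2 := (Nat.coprime_comm.mp (hq.coprime_iff_not_dvd.mpr hqm)).dvd_of_dvd_mul_right h1
    exact (mul_dvd_mul_left q h2).trans (mul_comm q N).dvd
  · exact (Nat.coprime_comm.mp (hq.coprime_iff_not_dvd.mpr hqM)).dvd_of_dvd_mul_left hM

end FLTAgent.Newforms

end
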