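import Mathlib.RepresentationTheory.Basic
import Mathlib.FieldTheory.Minpoly.Field
import Mathlib.LinearAlgebra.FiniteDimensional.Basic
import Mathlib.Analysis.Complex.Basic
import Mathlib.RingTheory.IntegralClosure.Algebra.Basic

/-!
# Inclusion–exclusion by averages

An inclusion–exclusion lemma in finite group representations: if a vector fixed by `G₀` is killed
by `∏ (1 - avg U_i)`, it is a sum of vectors fixed by `G₀` and one of the `U_i`
(`mem_iSup_fixed_of_prod_eq_zero`). Used in the main lemma.
-/

set_option autoImplicit false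

noncomputable section

open Polynomial
open scoped ComplexConjugate

namespace FLTAgent.Newforms

section Operators

variable {V : Type*} [AddCommGroup V] [Module ℂ V] [FiniteDimensional ℂ V]

theorem exists_poly_split (X : Module.End ℂ V) (hss : ∀ v, X (X v) = 0 → X v = 0) :
    ∃ p : ℂ[X], ∀ v, X (v - aeval X p (X v)) = 0 := by
  obtain ⟨h, hm, hh⟩ := exists_eq_pow_rootMultiplicity_mul_and_not_dvd (minpoly ℂ X)
    (minpoly.ne_zero (Algebra.IsIntegral.isIntegral X)) 0
  rw [map_zero, sub_zero] at hm hh
  rw [X_dvd_iff] at hh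
  have hkill : ∀ v, X (aeval X h v) = 0 := by
    intro v
    have h1 := congrArg (fun T : Module.End ℂ V => T v) (minpoly.aeval ℂ X)
    rw [hm, map_mul, map_pow, aeval_X] at h1
    simp only [Module.End.mul_apply, LinearMap.zero_apply] at h1
    generalize hk : rootMultiplicity 0 (minpoly ℂ X) = k at h1
    clear hk hm
    induction k with
    | zero =>
      rw [pow_zero, Module.End.one_apply] at h1
      rw [h1, map_zero]
    | succ k ih =>
      rcases k with _ | k
      · simpa using h1
      · refine ih ?_
        rw [pow_succ', pow_succ', Module.End.mul_apply, Module.End.mul_apply] at h1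
        rw [pow_succ', Module.End.mul_apply]
        exact hss _ h1
  refine ⟨-C (h.coeff 0)⁻¹ * h.divX, fun v => ?_⟩
  have h2 : v - aeval X (-C (h.coeff 0)⁻¹ * h.divX) (X v) = (h.coeff 0)⁻¹ • aeval X h v := by
    have e : aeval X h v = aeval X h.divX (X v) + h.coeff 0 • v := by
      have e := congrArg (fun q => aeval X q v) h.divX_mul_X_add
      simp only [map_add, map_mul, aeval_X, aeval_C, LinearMap.add_apply,
        Module.End.mul_apply, Module.algebraMap_end_apply] at e
      exact e.symm
    rw [e, map_mul, map_neg, aeval_C, Module.End.mul_apply, LinearMap.neg_apply,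
      Module.algebraMap_end_apply, smul_add, smul_smul, inv_mul_cancel₀ hh, one_smul,
        sub_neg_eq_add,
      add_comm]
  rw [h2, map_smul, hkill, smul_zero]

/-- If a product of commuting operators, semisimple at `0`, kills a vector, the vector is a sum of
elements of their kernels. -/
theorem mem_iSup_ker_of_prod_eq_zero {ι : Type*} (X : ι → Module.End ℂ V)
    (hss : ∀ i, ∀ v, X i (X i v) = 0 → X i v = 0) (L : List ι)
    (hcomm : ∀ i ∈ L, ∀ j ∈ L, Commute (X i) (X j)) (φ : V) (h : (L.map X).prod φ = 0) :
    φ ∈ ⨆ i ∈ L, LinearMap.ker (X i) := by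
  induction L generalizing φ with
  | nil =>
    rw [List.map_nil, List.prod_nil, Module.End.one_apply] at h
    rw [h]
    exact zero_mem _
  | cons r L ih =>
    rw [List.map_cons, List.prod_cons] at h
    have hr : Commute (X r) (L.map X).prod := Commute.list_prod_right _ _ fun y hy => by
      obtain ⟨j, hj, rfl⟩ := List.mem_map.mp hy
      exact hcomm r List.mem_cons_self j (List.mem_cons_of_mem _ hj)
    rw [hr.eq, Module.End.mul_apply] at h
    have h1 := ih (fun i hi j hj => hcomm i (List.mem_cons_of_mem _ hi) j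
      (List.mem_cons_of_mem _ hj)) _ h
    obtain ⟨p, hp⟩ := exists_poly_split (X r) (hss r)
    have h2 : aeval (X r) p (X r φ) ∈ ⨆ i ∈ L, LinearMap.ker (X i) := by
      have hstab : (⨆ i ∈ L, LinearMap.ker (X i)) ≤
          Submodule.comap (aeval (X r) p) (⨆ i ∈ L, LinearMap.ker (X i)) := by
        refine iSup₂_le fun i hi v hv => ?_
        refine Submodule.mem_iSup_of_mem i (Submodule.mem_iSup_of_mem hi ?_)
        have hc : Commute (X i) (aeval (X r) p) := by
          refine (Algebra.commute_of_mem_adjoin_singleton_of_commute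
            (aeval_mem_adjoin_singleton ℂ (X r)) ?_)
          exact hcomm i (List.mem_cons_of_mem _ hi) r List.mem_cons_self
        rw [LinearMap.mem_ker] at hv ⊢
        rw [← Module.End.mul_apply, hc.eq, Module.End.mul_apply, hv, map_zero]
      exact hstab h1
    rw [← sub_add_cancel φ (aeval (X r) p (X r φ))]
    refine add_mem (Submodule.mem_iSup_of_mem r
      (Submodule.mem_iSup_of_mem List.mem_cons_self ?_)) ?_
    · exact LinearMap.mem_ker.mpr (hp φ)
    · exact (iSup₂_le fun i hi => le_iSup₂ (f := fun i _ => LinearMap.ker (X i)) i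
        (List.mem_cons_of_mem _ hi)) h2

end Operators

section Averages

variable {G : Type*} [Group G] [Finite G] {V : Type*} [AddCommGroup V] [Module ℂ V]
  (ρ : Representation ℂ G V)

/-- Averaging over a subgroup. -/
def subgroupAverage (K : Subgroup G) : Module.End ℂ V :=
  letI := Fintype.ofFinite K
  (Nat.card K : ℂ)⁻¹ • ∑ k : K, ρ k

theorem rho_mul_average {K : Subgroup G} {k : G} (hk : k ∈ K) :
    ρ k * subgroupAverage ρ K = subgroupAverage ρ K := by
  let := Fintype.ofFinite K
  simp only [subgroupAverage, mul_smul_comm, Finset.mul_sum, ← map_mul]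
  congr 1
  exact Equiv.sum_comp (Equiv.mulLeft (⟨k, hk⟩ : K)) (fun x : K => ρ x)

theorem average_mul_rho {K : Subgroup G} {k : G} (hk : k ∈ K) :
    subgroupAverage ρ K * ρ k = subgroupAverage ρ K := by
  let := Fintype.ofFinite K
  simp only [subgroupAverage, smul_mul_assoc, Finset.sum_mul, ← map_mul]
  congr 1
  exact Equiv.sum_comp (Equiv.mulRight (⟨k, hk⟩ : K)) (fun x : K => ρ x)

theorem average_eq_self {K : Subgroup G} {v : V} (hv : ∀ k ∈ K, ρ k v = v) :
    subgroupAverage ρ K v = v := by
  let := Fintype.ofFinite K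
  have hc : (Nat.card K : ℂ) ≠ 0 := Nat.cast_ne_zero.mpr Nat.card_pos.ne'
  simp only [subgroupAverage, LinearMap.smul_apply, LinearMap.sum_apply]
  rw [Finset.sum_congr rfl fun (k : K) _ => hv k k.2, Finset.sum_const, Finset.card_univ,
    ← Nat.card_eq_fintype_card, ← Nat.cast_smul_eq_nsmul ℂ, smul_smul, inv_mul_cancel₀ hc, one_smul]

theorem average_mul_average (K : Subgroup G) :
    subgroupAverage ρ K * subgroupAverage ρ K = subgroupAverage ρ K :=
  LinearMap.ext fun v => average_eq_self ρ fun k hk => by
    rw [← Module.End.mul_apply, rho_mul_average ρ hk]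

theorem commute_average {x : Module.End ℂ V} {K : Subgroup G} (h : ∀ k ∈ K, Commute x (ρ k)) :
    Commute x (subgroupAverage ρ K) := by
  let := Fintype.ofFinite K
  exact ((Commute.sum_right Finset.univ (fun k : K => ρ k) x fun k _ => h k k.2).smul_right _)

/-- The operator detecting invariance under `K` and `U`. -/
def avgDefect (K U : Subgroup G) : Module.End ℂ V :=
  1 - subgroupAverage ρ K * subgroupAverage ρ U * subgroupAverage ρ K

variable [FiniteDimensional ℂ V]

/-- An invariant inner product. -/
def invInner (v w : V) : ℂ :=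
  letI := Fintype.ofFinite G
  ∑ g : G, ∑ i, conj ((Module.finBasis ℂ V).repr (ρ g v) i) * (Module.finBasis ℂ V).repr (ρ g w) i

theorem invInner_rho (x : G) (v w : V) : invInner ρ (ρ x v) w = invInner ρ v (ρ x⁻¹ w) := by
  let := Fintype.ofFinite G
  refine (Fintype.sum_equiv (Equiv.mulRight x) _ _ fun g => ?_)
  simp only [Equiv.coe_mulRight, map_mul, Module.End.mul_apply]
  refine Finset.sum_congr rfl fun i _ => ?_
  rw [← Module.End.mul_apply (ρ x) (ρ x⁻¹), ← map_mul, mul_inv_cancel, map_one,
    Module.End.one_apply]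

theorem invInner_sub_right (u v w : V) :
    invInner ρ u (v - w) = invInner ρ u v - invInner ρ u w := by
  simp only [invInner, map_sub, Finsupp.sub_apply, mul_sub, Finset.sum_sub_distrib]

theorem invInner_sub_left (u v w : V) :
    invInner ρ (u - v) w = invInner ρ u w - invInner ρ v w := by
  simp only [invInner, map_sub, Finsupp.sub_apply, sub_mul, Finset.sum_sub_distrib]

theorem eq_zero_of_invInner_self {v : V} (h : invInner ρ v v = 0) : v = 0 := by
  let := Fintype.ofFinite G
  have hre : ∀ z : ℂ, conj z * z = ((Complex.normSq z : ℝ) : ℂ) := fun z => by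
    rw [mul_comm, Complex.mul_conj]
  simp only [invInner, hre, ← Complex.ofReal_sum, Complex.ofReal_eq_zero] at h
  have h1 := (Finset.sum_eq_zero_iff_of_nonneg
    fun g _ => Finset.sum_nonneg fun i _ => Complex.normSq_nonneg _).mp h 1 (Finset.mem_univ _)
  refine (Module.finBasis ℂ V).repr.injective (Finsupp.ext fun i => ?_)
  have h2 := (Finset.sum_eq_zero_iff_of_nonneg fun i _ => Complex.normSq_nonneg _).mp h1 i
    (Finset.mem_univ i)
  simpa using Complex.normSq_eq_zero.mp h2

theorem invInner_symm (v w : V) : conj (invInner ρ v w) = invInner ρ w v := by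
  simp only [invInner, map_sum, map_mul, Complex.conj_conj]
  exact Finset.sum_congr rfl fun g _ => Finset.sum_congr rfl fun i _ => mul_comm _ _

/-- The inner product as a linear map in the second variable. -/
def invInnerRight (v : V) : V →ₗ[ℂ] ℂ where
  toFun w := invInner ρ v w
  map_add' x y := by
    simp only [invInner, map_add, Finsupp.add_apply, mul_add, Finset.sum_add_distrib]
  map_smul' c x := by
    simp only [invInner, map_smul, Finsupp.smul_apply, smul_eq_mul, RingHom.id_apply,
      Finset.mul_sum]
    exact Finset.sum_congr rfl fun g _ => Finset.sum_congr rfl fun i _ => mul_left_comm _ _ _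

theorem invInner_average (K : Subgroup G) (v w : V) :
    invInner ρ (subgroupAverage ρ K v) w = invInner ρ v (subgroupAverage ρ K w) := by
  let := Fintype.ofFinite G
  let := Fintype.ofFinite K
  have hR : ∀ (c : ℂ) (a : K → V) (b : V),
      invInner ρ b (c • ∑ k, a k) = c * ∑ k, invInner ρ b (a k) := by
    intro c a b
    show invInnerRight ρ b (c • ∑ k, a k) = c * ∑ k, invInnerRight ρ b (a k)
    rw [map_smul, map_sum, smul_eq_mul]
  have hL : ∀ (c : ℂ) (a : K → V) (b : V),
      invInner ρ (c • ∑ k, a k) b = conj c * ∑ k, invInner ρ (a k) b := by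
    intro c a b
    rw [← invInner_symm, hR, map_mul, map_sum]
    simp only [invInner_symm]
  simp only [subgroupAverage, LinearMap.smul_apply, LinearMap.sum_apply]
  rw [hL, hR, map_inv₀, map_natCast]
  congr 1
  refine Fintype.sum_equiv (Equiv.inv K) _ _ fun k => ?_
  rw [invInner_rho]
  rfl

theorem fixed_of_avgDefect_eq_zero {K U : Subgroup G} {v : V} (h : avgDefect ρ K U v = 0) :
    (∀ k ∈ K, ρ k v = v) ∧ ∀ u ∈ U, ρ u v = v := by
  set E := subgroupAverage ρ K with hE
  set Q := subgroupAverage ρ U with hQ
  have h1 : v = E (Q (E v)) := by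
    simpa [avgDefect, sub_eq_zero, Module.End.mul_apply] using h
  have hEE : ∀ x, E (E x) = E x := fun x => by
    rw [← Module.End.mul_apply, average_mul_average]
  have hQQ : ∀ x, Q (Q x) = Q x := fun x => by
    rw [← Module.End.mul_apply, average_mul_average]
  have hEv : E v = v := by
    conv_lhs => rw [h1]
    rw [hEE]
    exact h1.symm
  rw [hEv] at h1
  have hEQ : invInner ρ v (Q v) = invInner ρ v v :=
    calc invInner ρ v (Q v) = invInner ρ (E v) (Q v) := by rw [hEv]
      _ = invInner ρ v (E (Q v)) := invInner_average ρ K v (Q v)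
      _ = invInner ρ v v := by rw [← h1]
  have hQQi : invInner ρ (Q v) (Q v) = invInner ρ v v := by
    rw [invInner_average, hQQ, hEQ]
  have hQv : v - Q v = 0 := by
    refine eq_zero_of_invInner_self ρ ?_
    rw [invInner_sub_left, invInner_sub_right, invInner_sub_right, hEQ, hQQi,
      invInner_average ρ U v v, hEQ]
    ring
  rw [sub_eq_zero] at hQv
  refine ⟨fun k hk => ?_, fun u hu => ?_⟩
  · rw [← hEv, ← Module.End.mul_apply, rho_mul_average ρ hk]
  · rw [hQv, ← Module.End.mul_apply, rho_mul_average ρ hu]

theorem avgDefect_semisimple (K U : Subgroup G) (v : V)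
    (h : avgDefect ρ K U (avgDefect ρ K U v) = 0) : avgDefect ρ K U v = 0 := by
  refine eq_zero_of_invInner_self ρ ?_
  have hadj : ∀ x y : V, invInner ρ (avgDefect ρ K U x) y = invInner ρ x (avgDefect ρ K U y) := by
    intro x y
    simp only [avgDefect, LinearMap.sub_apply, Module.End.one_apply, Module.End.mul_apply]
    rw [invInner_sub_left, invInner_sub_right, invInner_average, invInner_average, invInner_average]
  rw [hadj, h]
  simp [invInner]

/-- The inclusion–exclusion lemma. -/
theorem mem_iSup_fixed_of_prod_eq_zero {ι : Type*} (G₀ : Subgroup G) (K U : ι → Subgroup G)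
    (L : List ι) (hL : L.Nodup) (hKG : ∀ i ∈ L, K i ≤ G₀)
    (hcomm : ∀ i ∈ L, ∀ j ∈ L, i ≠ j → ∀ x ∈ (K i : Set G) ∪ U i, ∀ y ∈ (K j : Set G) ∪ U j,
      Commute x y)
    (hconj : ∀ g ∈ G₀, ∀ i ∈ L, ∃ k ∈ K i, ∀ x ∈ (K i : Set G) ∪ U i, Commute (g * k⁻¹) x)
    (φ : V) (hφ : ∀ g ∈ G₀, ρ g φ = φ)
    (h : (L.map fun i => 1 - subgroupAverage ρ (U i)).prod φ = 0) :
    φ ∈ Submodule.span ℂ {ψ : V | ∃ i ∈ L, (∀ g ∈ G₀, ρ g ψ = ψ) ∧ ∀ u ∈ U i, ρ u ψ = ψ} := by
  set X : ι → Module.End ℂ V := fun i => avgDefect ρ (K i) (U i)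
  have hEcomm : ∀ i ∈ L, ∀ j ∈ L, i ≠ j → ∀ H ∈ [K i, U i], ∀ H' ∈ [K j, U j],
      Commute (subgroupAverage ρ H) (subgroupAverage ρ H') := by
    intro i hi j hj hij H hH H' hH'
    refine commute_average ρ fun y hy => (commute_average ρ fun x hx => ?_).symm
    refine ((hcomm i hi j hj hij x ?_ y ?_).map ρ).symm
    · rcases List.mem_pair.mp hH with rfl | rfl
      · exact Or.inl hx
      · exact Or.inr hx
    · rcases List.mem_pair.mp hH' with rfl | rfl
      · exact Or.inl hy
      · exact Or.inr hy
  have hXcomm : ∀ i ∈ L, ∀ j ∈ L, Commute (X i) (X j) := by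
    intro i hi j hj
    by_cases hij : i = j
    · subst hij; exact Commute.refl _
    have hc := hEcomm i hi j hj hij
    refine Commute.sub_left (Commute.one_left _) (Commute.sub_right (Commute.one_right _) ?_)
    exact ((((hc (K i) (by simp) (K j) (by simp)).mul_right (hc (K i) (by simp) (U j) (by simp))
        ).mul_right (hc (K i) (by simp) (K j) (by simp))).mul_left
      (((hc (U i) (by simp) (K j) (by simp)).mul_right (hc (U i) (by simp) (U j) (by simp))
        ).mul_right (hc (U i) (by simp) (K j) (by simp)))).mul_left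
      (((hc (K i) (by simp) (K j) (by simp)).mul_right (hc (K i) (by simp) (U j) (by simp))
        ).mul_right (hc (K i) (by simp) (K j) (by simp)))
  -- the product of the defects kills `φ`
  have hprod : ∀ M : List ι, (∀ i ∈ M, i ∈ L) → M.Nodup → (M.map X).prod φ =
      (M.map fun i => subgroupAverage ρ (K i)).prod
        ((M.map fun i => 1 - subgroupAverage ρ (U i)).prod φ) := by
    intro M hM hnd
    induction M with
    | nil => simp
    | cons r M ih =>
      have hrL := hM r List.mem_cons_self
      obtain ⟨hrM, hndM⟩ := List.nodup_cons.mp hnd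
      simp only [List.map_cons, List.prod_cons, Module.End.mul_apply]
      rw [ih (fun i hi => hM i (List.mem_cons_of_mem _ hi)) hndM]
      set PE := (M.map fun i => subgroupAverage ρ (K i)).prod
      set PQ := (M.map fun i => 1 - subgroupAverage ρ (U i)).prod
      have hcE : ∀ H ∈ [K r, U r], Commute (subgroupAverage ρ H) PE := fun H hH =>
        Commute.list_prod_right _ _ fun y hy => by
          obtain ⟨j, hj, rfl⟩ := List.mem_map.mp hy
          exact hEcomm r hrL j (hM j (List.mem_cons_of_mem _ hj)) (fun e => hrM (e ▸ hj)) H hH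
            (K j) (by simp)
      have hcQ : Commute (subgroupAverage ρ (K r)) PQ :=
        Commute.list_prod_right _ _ fun y hy => by
          obtain ⟨j, hj, rfl⟩ := List.mem_map.mp hy
          exact (Commute.one_right _).sub_right (hEcomm r hrL j (hM j (List.mem_cons_of_mem _ hj))
            (fun e => hrM (e ▸ hj)) _ (by simp) (U j) (by simp))
      have hEr : subgroupAverage ρ (K r) φ = φ := average_eq_self ρ fun k hk => hφ k (hKG r hrL hk)
      have hfix : subgroupAverage ρ (K r) (PE (PQ φ)) = PE (PQ φ) := by
        rw [← Module.End.mul_apply, (hcE _ (by simp)).eq, Module.End.mul_apply,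
          ← Module.End.mul_apply (subgroupAverage ρ (K r)), hcQ.eq, Module.End.mul_apply, hEr]
      have hQPE : subgroupAverage ρ (U r) (PE (PQ φ)) = PE (subgroupAverage ρ (U r) (PQ φ)) := by
        rw [← Module.End.mul_apply, (hcE _ (by simp)).eq, Module.End.mul_apply]
      simp only [X, avgDefect, LinearMap.sub_apply, Module.End.one_apply, Module.End.mul_apply,
        map_sub]
      rw [hfix, hQPE]
  have hker : φ ∈ ⨆ i ∈ L, LinearMap.ker (X i) :=
    mem_iSup_ker_of_prod_eq_zero X (fun i => avgDefect_semisimple ρ (K i) (U i)) L hXcomm φ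
      (by rw [hprod L (fun _ h => h) hL, h, map_zero])
  rw [← average_eq_self ρ hφ]
  have hle : (⨆ i ∈ L, LinearMap.ker (X i)) ≤
      Submodule.comap (subgroupAverage ρ G₀)
        (Submodule.span ℂ {ψ : V | ∃ i ∈ L, (∀ g ∈ G₀, ρ g ψ = ψ) ∧ ∀ u ∈ U i, ρ u ψ = ψ}) := by
    refine iSup₂_le fun i hi v hv => Submodule.subset_span ⟨i, hi, fun g hg => ?_, ?_⟩
    · rw [← Module.End.mul_apply, rho_mul_average ρ hg]
    refine (fixed_of_avgDefect_eq_zero ρ (K := K i) ?_).2
    have hc : Commute (X i) (subgroupAverage ρ G₀) := commute_average ρ fun g hg => by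
      obtain ⟨k, hk, hcom⟩ := hconj g hg i hi
      have hg' : ∀ H ∈ [K i, U i], Commute (ρ (g * k⁻¹)) (subgroupAverage ρ H) := fun H hH =>
        commute_average ρ fun x hx => (hcom x (by
          rcases List.mem_pair.mp hH with rfl | rfl
          · exact Or.inl hx
          · exact Or.inr hx)).map ρ
      rw [show g = g * k⁻¹ * k by group, map_mul]
      refine Commute.mul_right ?_ ?_
      · exact (Commute.one_left _).sub_left
          ((((hg' _ (by simp)).mul_right (hg' _ (by simp))).mul_right (hg' _ (by simp))).symm)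
      · refine (Commute.one_left _).sub_left ?_
        show subgroupAverage ρ (K i) * subgroupAverage ρ (U i) * subgroupAverage ρ (K i) * ρ k =
          ρ k * (subgroupAverage ρ (K i) * subgroupAverage ρ (U i) * subgroupAverage ρ (K i))
        rw [mul_assoc _ _ (ρ k), average_mul_rho ρ hk, ← mul_assoc, ← mul_assoc,
          rho_mul_average ρ hk]
    rw [← Module.End.mul_apply, hc.eq, Module.End.mul_apply, LinearMap.mem_ker.mp hv, map_zero]
  exact hle hker

end Averages

end FLTAgent.Newforms

end
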