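import Mathlib.NumberTheory.ModularForms.CongruenceSubgroups
import Mathlib.RingTheory.Coprime.Lemmas
import Mathlib.RingTheory.Int.Basic
import Mathlib.Tactic.LinearCombination

/-!
# Lifts to `SL(2, ℤ)`

Lifting matrices of determinant `1` modulo `n` to `SL(2, ℤ)` (`exists_SL2_congr`), and the Chinese
remainder lifts needed to separate the local components of congruence subgroups
(`exists_local_component`).
-/

set_option autoImplicit false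

open CongruenceSubgroup
open scoped MatrixGroups

namespace FLTAgent.Newforms

/-- If `c ≠ 0` and `(c, d, n) = 1`, some translate `d + t n` is coprime to `c`. -/
theorem exists_isCoprime_add_mul {c d : ℤ} {n : ℤ} (hc : c ≠ 0)
    (h : ∀ p : ℤ, Prime p → p ∣ c → p ∣ d → ¬ p ∣ n) :
    ∃ t : ℤ, IsCoprime c (d + t * n) := by
  classical
  set s : Finset ℕ := c.natAbs.primeFactors.filter fun p => ¬ (p : ℤ) ∣ d
  refine ⟨((∏ p ∈ s, p : ℕ) : ℤ), ?_⟩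
  rw [Int.isCoprime_iff_nat_coprime]
  refine Nat.coprime_of_dvd fun p hp hpc hpd => ?_
  have hpc' : (p : ℤ) ∣ c := Int.natCast_dvd.mpr hpc
  have hpd' : (p : ℤ) ∣ d + ((∏ q ∈ s, q : ℕ) : ℤ) * n := Int.natCast_dvd.mpr hpd
  by_cases hd : (p : ℤ) ∣ d
  · have h2 : (p : ℤ) ∣ ((∏ q ∈ s, q : ℕ) : ℤ) * n := (Int.dvd_add_right hd).mp hpd'
    rcases (Nat.prime_iff_prime_int.mp hp).dvd_mul.mp h2 with h3 | h3
    · obtain ⟨q, hq, hpq⟩ := (Prime.dvd_finsetProd_iff (Nat.prime_iff.mp hp) _).mp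
        (Int.natCast_dvd_natCast.mp h3)
      simp only [s, Finset.mem_filter, Nat.mem_primeFactors] at hq
      rw [(Nat.prime_dvd_prime_iff_eq hp hq.1.1).mp hpq] at hd
      exact hq.2 hd
    · exact h p (Nat.prime_iff_prime_int.mp hp) hpc' hd h3
  · have hps : p ∈ s := by
      simp only [s, Finset.mem_filter, Nat.mem_primeFactors]
      exact ⟨⟨hp, hpc, Int.natAbs_ne_zero.mpr hc⟩, hd⟩
    refine hd ((Int.dvd_add_left ?_).mp hpd')
    exact (Int.natCast_dvd_natCast.mpr (Finset.dvd_prod_of_mem _ hps)).mul_right n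

/-- A matrix of determinant `1` modulo `n` lifts to `SL(2, ℤ)`. -/
theorem exists_SL2_congr {n : ℕ} (hn : n ≠ 0) (a b c d : ℤ)
    (hdet : (n : ℤ) ∣ a * d - b * c - 1) :
    ∃ g : SL(2, ℤ), (n : ℤ) ∣ g.1 0 0 - a ∧ (n : ℤ) ∣ g.1 0 1 - b ∧
      (n : ℤ) ∣ g.1 1 0 - c ∧ (n : ℤ) ∣ g.1 1 1 - d := by
  obtain ⟨c', hc0, hcc⟩ : ∃ c' : ℤ, c' ≠ 0 ∧ (n : ℤ) ∣ c' - c := by
    rcases eq_or_ne c 0 with rfl | hc
    · exact ⟨n, by exact_mod_cast hn, by simp⟩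
    · exact ⟨c, hc, by simp⟩
  have hdet' : (n : ℤ) ∣ a * d - b * c' - 1 := by
    have := dvd_sub hdet (hcc.mul_left b)
    refine this.trans (dvd_of_eq ?_)
    ring
  have hcop : ∀ p : ℤ, Prime p → p ∣ c' → p ∣ d → ¬ p ∣ (n : ℤ) := fun p hp h1 h2 h3 => by
    have h4 : p ∣ a * d - b * c' - (a * d - b * c' - 1) :=
      dvd_sub (dvd_sub (h2.mul_left a) (h1.mul_left b)) (h3.trans hdet')
    rw [sub_sub_cancel] at h4
    exact hp.not_isUnit (isUnit_of_dvd_one h4)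
  obtain ⟨t, ht⟩ := exists_isCoprime_add_mul hc0 hcop
  obtain ⟨u, v, huv⟩ := ht
  obtain ⟨k, hk⟩ : (n : ℤ) ∣ a * (d + t * n) - b * c' - 1 := by
    refine (dvd_add hdet' (Dvd.intro_left (a * t) rfl)).trans (dvd_of_eq ?_)
    ring
  refine ⟨⟨!![a - k * n * v, b + k * n * u; c', d + t * n], ?_⟩, ?_, ?_, ?_, ?_⟩
  · rw [Matrix.det_fin_two_of]
    linear_combination hk - k * n * huv
  · exact ⟨-(k * v), by simp; ring⟩
  · exact ⟨k * u, by simp; ring⟩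
  · simpa using hcc
  · exact ⟨t, by simp; ring⟩

theorem mem_Gamma_iff_dvd {n : ℕ} {g : SL(2, ℤ)} :
    g ∈ Gamma n ↔ (n : ℤ) ∣ g.1 0 0 - 1 ∧ (n : ℤ) ∣ g.1 0 1 ∧ (n : ℤ) ∣ g.1 1 0 ∧
      (n : ℤ) ∣ g.1 1 1 - 1 := by
  rw [Gamma_mem]
  simp only [← ZMod.intCast_zmod_eq_zero_iff_dvd, Int.cast_sub, Int.cast_one, sub_eq_zero]

theorem commutator_mem_Gamma {n : ℕ} {g h : SL(2, ℤ)} (hg : g ∈ Gamma n) :
    g * h * g⁻¹ * h⁻¹ ∈ Gamma n := by
  rw [mul_assoc, mul_assoc, ← mul_assoc h]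
  exact mul_mem hg ((Gamma_normal n).conj_mem _ (inv_mem hg) h)

theorem mem_Gamma_of_mem_of_mem {n A B : ℕ} (hn : n = A * B) (hAB : A.Coprime B) {g : SL(2, ℤ)}
    (hA : g ∈ Gamma A) (hB : g ∈ Gamma B) : g ∈ Gamma n := by
  rw [mem_Gamma_iff_dvd] at hA hB ⊢
  have hc : IsCoprime (A : ℤ) (B : ℤ) := Nat.isCoprime_iff_coprime.mpr hAB
  rw [hn, Nat.cast_mul]
  exact ⟨hc.mul_dvd hA.1 hB.1, hc.mul_dvd hA.2.1 hB.2.1, hc.mul_dvd hA.2.2.1 hB.2.2.1,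
    hc.mul_dvd hA.2.2.2 hB.2.2.2⟩

/-- Every matrix can be split into a factor congruent to `1` modulo `B` and one congruent to `1`
modulo `A`, for coprime `A`, `B`. -/
theorem exists_local_component {A B : ℕ} (hA : A ≠ 0) (hB : B ≠ 0) (hAB : A.Coprime B)
    (g : SL(2, ℤ)) : ∃ k : SL(2, ℤ), k ∈ Gamma B ∧ g * k⁻¹ ∈ Gamma A := by
  obtain ⟨u, v, huv⟩ := Nat.isCoprime_iff_coprime.mpr hAB
  -- `e` is `1` modulo `A` and `0` modulo `B`
  set e : ℤ := v * B with he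
  have heA : (A : ℤ) ∣ e - 1 := ⟨-u, by linear_combination he + huv⟩
  have heB : (B : ℤ) ∣ e := ⟨v, by rw [he, mul_comm]⟩
  have hg : g.1 0 0 * g.1 1 1 - g.1 0 1 * g.1 1 0 = 1 := by rw [← Matrix.det_fin_two, g.2]
  set a := 1 + e * (g.1 0 0 - 1)
  set b := e * g.1 0 1
  set c := e * g.1 1 0
  set d := 1 + e * (g.1 1 1 - 1)
  have hdet : ((A * B : ℕ) : ℤ) ∣ a * d - b * c - 1 := by
    have h1 : a * d - b * c - 1 = e * (e - 1) * (2 - g.1 0 0 - g.1 1 1) := by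
      linear_combination e ^ 2 * hg
    rw [h1, Nat.cast_mul, mul_comm (A : ℤ)]
    exact (mul_dvd_mul heB heA).mul_right _
  obtain ⟨k, hk⟩ := exists_SL2_congr (mul_ne_zero hA hB) a b c d hdet
  simp only [Nat.cast_mul] at hk
  have hB' : ∀ {x y : ℤ}, (A : ℤ) * B ∣ x - y → (B : ℤ) ∣ y → (B : ℤ) ∣ x := fun {x y} h1 h2 => by
    simpa using dvd_add ((Dvd.intro_left _ rfl).trans h1) h2
  have hA' : ∀ {x y z : ℤ}, (A : ℤ) * B ∣ x - y → (A : ℤ) ∣ y - z → (A : ℤ) ∣ x - z :=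
    fun {x y z} h1 h2 => by simpa using dvd_add ((Dvd.intro _ rfl).trans h1) h2
  refine ⟨k, mem_Gamma_iff_dvd.mpr ⟨?_, hB' hk.2.1 (heB.mul_right _),
    hB' hk.2.2.1 (heB.mul_right _),
    ?_⟩, ?_⟩
  · refine hB' (y := a - 1) ?_ (by simp only [a, add_sub_cancel_left]; exact heB.mul_right _)
    simpa using hk.1
  · refine hB' (y := d - 1) ?_ (by simp only [d, add_sub_cancel_left]; exact heB.mul_right _)
    simpa using hk.2.2.2
  -- `k ≡ g` modulo `A`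
  have hsub : ∀ x : ℤ, (A : ℤ) ∣ e * x - x := fun x =>
    (heA.mul_right x).trans (dvd_of_eq (by ring))
  have h00 : (A : ℤ) ∣ k.1 0 0 - g.1 0 0 := hA' hk.1
    ((hsub (g.1 0 0 - 1)).trans (dvd_of_eq (by simp only [a]; ring)))
  have h01 : (A : ℤ) ∣ k.1 0 1 - g.1 0 1 := hA' hk.2.1 (hsub _)
  have h10 : (A : ℤ) ∣ k.1 1 0 - g.1 1 0 := hA' hk.2.2.1 (hsub _)
  have h11 : (A : ℤ) ∣ k.1 1 1 - g.1 1 1 := hA' hk.2.2.2
    ((hsub (g.1 1 1 - 1)).trans (dvd_of_eq (by simp only [d]; ring)))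
  have hzero : ∀ i j, ((g.1 i j : ℤ) : ZMod A) = ((k.1 i j : ℤ) : ZMod A) := fun i j => by
    rw [eq_comm, ← sub_eq_zero, ← Int.cast_sub, ZMod.intCast_zmod_eq_zero_iff_dvd]
    fin_cases i <;> fin_cases j <;> assumption
  rw [Gamma_mem', map_mul, map_inv, mul_inv_eq_one]
  ext i j
  simpa using hzero i j

end FLTAgent.Newforms
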