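import Fermat.Agent.Newforms.Slash
import Fermat.Agent.Newforms.SL2Lift
import Fermat.Agent.Newforms.FiniteGroupAverage
import Mathlib.Data.Nat.Factorization.Basic
import Mathlib.NumberTheory.ModularForms.QExpansion

/-!
# The main lemma of Atkin–Lehner theory

A form of level `N` whose coefficients vanish at all indices prime to a set of primes dividing `N`
is a combination of forms `g(q τ)`, `g` of level `N / q`
(`mem_shiftedOldspace_of_qCoeff_eq_zero`).
-/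

set_option autoImplicit false

noncomputable section

open CongruenceSubgroup UpperHalfPlane Matrix
open scoped MatrixGroups ModularForm Manifold

namespace FLTAgent.Newforms

/-- `diag(q, 1)` intertwines `Γ₀(N)` and `Γ₀(M)` for `q M ∣ N`. -/
theorem intertwines_diag {M N q : ℕ} (h : q * M ∣ N) :
    Intertwines M N !![(q : ℤ), 0; 0, 1] := by
  intro g hg
  have hN : (N : ℤ) ∣ g.1 1 0 := (ZMod.intCast_zmod_eq_zero_iff_dvd _ _).mp (Gamma0_mem.mp hg)
  obtain ⟨c, hc⟩ := (Int.natCast_dvd_natCast.mpr h).trans hN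
  rw [Nat.cast_mul] at hc
  have hdet : g.1 0 0 * g.1 1 1 - g.1 0 1 * g.1 1 0 = 1 := by rw [← Matrix.det_fin_two, g.2]
  refine ⟨⟨!![g.1 0 0, q * g.1 0 1; M * c, g.1 1 1], ?_⟩, ?_, ?_⟩
  · rw [Matrix.det_fin_two_of]
    linear_combination hdet + g.1 0 1 * hc
  · exact Gamma0_mem.mpr ((ZMod.intCast_zmod_eq_zero_iff_dvd _ _).mpr (dvd_mul_right _ _))
  · ext i j
    fin_cases i <;> fin_cases j <;> simp [Matrix.mul_apply, Fin.sum_univ_two, hc] <;> ring

theorem det_diag_pos {q : ℕ} (hq : 0 < q) : 0 < (!![(q : ℤ), 0; 0, 1] : IMat).det := by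
  rw [Matrix.det_fin_two_of]; simp [hq]

/-- `g ↦ q g(q τ)`, from level `M` to level `N` for `q M ∣ N`. -/
def oldLift {M N q : ℕ} [NeZero M] [NeZero N] (hq : 0 < q) (h : q * M ∣ N) :
    CuspForm (Gamma0 M) 2 →ₗ[ℂ] CuspForm (Gamma0 N) 2 :=
  slashLin !![(q : ℤ), 0; 0, 1] (det_diag_pos hq) (intertwines_diag h)

/-- The span of the images `g(q τ)`, `q ∈ s`, of forms of level `N / q`. -/
def shiftedOldspace (N : ℕ) [NeZero N] (s : Finset ℕ) : Submodule ℂ (CuspForm (Gamma0 N) 2) :=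
  Submodule.span ℂ {g | ∃ q ∈ s, ∃ (M : ℕ) (_ : NeZero M) (hq : 0 < q) (hN : q * M = N)
    (g₀ : CuspForm (Gamma0 M) 2), oldLift hq hN.dvd g₀ = g}

attribute [local instance] CongruenceSubgroup.Gamma_normal

/-- `Γ(N)`-invariant functions. -/
def gammaInv (N : ℕ) : Submodule ℂ (ℍ → ℂ) where
  carrier := {φ | ∀ g ∈ Gamma N, φ ∣[(2 : ℤ)] g = φ}
  add_mem' {a b} ha hb g hg := by rw [SlashAction.add_slash, ha g hg, hb g hg]
  zero_mem' g _ := SlashAction.zero_slash _ _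
  smul_mem' c φ hφ g hg := by rw [ModularForm.SL_smul_slash, hφ g hg]

theorem slash_mem_gammaInv {N : ℕ} {φ : ℍ → ℂ} (hφ : φ ∈ gammaInv N) (x : SL(2, ℤ)) :
    φ ∣[(2 : ℤ)] x ∈ gammaInv N := by
  intro g hg
  rw [← SlashAction.slash_mul, show x * g = x * g * x⁻¹ * x by group, SlashAction.slash_mul,
    hφ _ ((Gamma_normal N).conj_mem g hg x)]

/-- The action of `SL(2, ℤ)` on `Γ(N)`-invariant functions. -/
def gammaInvRep (N : ℕ) : Representation ℂ SL(2, ℤ) (gammaInv N) where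
  toFun x :=
    { toFun := fun φ => ⟨φ.1 ∣[(2 : ℤ)] x⁻¹, slash_mem_gammaInv φ.2 _⟩
      map_add' := fun a b => Subtype.ext (SlashAction.add_slash _ _ _ _)
      map_smul' := fun c a => Subtype.ext (ModularForm.SL_smul_slash _ _ _ _) }
  map_one' := LinearMap.ext fun φ => Subtype.ext (by simp)
  map_mul' x y := LinearMap.ext fun φ => Subtype.ext (by
    simp only [LinearMap.coe_mk, AddHom.coe_mk, Module.End.mul_apply, _root_.mul_inv_rev,
      SlashAction.slash_mul])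

theorem coe_gammaInvRep {N : ℕ} (x : SL(2, ℤ)) (φ : gammaInv N) :
    ((gammaInvRep N x φ : gammaInv N) : ℍ → ℂ) = φ.1 ∣[(2 : ℤ)] x⁻¹ := rfl

/-- The action of `SL(2, ℤ) ⧸ Γ(N)`. -/
def quotientRep (N : ℕ) : Representation ℂ (SL(2, ℤ) ⧸ Gamma N) (gammaInv N) :=
  QuotientGroup.lift (Gamma N) (gammaInvRep N) fun _x hx =>
    LinearMap.ext fun φ => Subtype.ext (φ.2 _ (inv_mem hx))

theorem quotientRep_mk {N : ℕ} (x : SL(2, ℤ)) :
    quotientRep N (QuotientGroup.mk x) = gammaInvRep N x := rfl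

/-- `{c ≡ 0 mod P, b ≡ 0 mod R}`. -/
def gammaPR (P R : ℕ) : Subgroup SL(2, ℤ) where
  carrier := {g | (P : ℤ) ∣ g.1 1 0 ∧ (R : ℤ) ∣ g.1 0 1}
  one_mem' := by simp
  mul_mem' {a b} ha hb := by
    rw [Set.mem_ofPred_eq] at *
    refine ⟨?_, ?_⟩
    · rw [Matrix.SpecialLinearGroup.coe_mul, Matrix.mul_apply, Fin.sum_univ_two]
      exact dvd_add (ha.1.mul_right _) (hb.1.mul_left _)
    · rw [Matrix.SpecialLinearGroup.coe_mul, Matrix.mul_apply, Fin.sum_univ_two]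
      exact dvd_add (hb.2.mul_left _) (ha.2.mul_right _)
  inv_mem' {a} ha := by
    rw [Set.mem_ofPred_eq] at *
    simpa [Matrix.SpecialLinearGroup.coe_inv, Matrix.adjugate_fin_two] using ha

theorem mem_gammaPR {P R : ℕ} {g : SL(2, ℤ)} :
    g ∈ gammaPR P R ↔ (P : ℤ) ∣ g.1 1 0 ∧ (R : ℤ) ∣ g.1 0 1 := Iff.rfl

/-- Fourier expansion in `e(τ / R)`. -/
def HasExpR (R : ℕ) (b : ℕ → ℂ) (φ : ℍ → ℂ) : Prop :=
  ∀ τ : ℍ, HasSum (fun n : ℕ => b n *
    Complex.exp (2 * Real.pi * Complex.I * n * (τ : ℂ) / R)) (φ τ)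

theorem slash_T_zpow (φ : ℍ → ℂ) (j : ℤ) (τ : ℍ) :
    (φ ∣[(2 : ℤ)] (ModularGroup.T ^ j)) τ = φ ((j : ℝ) +ᵥ τ) := by
  rw [ModularForm.SL_slash_apply, UpperHalfPlane.modular_T_zpow_smul, ModularGroup.denom_apply,
    ModularGroup.coe_T_zpow]
  simp

theorem HasExpR.slash_T_zpow {R : ℕ} {b : ℕ → ℂ} {φ : ℍ → ℂ} (h : HasExpR R b φ) (j : ℤ) :
    HasExpR R (fun n => b n * Complex.exp (2 * Real.pi * Complex.I * n * j / R))
      (φ ∣[(2 : ℤ)] (ModularGroup.T ^ j)) := by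
  intro τ
  rw [Newforms.slash_T_zpow]
  refine (h ((j : ℝ) +ᵥ τ)).congr_fun fun n => ?_
  rw [mul_assoc, ← Complex.exp_add, UpperHalfPlane.coe_vadd]
  congr 2
  push_cast
  ring

section Setting

variable {N : ℕ} [NeZero N] (s : Finset ℕ)

/-- The prime-to-`q` part of `N`. -/
def awayPart (N q : ℕ) : ℕ := N / q ^ N.factorization q

theorem coprime_pow_awayPart {q : ℕ} (hq : q.Prime) :
    (q ^ N.factorization q).Coprime (awayPart N q) :=
  Nat.Coprime.pow_left _ (Nat.coprime_ordCompl hq (NeZero.ne N))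

omit [NeZero N] in
theorem pow_mul_awayPart (q : ℕ) : q ^ N.factorization q * awayPart N q = N :=
  Nat.ordProj_mul_ordCompl_eq_self N q

omit [NeZero N] in
theorem dvd_of_congr {A B D : ℕ} (hAB : A.Coprime B) (hD : D ∣ A * B) {x y : ℤ}
    (hy : (D : ℤ) ∣ y) (hx : (A : ℤ) ∣ x - y) (hB : (B : ℤ) ∣ x) : (D : ℤ) ∣ x := by
  have h1 : D = D.gcd A * D.gcd B := by
    rw [← Nat.Coprime.gcd_mul D hAB]
    exact (Nat.gcd_eq_left hD).symm
  have h2 : IsCoprime ((D.gcd A : ℕ) : ℤ) ((D.gcd B : ℕ) : ℤ) :=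
    Nat.isCoprime_iff_coprime.mpr (hAB.coprime_dvd_left (Nat.gcd_dvd_right _ _)
      |>.coprime_dvd_right (Nat.gcd_dvd_right _ _))
  rw [h1, Nat.cast_mul]
  refine h2.mul_dvd ?_ ((Int.natCast_dvd_natCast.mpr (Nat.gcd_dvd_right D B)).trans hB)
  have h3 := dvd_add ((Int.natCast_dvd_natCast.mpr (Nat.gcd_dvd_right D A)).trans hx)
    ((Int.natCast_dvd_natCast.mpr (Nat.gcd_dvd_left D A)).trans hy)
  simpa using h3

variable {s} (hs : ∀ q ∈ s, q.Prime ∧ q ∣ N)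
include hs

omit [NeZero N] in
theorem prod_dvd_level : (∏ q ∈ s, q) ∣ N :=
  Finset.prod_primes_dvd N (fun q hq => (hs q hq).1.prime) fun q hq => (hs q hq).2

omit [NeZero N] in
theorem prod_ne_zero : (∏ q ∈ s, q) ≠ 0 :=
  Finset.prod_ne_zero_iff.mpr fun q hq => (hs q hq).1.ne_zero

omit [NeZero N] in
theorem not_dvd_prod_erase {q : ℕ} (hq : q ∈ s) : ¬ q ∣ ∏ r ∈ s.erase q, r := by
  rw [(hs q hq).1.prime.dvd_finsetProd_iff]
  rintro ⟨r, hr, hqr⟩
  obtain ⟨hne, hr⟩ := Finset.mem_erase.mp hr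
  exact hne ((Nat.prime_dvd_prime_iff_eq (hs q hq).1 (hs r hr).1).mp hqr).symm

omit [NeZero N] in
theorem prod_erase_dvd_awayPart {q : ℕ} (hq : q ∈ s) :
    (∏ r ∈ s.erase q, r) ∣ awayPart N q := by
  refine Nat.Coprime.dvd_of_dvd_mul_left ?_
    (((dvd_of_eq rfl).trans ?_).trans (dvd_of_eq (pow_mul_awayPart q).symm))
  · exact Nat.Coprime.pow_right _
      (((hs q hq).1.coprime_iff_not_dvd.mpr (not_dvd_prod_erase hs hq)).symm)
  · exact (Finset.prod_dvd_prod_of_subset _ _ _ (Finset.erase_subset q s)).trans (prod_dvd_level hs)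

theorem gcd_awayPart_prod {q : ℕ} (hq : q ∈ s) :
    Nat.gcd (awayPart N q) (∏ r ∈ s, r) = ∏ r ∈ s.erase q, r := by
  rw [← Finset.mul_prod_erase s (fun r => r) hq]
  unfold awayPart
  rw [Nat.Coprime.gcd_mul_left_cancel_right _ (((hs q hq).1.coprime_iff_not_dvd.mpr
      (Nat.not_dvd_ordCompl (hs q hq).1 (NeZero.ne N))))]
  exact Nat.gcd_eq_right (prod_erase_dvd_awayPart hs hq)

end Setting

/-- `f(τ / R)`, up to a constant, is invariant under `gammaPR P R` for `R P = N`. -/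
theorem slash_diag_invariant {N R P : ℕ} (hR : 0 < R) (hP : N = R * P)
    (f : CuspForm (Gamma0 N) 2) {g : SL(2, ℤ)} (hg : g ∈ gammaPR P R) :
    (⇑f ∣[(2 : ℤ)] intGL !![1, 0; 0, (R : ℤ)]) ∣[(2 : ℤ)] g =
      ⇑f ∣[(2 : ℤ)] intGL !![1, 0; 0, (R : ℤ)] := by
  have hD₁ : (!![1, 0; 0, (R : ℤ)] : IMat).det ≠ 0 := by
    rw [Matrix.det_fin_two_of]; simp [hR.ne']
  obtain ⟨⟨c, hc⟩, ⟨b, hb⟩⟩ := mem_gammaPR.mp hg
  have hdet : g.1 0 0 * g.1 1 1 - g.1 0 1 * g.1 1 0 = 1 := by rw [← Matrix.det_fin_two, g.2]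
  have hdet' : (!![g.1 0 0, b; (R : ℤ) * g.1 1 0, g.1 1 1] : IMat).det = 1 := by
    rw [Matrix.det_fin_two_of]
    linear_combination hdet + g.1 1 0 * hb
  have hmem : (⟨_, hdet'⟩ : SL(2, ℤ)) ∈ Gamma0 N :=
    Gamma0_mem.mpr ((ZMod.intCast_zmod_eq_zero_iff_dvd _ _).mpr
      ⟨c, by simp [hc, hP]; ring⟩)
  have e : !![1, 0; 0, (R : ℤ)] * g.1 =
      !![g.1 0 0, b; (R : ℤ) * g.1 1 0, g.1 1 1] * !![1, 0; 0, (R : ℤ)] := by
    ext i j
    fin_cases i <;> fin_cases j <;>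
      simp [Matrix.mul_apply, Fin.sum_univ_two, hb] <;> ring
  have hfix := isGamma0Inv_coe f _ hmem
  rw [ModularForm.SL_slash, ← SlashAction.slash_mul]
  show ⇑f ∣[(2 : ℤ)] (intGL _ * (Matrix.SpecialLinearGroup.mapGL ℝ g : GL (Fin 2) ℝ)) = _
  rw [mapGL_eq_intGL, intGL_mul hD₁ (by simp), e, ← intGL_mul (by rw [hdet']; exact one_ne_zero)
    hD₁, SlashAction.slash_mul, ← mapGL_eq_intGL ⟨_, hdet'⟩, hfix]

theorem Gamma_le_gammaPR {N R P : ℕ} (hP : N = R * P) : Gamma N ≤ gammaPR P R := fun g hg => by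
  rw [mem_Gamma_iff_dvd] at hg
  exact mem_gammaPR.mpr
    ⟨(Int.natCast_dvd_natCast.mpr ⟨R, hP.trans (Nat.mul_comm _ _)⟩).trans hg.2.2.1,
      (Int.natCast_dvd_natCast.mpr ⟨P, hP⟩).trans hg.2.1⟩

theorem hasExpR_slash_diag {N R : ℕ} [NeZero N] (hR : 0 < R) (f : CuspForm (Gamma0 N) 2) :
    HasExpR R (fun n => (R : ℂ)⁻¹ * ModularFormClass.qCoeff f n)
      (⇑f ∣[(2 : ℤ)] intGL !![1, 0; 0, (R : ℤ)]) := by
  intro τ
  have hD₁ : 0 < (!![1, 0; 0, (R : ℤ)] : IMat).det := by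
    rw [Matrix.det_fin_two_of]; simp [hR]
  have hden : denom (intGL !![1, 0; 0, (R : ℤ)]) τ = (R : ℂ) := by simp [denom, val_intGL hD₁.ne']
  have hRne : (R : ℂ) ≠ 0 := Nat.cast_ne_zero.mpr hR.ne'
  have hval : (⇑f ∣[(2 : ℤ)] intGL !![1, 0; 0, (R : ℤ)]) τ =
      (R : ℂ)⁻¹ * f (intGL !![1, 0; 0, (R : ℤ)] • τ) := by
    rw [ModularForm.slash_apply, σ_intGL hD₁, det_intGL hD₁.ne', hden]
    simp [Matrix.det_fin_two_of]
    field_simp
  rw [hval]
  have hsum := ModularForm.hasSum_qExpansion (f := f) one_pos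
    (one_mem_strictPeriods_Gamma0 N) (intGL !![1, 0; 0, (R : ℤ)] • τ)
  refine (hsum.mul_left (R : ℂ)⁻¹).congr_fun fun n => ?_
  rw [mul_assoc, Function.Periodic.qParam, ← Complex.exp_nat_mul]
  congr 3
  rw [coe_smul_of_det_pos (by rw [det_intGL hD₁.ne']; exact_mod_cast hD₁), num, hden]
  simp [val_intGL hD₁.ne']
  ring

section Orbit

variable {N : ℕ} (φ : gammaInv N)

/-- The span of the orbit of an invariant function. -/
def orbitSpan : Submodule ℂ (gammaInv N) :=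
  Submodule.span ℂ (Set.range fun x => quotientRep N x φ)

theorem orbitSpan_stable (x : SL(2, ℤ) ⧸ Gamma N) {v : gammaInv N} (hv : v ∈ orbitSpan φ) :
    quotientRep N x v ∈ orbitSpan φ := by
  induction hv using Submodule.span_induction with
  | mem w hw =>
    obtain ⟨y, rfl⟩ := hw
    exact Submodule.subset_span ⟨x * y, by simp only [map_mul, Module.End.mul_apply]⟩
  | zero => simp
  | add a b _ _ ha hb => rw [map_add]; exact (orbitSpan φ).add_mem ha hb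
  | smul c a _ ha => rw [map_smul]; exact (orbitSpan φ).smul_mem c ha

/-- The representation of `SL(2, ℤ) ⧸ Γ(N)` on the orbit span. -/
def orbitRep : Representation ℂ (SL(2, ℤ) ⧸ Gamma N) (orbitSpan φ) where
  toFun x := (quotientRep N x).restrict fun _ hv => orbitSpan_stable φ x hv
  map_one' := LinearMap.ext fun v => Subtype.ext (by simp)
  map_mul' x y := LinearMap.ext fun v => Subtype.ext (by simp)

/-- An element of the orbit span as a function. -/
def coeOrbit : orbitSpan φ →ₗ[ℂ] (ℍ → ℂ) := (gammaInv N).subtype ∘ₗ (orbitSpan φ).subtype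

theorem coeOrbit_apply (v : orbitSpan φ) : coeOrbit φ v = (v : gammaInv N).1 := rfl

theorem coeOrbit_injective : Function.Injective (coeOrbit φ) := fun _ _ h =>
  Subtype.ext (Subtype.ext h)

theorem coeOrbit_orbitRep (x : SL(2, ℤ)) (v : orbitSpan φ) :
    coeOrbit φ (orbitRep φ (QuotientGroup.mk' (Gamma N) x) v) =
      coeOrbit φ v ∣[(2 : ℤ)] x⁻¹ := rfl

/-- The generator of the orbit span. -/
def orbitGen : orbitSpan φ := ⟨φ, Submodule.subset_span ⟨1, by simp⟩⟩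

theorem coeOrbit_orbitGen : coeOrbit φ (orbitGen φ) = φ.1 := rfl

theorem finiteDimensional_orbitSpan [NeZero N] : FiniteDimensional ℂ (orbitSpan φ) :=
  have : Finite (SL(2, ℤ) ⧸ Gamma N) := Subgroup.finite_quotient_of_finiteIndex
  FiniteDimensional.span_of_finite ℂ (Set.finite_range _)

theorem hasExpR_sub_average [NeZero N] {R P q B : ℕ} (hP : N = R * P) (hq : q.Prime)
    (hqR : q ∣ R) (hRB : R ∣ q * B) (hqB : ¬ q ∣ B) {b : ℕ → ℂ} (v : orbitSpan φ)
    (hv : HasExpR R b (coeOrbit φ v)) :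
    HasExpR R (fun n => if q ∣ n then 0 else b n)
      (coeOrbit φ ((1 - subgroupAverage (orbitRep φ)
        (Subgroup.zpowers (QuotientGroup.mk' (Gamma N) (ModularGroup.T ^ (B : ℤ))))) v)) := by
  classical
  set π := QuotientGroup.mk' (Gamma N)
  set u₀' := π (ModularGroup.T ^ (B : ℤ))
  have : Finite (SL(2, ℤ) ⧸ Gamma N) := Subgroup.finite_quotient_of_finiteIndex
  let := Fintype.ofFinite (Subgroup.zpowers u₀')
  have hu : ∀ u : Subgroup.zpowers u₀', ∃ j : ℤ, π ((ModularGroup.T ^ (B : ℤ)) ^ j) = u :=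
    fun u => by
    obtain ⟨j, hj⟩ := Subgroup.mem_zpowers_iff.mp u.2
    exact ⟨j, (map_zpow π _ j).trans hj⟩
  choose j hj using hu
  have hR0 : R ≠ 0 := fun h => NeZero.ne N (by rw [hP, h, zero_mul])
  have hRne : (R : ℂ) ≠ 0 := Nat.cast_ne_zero.mpr hR0
  set z : ℕ → ℤ → ℂ := fun n m =>
    Complex.exp (2 * Real.pi * Complex.I * n * ((B : ℤ) * m : ℤ) / R)
  have hterm : ∀ u : Subgroup.zpowers u₀',
      HasExpR R (fun n => b n * z n (-j u)) (coeOrbit φ (orbitRep φ u.1 v)) := by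
    intro u
    rw [← hj u, coeOrbit_orbitRep, ← _root_.zpow_neg, ← _root_.zpow_mul]
    exact hv.slash_T_zpow _
  have hz1 : ∀ n, q ∣ n → ∀ m, z n m = 1 := by
    intro n hn m
    obtain ⟨k, hk⟩ := hRB
    obtain ⟨l, rfl⟩ := hn
    have hk' := congrArg (Nat.cast : ℕ → ℂ) hk
    simp only [z]
    rw [show (2 * Real.pi * Complex.I * ((q * l : ℕ) : ℂ) * (((B : ℤ) * m : ℤ) : ℂ) / R)
          = ((l : ℤ) * k * m : ℤ) * (2 * Real.pi * Complex.I) by
        rw [div_eq_iff hRne]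
        push_cast at hk' ⊢
        linear_combination (2 * (Real.pi : ℂ) * Complex.I * l * m) * hk',
      Complex.exp_int_mul_two_pi_mul_I]
  have hz : ∀ n, ¬ q ∣ n → ∑ u, z n (-j u) = 0 := by
    intro n hn
    set u₀ : Subgroup.zpowers u₀' := ⟨u₀', Subgroup.mem_zpowers _⟩
    have hrel : ∀ u, z n (-j (u * u₀)) = z n (-j u) * z n (-1) := by
      intro u
      have h1 : π ((ModularGroup.T ^ (B : ℤ)) ^ (j (u * u₀))) =
          π ((ModularGroup.T ^ (B : ℤ)) ^ (j u + 1)) := by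
        rw [_root_.zpow_add_one, map_mul, hj, hj]
        rfl
      have h2 := QuotientGroup.eq.mp h1
      rw [← _root_.zpow_neg, ← _root_.zpow_add, ← _root_.zpow_mul, mem_Gamma_iff_dvd] at h2
      have h3 := h2.2.1
      simp only [ModularGroup.coe_T_zpow, Matrix.of_apply, Matrix.cons_val', Matrix.cons_val_zero,
        Matrix.cons_val_one, Matrix.cons_val_fin_one] at h3
      obtain ⟨k, hk⟩ := h3
      have hk' := congrArg (Int.cast : ℤ → ℂ) hk
      have hNR : (N : ℂ) = (R : ℂ) * (P : ℂ) := by exact_mod_cast hP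
      simp only [z]
      rw [← Complex.exp_add, Complex.exp_eq_exp_iff_exists_int]
      refine ⟨(n : ℤ) * P * k, ?_⟩
      push_cast at hk' ⊢
      field_simp
      linear_combination (n : ℂ) * hk' + ((n : ℂ) * k) * hNR
    have hne : z n (-1) ≠ 1 := by
      intro h1
      simp only [z, Complex.exp_eq_one_iff] at h1
      obtain ⟨k, hk⟩ := h1
      rw [div_eq_iff hRne] at hk
      have hk' : ((-((n : ℤ) * B) : ℤ) : ℂ) = ((k * R : ℤ) : ℂ) := by
        refine mul_left_cancel₀ Complex.two_pi_I_ne_zero ?_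
        push_cast at hk ⊢
        linear_combination hk
      have hk'' : -((n : ℤ) * B) = k * R := Int.cast_injective hk'
      have hq1 : (q : ℤ) ∣ (n : ℤ) * B := by
        rw [← dvd_neg, hk'']
        exact (Int.natCast_dvd_natCast.mpr hqR).mul_left k
      rcases hq.dvd_mul.mp (by exact_mod_cast hq1) with h2 | h2
      · exact hn h2
      · exact hqB h2
    have hsum : ∑ u, z n (-j u) = (∑ u, z n (-j u)) * z n (-1) := by
      rw [Finset.sum_mul]
      refine Eq.trans ?_ (Finset.sum_congr rfl fun u _ => hrel u)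
      exact (Equiv.sum_comp (Equiv.mulRight u₀) fun u => z n (-j u)).symm
    by_contra h0
    exact hne (mul_left_cancel₀ h0 (by rw [mul_one]; exact hsum.symm))
  intro τ
  have hc : (Nat.card (Subgroup.zpowers u₀') : ℂ) ≠ 0 := Nat.cast_ne_zero.mpr Nat.card_pos.ne'
  have hval : coeOrbit φ ((1 - subgroupAverage (orbitRep φ) (Subgroup.zpowers u₀')) v) τ =
      coeOrbit φ v τ - (Nat.card (Subgroup.zpowers u₀') : ℂ)⁻¹ *
        ∑ u : Subgroup.zpowers u₀', coeOrbit φ (orbitRep φ u.1 v) τ := by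
    show coeOrbit φ v τ - coeOrbit φ (subgroupAverage (orbitRep φ) (Subgroup.zpowers u₀') v) τ = _
    rw [subgroupAverage, LinearMap.smul_apply, (coeOrbit φ).map_smul, LinearMap.sum_apply,
      map_sum (coeOrbit φ)]
    simp only [Pi.smul_apply, Finset.sum_apply, smul_eq_mul]
  rw [hval]
  refine ((hv τ).sub ((hasSum_sum fun u _ => hterm u τ).mul_left
    (Nat.card (Subgroup.zpowers u₀') : ℂ)⁻¹)).congr_fun fun n => ?_
  rw [← Finset.sum_mul, ← Finset.mul_sum]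
  dsimp only
  split_ifs with hn
  · rw [Finset.sum_congr rfl fun u _ => hz1 n hn (-j u), Finset.sum_const, Finset.card_univ,
      ← Nat.card_eq_fintype_card, nsmul_eq_mul, mul_one]
    field_simp
    ring
  · rw [hz n hn]
    ring

theorem hasExpR_prod_sub_average [NeZero N] {R P : ℕ} (hP : N = R * P) (s : Finset ℕ)
    (hs : ∀ q ∈ s, q.Prime ∧ q ∣ R ∧ R ∣ q * awayPart N q) {b : ℕ → ℂ}
    (hb : HasExpR R b φ.1) (L : List ℕ) (hL : ∀ i ∈ L, i ∈ s) :
    HasExpR R (fun n => if ∃ i ∈ L, i ∣ n then 0 else b n)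
      (coeOrbit φ ((L.map fun i => 1 - subgroupAverage (orbitRep φ) (Subgroup.zpowers
        (QuotientGroup.mk' (Gamma N) (ModularGroup.T ^ (awayPart N i : ℤ))))).prod
          (orbitGen φ))) := by
  induction L with
  | nil => simpa [coeOrbit_orbitGen] using hb
  | cons r L ih =>
    rw [List.map_cons, List.prod_cons, Module.End.mul_apply]
    obtain ⟨hr1, hr2, hr3⟩ := hs r (hL r List.mem_cons_self)
    intro τ
    refine (hasExpR_sub_average φ hP hr1 hr2 hr3 (Nat.not_dvd_ordCompl hr1 (NeZero.ne N)) _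
      (ih fun i hi => hL i (List.mem_cons_of_mem _ hi)) τ).congr_fun fun n => ?_
    by_cases hr : r ∣ n <;> simp [hr]

end Orbit

theorem orbit_good {N : ℕ} [NeZero N] (f : CuspForm (Gamma0 N) 2) (D : IMat) (hD : 0 < D.det)
    (φ : gammaInv N) (hφ : φ.1 = ⇑f ∣[(2 : ℤ)] intGL D) (v : orbitSpan φ) :
    MDiff (coeOrbit φ v) ∧ ∀ A : IMat, 0 < A.det → ∀ c, IsCusp c 𝒮ℒ →
      c.IsZeroAt (coeOrbit φ v ∣[(2 : ℤ)] intGL A) 2 := by
  rw [coeOrbit_apply]
  obtain ⟨v, hv⟩ := v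
  unfold orbitSpan at hv
  induction hv using Submodule.span_induction with
  | mem w hw =>
    obtain ⟨x, rfl⟩ := hw
    obtain ⟨x, rfl⟩ := QuotientGroup.mk_surjective x
    have hcoe : (quotientRep N (QuotientGroup.mk x) φ).1 =
        ⇑f ∣[(2 : ℤ)] intGL (D * (x⁻¹ : SL(2, ℤ)).1) := by
      rw [quotientRep_mk, coe_gammaInvRep, hφ, ← intGL_mul hD.ne' (by simp [Matrix.det_adjugate]),
        SlashAction.slash_mul, ← mapGL_eq_intGL]
      rfl
    refine ⟨by rw [hcoe]; exact (CuspFormClass.holo f).slash 2 _, fun A hA c hc => ?_⟩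
    rw [hcoe, ← SlashAction.slash_mul,
      intGL_mul (by rw [Matrix.det_mul]; exact mul_ne_zero hD.ne' (by simp [Matrix.det_adjugate]))
        hA.ne']
    exact isZeroAt_slash_intGL f _ hc
  | zero =>
    refine ⟨mdifferentiable_const, fun A _ c _ g _ => ?_⟩
    simp only [ZeroMemClass.coe_zero, SlashAction.zero_slash]
    exact Filter.zero_zeroAtFilter _
  | add a b _ _ iha ihb =>
    refine ⟨iha.1.add ihb.1, fun A hA c hc => ?_⟩
    rw [Submodule.coe_add, SlashAction.add_slash]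
    exact (iha.2 A hA c hc).add (ihb.2 A hA c hc)
  | smul t a _ iha =>
    refine ⟨iha.1.const_smul t, fun A hA c hc => ?_⟩
    rw [Submodule.coe_smul, smul_slash_intGL hA]
    intro g hg
    rw [ModularForm.smul_slash]
    exact ((iha.2 A hA c hc) g hg).smul _

/-- A `gammaPR P (q S)`-invariant function, also invariant under `T ^ B` with `gcd(B, qS) = S`,
gives a form of level `N / q`. -/
theorem exists_oldLift_of_invariant {N : ℕ} [NeZero N] {M P q S B : ℕ} [NeZero M] (hq : q.Prime)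
    (hM : q * M = N) (hP : N = q * S * P) (hB : Nat.gcd B (q * S) = S) (Ψ : ℍ → ℂ)
    (hG : ∀ g ∈ gammaPR P (q * S), Ψ ∣[(2 : ℤ)] g = Ψ)
    (hT : Ψ ∣[(2 : ℤ)] (ModularGroup.T ^ (B : ℤ)) = Ψ) (hhol : MDiff Ψ)
    (hzero : ∀ A : IMat, 0 < A.det → ∀ c, IsCusp c 𝒮ℒ →
      c.IsZeroAt (Ψ ∣[(2 : ℤ)] intGL A) 2) :
    ∃ g₀ : CuspForm (Gamma0 M) 2, ⇑(oldLift hq.pos hM.dvd g₀) =
      Ψ ∣[(2 : ℤ)] intGL !![((q * S : ℕ) : ℤ), 0; 0, 1] := by
  set H : Subgroup SL(2, ℤ) :=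
    { carrier := {g | Ψ ∣[(2 : ℤ)] g = Ψ}
      one_mem' := SlashAction.slash_one _ _
      mul_mem' := fun {a b} (ha : _ = _) (hb : _ = _) => by
        rw [Set.mem_ofPred_eq, SlashAction.slash_mul, ha, hb]
      inv_mem' := fun {a} (ha : _ = _) => by
        rw [Set.mem_ofPred_eq]
        conv_lhs => rw [← ha]
        rw [← SlashAction.slash_mul, mul_inv_cancel, SlashAction.slash_one] }
  have hGH : gammaPR P (q * S) ≤ H := hG
  have hTB : ModularGroup.T ^ (B : ℤ) ∈ H := hT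
  have hS0 : 0 < S := Nat.pos_of_ne_zero fun h => NeZero.ne N (by rw [hP, h]; simp)
  have hMP : M = P * S := mul_left_cancel₀ hq.ne_zero (by rw [hM, hP]; ring)
  have hTR : ModularGroup.T ^ ((q * S : ℕ) : ℤ) ∈ H := hGH (mem_gammaPR.mpr
    ⟨by rw [ModularGroup.coe_T_zpow]; simp, by rw [ModularGroup.coe_T_zpow]; simp⟩)
  have hTS : ModularGroup.T ^ (S : ℤ) ∈ H := by
    have hg : (S : ℤ) = (B : ℤ) * Nat.gcdA B (q * S) +
        ((q * S : ℕ) : ℤ) * Nat.gcdB B (q * S) := by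
      rw [← Nat.gcd_eq_gcd_ab, hB]
    rw [hg, _root_.zpow_add, _root_.zpow_mul, _root_.zpow_mul]
    exact mul_mem (zpow_mem hTB _) (zpow_mem hTR _)
  -- first move into a position with lower right entry prime to `q`
  have key : ∀ x : SL(2, ℤ), (P : ℤ) ∣ x.1 1 0 → (S : ℤ) ∣ x.1 0 1 → ¬ (q : ℤ) ∣ x.1 1 1 →
      x ∈ H := by
    intro x hxc ⟨b, hb⟩ hxd
    obtain ⟨u, v, huv⟩ := ((Nat.prime_iff_prime_int.mp hq).coprime_iff_not_dvd.mpr hxd)
    set t : ℤ := b * v with ht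
    have hy : ModularGroup.T ^ (-((S : ℤ) * t)) * x ∈ gammaPR P (q * S) := by
      refine mem_gammaPR.mpr ⟨?_, ?_⟩
      · rw [Matrix.SpecialLinearGroup.coe_mul, ModularGroup.coe_T_zpow, Matrix.mul_apply,
          Fin.sum_univ_two]
        simpa using hxc
      · rw [Matrix.SpecialLinearGroup.coe_mul, ModularGroup.coe_T_zpow, Matrix.mul_apply,
          Fin.sum_univ_two]
        simp only [Matrix.of_apply, Matrix.cons_val', Matrix.cons_val_zero,
          Matrix.cons_val_one, Matrix.cons_val_fin_one]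
        refine ⟨b * u, ?_⟩
        push_cast
        linear_combination hb + (S : ℤ) * b * (-1 : ℤ) * huv + (-(S : ℤ) * x.1 1 1) * ht
    have h1 := mul_mem (zpow_mem hTS t) (hGH hy)
    rwa [← _root_.zpow_mul, ← mul_assoc, ← _root_.zpow_add, add_neg_cancel, zpow_zero,
      one_mul] at h1
  set A : IMat := !![(S : ℤ), 0; 0, 1]
  have hA : 0 < A.det := det_diag_pos hS0
  have hinv : IsGamma0Inv M (Ψ ∣[(2 : ℤ)] intGL A) := by
    intro g hg
    have hMc : (M : ℤ) ∣ g.1 1 0 := (ZMod.intCast_zmod_eq_zero_iff_dvd _ _).mp (Gamma0_mem.mp hg)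
    have hdet : g.1 0 0 * g.1 1 1 - g.1 0 1 * g.1 1 0 = 1 := by
      rw [← Matrix.det_fin_two, g.2]
    obtain ⟨c, hc⟩ := hMc
    rw [hMP, Nat.cast_mul] at hc
    have hdet' : (!![g.1 0 0, S * g.1 0 1; P * c, g.1 1 1] : IMat).det = 1 := by
      rw [Matrix.det_fin_two_of]
      linear_combination hdet + g.1 0 1 * hc
    set g' : SL(2, ℤ) := ⟨_, hdet'⟩
    have hg' : g' ∈ H := by
      by_cases hqd : (q : ℤ) ∣ g.1 1 1
      · have hl : (!![1, 0; (P : ℤ), 1] : IMat).det = 1 := by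
          rw [Matrix.det_fin_two_of]; ring
        set l : SL(2, ℤ) := ⟨_, hl⟩
        have hlG : l ∈ gammaPR P (q * S) := mem_gammaPR.mpr ⟨dvd_rfl, by simp [l]⟩
        have hlg : (l * g').1 = !![1, 0; (P : ℤ), 1] *
            !![g.1 0 0, S * g.1 0 1; P * c, g.1 1 1] := rfl
        have hx : l * g' ∈ H := by
          refine key _ ?_ ?_ fun h => ?_
          · rw [hlg]; simp [Matrix.mul_apply, Fin.sum_univ_two, dvd_add]
          · rw [hlg]; simp [Matrix.mul_apply, Fin.sum_univ_two]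
          · rw [hlg] at h
            simp [Matrix.mul_apply, Fin.sum_univ_two] at h
            rw [dvd_add_left hqd] at h
            have h1 : (q : ℤ) ∣ g.1 0 1 * g.1 1 0 := by
              rw [hc]
              exact (h.mul_right c).trans (dvd_of_eq (by ring))
            have h2 : (q : ℤ) ∣ 1 := hdet ▸ dvd_sub (hqd.mul_left _) h1
            exact hq.ne_one (by exact_mod_cast Int.eq_one_of_dvd_one (by positivity) h2)
        have h1 := mul_mem (inv_mem (hGH hlG)) hx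
        rwa [inv_mul_cancel_left] at h1
      · exact key _ (by simp [g']) (by simp [g']) (by simpa [g'] using hqd)
    have e : A * g.1 = (g' : SL(2, ℤ)).1 * A := by
      ext i j
      fin_cases i <;> fin_cases j <;>
        simp [A, g', Matrix.mul_apply, Fin.sum_univ_two, hc] <;> ring
    have hfix : Ψ ∣[(2 : ℤ)] intGL g'.1 = Ψ := by
      rw [← mapGL_eq_intGL]; exact hg'
    rw [← SlashAction.slash_mul, mapGL_eq_intGL, intGL_mul hA.ne' (by simp), e,
      ← intGL_mul (by simp) hA.ne', SlashAction.slash_mul, hfix]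
  let g₀ : CuspForm (Gamma0 M) 2 :=
    { toFun := Ψ ∣[(2 : ℤ)] intGL A
      slash_action_eq' := by
        rintro _ ⟨g, hg, rfl⟩
        exact hinv g hg
      holo' := hhol.slash 2 _
      zero_at_cusps' := fun hc => hzero A hA _ (isCusp_iff_SL2Z.mp hc) }
  refine ⟨g₀, ?_⟩
  show (Ψ ∣[(2 : ℤ)] intGL A) ∣[(2 : ℤ)] intGL !![(q : ℤ), 0; 0, 1] = _
  rw [← SlashAction.slash_mul, intGL_mul hA.ne' (det_diag_pos hq.pos).ne']
  congr 2
  ext i j
  fin_cases i <;> fin_cases j <;> simp [A, Matrix.mul_apply, Fin.sum_univ_two, mul_comm]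

/-- Slashing by a matrix of positive determinant, as a linear map on functions. -/
def slashFun (A : IMat) (hA : 0 < A.det) : (ℍ → ℂ) →ₗ[ℂ] (ℍ → ℂ) where
  toFun φ := φ ∣[(2 : ℤ)] intGL A
  map_add' a b := SlashAction.add_slash _ _ a b
  map_smul' c a := smul_slash_intGL hA c a

section Main

variable {N : ℕ} [NeZero N] {s : Finset ℕ}

omit [NeZero N] in
theorem exists_mem_Gamma_awayPart {R P : ℕ} {i : ℕ} {x : SL(2, ℤ) ⧸ Gamma N}
    (hx : x ∈ (((gammaPR P R ⊓ Gamma (awayPart N i)).map (QuotientGroup.mk' (Gamma N)) :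
        Subgroup (SL(2, ℤ) ⧸ Gamma N)) : Set (SL(2, ℤ) ⧸ Gamma N)) ∪
      Subgroup.zpowers (QuotientGroup.mk' (Gamma N) (ModularGroup.T ^ (awayPart N i : ℤ)))) :
    ∃ g ∈ Gamma (awayPart N i), QuotientGroup.mk' (Gamma N) g = x := by
  rcases hx with hx | hx
  · obtain ⟨g, hg, rfl⟩ := hx
    exact ⟨g, hg.2, rfl⟩
  · obtain ⟨j, rfl⟩ := Subgroup.mem_zpowers_iff.mp hx
    exact ⟨(ModularGroup.T ^ (awayPart N i : ℤ)) ^ j,
      zpow_mem (ModularGroup_T_pow_mem_Gamma (awayPart N i) (awayPart N i : ℤ) dvd_rfl) j,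
        map_zpow _ _ j⟩

omit [NeZero N] in
theorem commute_mk_of_commutator_mem {g h : SL(2, ℤ)} (hgh : g * h * g⁻¹ * h⁻¹ ∈ Gamma N) :
    Commute (QuotientGroup.mk' (Gamma N) g) (QuotientGroup.mk' (Gamma N) h) := by
  have h1 : QuotientGroup.mk' (Gamma N) (g * h * g⁻¹ * h⁻¹) = 1 :=
    (QuotientGroup.eq_one_iff _).mpr hgh
  rw [map_mul, map_mul, map_mul, map_inv, map_inv] at h1
  exact mul_inv_eq_iff_eq_mul.mp (mul_inv_eq_one.mp h1)

theorem commute_mk_of_mem_of_mem {i j : ℕ} (hi : i.Prime) (hj : j.Prime) (hij : i ≠ j)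
    {g h : SL(2, ℤ)} (hg : g ∈ Gamma (awayPart N i)) (hh : h ∈ Gamma (awayPart N j)) :
    Commute (QuotientGroup.mk' (Gamma N) g) (QuotientGroup.mk' (Gamma N) h) := by
  refine commute_mk_of_commutator_mem ?_
  have hA := commutator_mem_Gamma (h := h) hg
  have hB : g * h * g⁻¹ * h⁻¹ ∈ Gamma (awayPart N j) :=
    mul_mem ((Gamma_normal _).conj_mem h hh g) (inv_mem hh)
  have hdvd : N ∣ Int.lcm (awayPart N i) (awayPart N j) := by
    rw [Int.lcm, Int.natAbs_natCast, Int.natAbs_natCast]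
    have h1 : i ^ N.factorization i ∣ awayPart N j :=
      ((Nat.coprime_primes hi hj).mpr hij).pow _ _ |>.dvd_of_dvd_mul_left
        ((Nat.ordProj_dvd N i).trans (dvd_of_eq (pow_mul_awayPart j).symm))
    exact (dvd_of_eq (pow_mul_awayPart i).symm).trans
      ((coprime_pow_awayPart hi).mul_dvd_of_dvd_of_dvd
        (h1.trans (Nat.dvd_lcm_right _ _)) (Nat.dvd_lcm_left _ _))
  have hl : ∀ {x : ℤ}, (awayPart N i : ℤ) ∣ x → (awayPart N j : ℤ) ∣ x → (N : ℤ) ∣ x :=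
    fun h1 h2 => Int.natCast_dvd.mpr (hdvd.trans
      (Int.lcm_dvd (Int.dvd_natAbs.mpr h1) (Int.dvd_natAbs.mpr h2)))
  rw [mem_Gamma_iff_dvd] at hA hB ⊢
  exact ⟨hl hA.1 hB.1, hl hA.2.1 hB.2.1, hl hA.2.2.1 hB.2.2.1, hl hA.2.2.2 hB.2.2.2⟩

theorem exists_local_mem {R P : ℕ} (hP : N = R * P) {i : ℕ} (hi : i.Prime) {g : SL(2, ℤ)}
    (hg : g ∈ gammaPR P R) :
    ∃ k ∈ gammaPR P R ⊓ Gamma (awayPart N i), ∀ h ∈ Gamma (awayPart N i),
      Commute (QuotientGroup.mk' (Gamma N) (g * k⁻¹)) (QuotientGroup.mk' (Gamma N) h) := by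
  have hA0 : i ^ N.factorization i ≠ 0 := pow_ne_zero _ hi.ne_zero
  have hB0 : awayPart N i ≠ 0 := fun h =>
    NeZero.ne N (by rw [← pow_mul_awayPart (N := N) i, h, mul_zero])
  obtain ⟨k, hkB, hkA⟩ := exists_local_component hA0 hB0 (coprime_pow_awayPart hi) g
  have hAB := pow_mul_awayPart (N := N) i
  have hcong : ∀ a b, ((i ^ N.factorization i : ℕ) : ℤ) ∣ k.1 a b - g.1 a b := fun a b => by
    have h1 := hkA
    rw [Gamma_mem', map_mul, map_inv, mul_inv_eq_one] at h1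
    rw [← ZMod.intCast_zmod_eq_zero_iff_dvd, Int.cast_sub, sub_eq_zero, eq_comm]
    have h2 := congrArg (fun z : SL(2, ZMod (i ^ N.factorization i)) => z.1 a b) h1
    simpa using h2
  have hkG : k ∈ gammaPR P R := by
    obtain ⟨-, hb, hc, -⟩ := mem_Gamma_iff_dvd.mp hkB
    obtain ⟨hgc, hgb⟩ := mem_gammaPR.mp hg
    exact mem_gammaPR.mpr
      ⟨dvd_of_congr (coprime_pow_awayPart hi) (by rw [hAB, hP]; exact dvd_mul_left _ _) hgc
          (hcong 1 0) hc,
        dvd_of_congr (coprime_pow_awayPart hi) (by rw [hAB, hP]; exact dvd_mul_right _ _) hgb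
          (hcong 0 1) hb⟩
  refine ⟨k, ⟨hkG, hkB⟩, fun h hh => commute_mk_of_commutator_mem ?_⟩
  exact mem_Gamma_of_mem_of_mem hAB.symm (coprime_pow_awayPart hi)
    (commutator_mem_Gamma (h := h) hkA)
    (mul_mem ((Gamma_normal _).conj_mem h hh _) (inv_mem hh))

/-- The main lemma. -/
theorem mem_shiftedOldspace_of_qCoeff_eq_zero (hs : ∀ q ∈ s, q.Prime ∧ q ∣ N)
    (f : CuspForm (Gamma0 N) 2)
    (hf : ∀ n : ℕ, (∀ q ∈ s, ¬ q ∣ n) → ModularFormClass.qCoeff f n = 0) :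
    f ∈ shiftedOldspace N s := by
  classical
  set R := ∏ q ∈ s, q with hR
  have hR0 : R ≠ 0 := prod_ne_zero hs
  obtain ⟨P, hP⟩ : R ∣ N := prod_dvd_level hs
  have hRpos : 0 < R := Nat.pos_of_ne_zero hR0
  set D₁ : IMat := !![1, 0; 0, (R : ℤ)]
  set D₂ : IMat := !![(R : ℤ), 0; 0, 1]
  have hD₁ : 0 < D₁.det := by rw [Matrix.det_fin_two_of]; simpa using hRpos
  have hD₂ : 0 < D₂.det := det_diag_pos hRpos
  obtain ⟨F₀, hF₀⟩ : ∃ F₀ : gammaInv N, F₀.1 = ⇑f ∣[(2 : ℤ)] intGL D₁ :=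
    ⟨⟨⇑f ∣[(2 : ℤ)] intGL D₁,
      fun g hg => slash_diag_invariant hRpos hP f (Gamma_le_gammaPR hP hg)⟩, rfl⟩
  have : Finite (SL(2, ℤ) ⧸ Gamma N) := Subgroup.finite_quotient_of_finiteIndex
  have := finiteDimensional_orbitSpan F₀
  set ρ := orbitRep F₀
  set π := QuotientGroup.mk' (Gamma N)
  let K : ℕ → Subgroup (SL(2, ℤ) ⧸ Gamma N) := fun q => (gammaPR P R ⊓ Gamma (awayPart N q)).map π
  let U : ℕ → Subgroup (SL(2, ℤ) ⧸ Gamma N) := fun q =>
    Subgroup.zpowers (π (ModularGroup.T ^ (awayPart N q : ℤ)))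
  have hφ₀ : ∀ x ∈ (gammaPR P R).map π, ρ x (orbitGen F₀) = orbitGen F₀ := by
    rintro _ ⟨g, hg, rfl⟩
    refine coeOrbit_injective F₀ ((coeOrbit_orbitRep F₀ g _).trans ?_)
    rw [coeOrbit_orbitGen, hF₀]
    exact slash_diag_invariant hRpos hP f (inv_mem hg)
  have hs' : ∀ q ∈ s, q.Prime ∧ q ∣ R ∧ R ∣ q * awayPart N q := fun q hq =>
    ⟨(hs q hq).1, Finset.dvd_prod_of_mem _ hq,
      (Finset.mul_prod_erase s (fun r => r) hq).symm.dvd.trans
        (mul_dvd_mul_left q (prod_erase_dvd_awayPart hs hq))⟩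
  have hzero : (s.toList.map fun i => 1 - subgroupAverage ρ (U i)).prod (orbitGen F₀) = 0 := by
    refine coeOrbit_injective F₀ (funext fun τ => ?_)
    rw [map_zero]
    refine (hasExpR_prod_sub_average F₀ hP s hs' (b := fun n =>
      (R : ℂ)⁻¹ * ModularFormClass.qCoeff f n) (hF₀ ▸ hasExpR_slash_diag hRpos f) s.toList
      (fun i hi => Finset.mem_toList.mp hi) τ).unique (hasSum_zero.congr_fun fun n => ?_)
    dsimp only
    split_ifs with hn
    · rw [zero_mul]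
    · rw [hf n fun q hq hqn => hn ⟨q, Finset.mem_toList.mpr hq, hqn⟩, mul_zero, zero_mul]
  have hlocal : ∀ i, ∀ x ∈ (K i : Set (SL(2, ℤ) ⧸ Gamma N)) ∪ U i,
      ∃ g ∈ Gamma (awayPart N i), π g = x := fun i x hx =>
    exists_mem_Gamma_awayPart (R := R) (P := P) (i := i) hx
  have hcomm : ∀ i ∈ s.toList, ∀ j ∈ s.toList, i ≠ j →
      ∀ x ∈ (K i : Set (SL(2, ℤ) ⧸ Gamma N)) ∪ U i,
      ∀ y ∈ (K j : Set (SL(2, ℤ) ⧸ Gamma N)) ∪ U j, Commute x y := by
    intro i hi j hj hij x hx y hy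
    obtain ⟨g, hg, rfl⟩ := hlocal i x hx
    obtain ⟨h, hh, rfl⟩ := hlocal j y hy
    exact commute_mk_of_mem_of_mem (hs i (Finset.mem_toList.mp hi)).1
      (hs j (Finset.mem_toList.mp hj)).1 hij hg hh
  have hconj : ∀ x ∈ (gammaPR P R).map π, ∀ i ∈ s.toList, ∃ k ∈ K i,
      ∀ y ∈ (K i : Set (SL(2, ℤ) ⧸ Gamma N)) ∪ U i, Commute (x * k⁻¹) y := by
    rintro _ ⟨g, hg, rfl⟩ i hi
    obtain ⟨k, hk, hk'⟩ := exists_local_mem hP (hs i (Finset.mem_toList.mp hi)).1 hg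
    refine ⟨π k, ⟨k, hk, rfl⟩, fun y hy => ?_⟩
    obtain ⟨h, hh, rfl⟩ := hlocal i y hy
    rw [← map_inv, ← map_mul]
    exact hk' h hh
  have hKG : ∀ i ∈ s.toList, K i ≤ (gammaPR P R).map π := fun i _ => Subgroup.map_mono inf_le_left
  have hspan1 := mem_iSup_fixed_of_prod_eq_zero (V := ↥(orbitSpan F₀)) (ρ := ρ)
    (G₀ := (gammaPR P R).map π) (K := K) (U := U) (L := s.toList) s.nodup_toList
  have hspan2 := hspan1 hKG hcomm hconj
  have hspan3 := hspan2 (orbitGen F₀) hφ₀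
  have hspan := hspan3 hzero
  -- back to level `N`
  let Φ : orbitSpan F₀ →ₗ[ℂ] (ℍ → ℂ) := slashFun D₂ hD₂ ∘ₗ coeOrbit F₀
  let coeN : CuspForm (Gamma0 N) 2 →ₗ[ℂ] (ℍ → ℂ) :=
    { toFun := fun g => ⇑g
      map_add' := fun a b => FunLike.coe_add a b
      map_smul' := fun c a => FunLike.coe_smul c a }
  have hΦ₀ : Φ (orbitGen F₀) = coeN f := by
    show F₀.1 ∣[(2 : ℤ)] intGL D₂ = ⇑f
    rw [hF₀]
    have e : D₁ * D₂ = !![(R : ℤ), 0; 0, R] := by
      ext i j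
      fin_cases i <;> fin_cases j <;> simp [D₁, D₂, Matrix.mul_apply, Fin.sum_univ_two]
    rw [← SlashAction.slash_mul, intGL_mul hD₁.ne' hD₂.ne', e,
      slash_intGL_scalar (by exact_mod_cast hR0)]
  have himage : Submodule.span ℂ {ψ : orbitSpan F₀ | ∃ i ∈ s.toList,
      (∀ g ∈ (gammaPR P R).map π, ρ g ψ = ψ) ∧ ∀ u ∈ U i, ρ u ψ = ψ} ≤
      ((shiftedOldspace N s).map coeN).comap Φ := by
    refine Submodule.span_le.mpr ?_
    rintro ψ ⟨q, hqL, hG, hU⟩
    have hqs := Finset.mem_toList.mp hqL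
    obtain ⟨M, hM⟩ := (hs q hqs).2
    have : NeZero M := ⟨fun h => NeZero.ne N (by rw [hM, h, mul_zero])⟩
    set S : ℕ := ∏ r ∈ s.erase q, r
    have hRS : R = q * S := (Finset.mul_prod_erase s (fun r => r) hqs).symm
    have hGψ : ∀ g ∈ gammaPR P (q * S), coeOrbit F₀ ψ ∣[(2 : ℤ)] g = coeOrbit F₀ ψ := by
      intro g hg
      rw [← hRS] at hg
      have h := congrArg (coeOrbit F₀) (hG _ ⟨g⁻¹, inv_mem hg, rfl⟩)
      rwa [coeOrbit_orbitRep, inv_inv] at h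
    have hTψ : coeOrbit F₀ ψ ∣[(2 : ℤ)] (ModularGroup.T ^ (awayPart N q : ℤ)) = coeOrbit F₀ ψ := by
      have h := congrArg (coeOrbit F₀)
        (hU _ (inv_mem (Subgroup.mem_zpowers (π (ModularGroup.T ^ (awayPart N q : ℤ))))))
      rw [← map_inv] at h
      rwa [coeOrbit_orbitRep, inv_inv] at h
    have hgood := orbit_good f D₁ hD₁ F₀ hF₀ ψ
    obtain ⟨g₀, hg₀⟩ := exists_oldLift_of_invariant (hs q hqs).1 hM.symm (hRS ▸ hP)
      (hRS ▸ gcd_awayPart_prod hs hqs) _ hGψ hTψ hgood.1 hgood.2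
    refine ⟨oldLift (hs q hqs).1.pos hM.symm.dvd g₀,
      Submodule.subset_span ⟨q, hqs, M, inferInstance, (hs q hqs).1.pos, hM.symm, g₀, rfl⟩, ?_⟩
    refine hg₀.trans ?_
    rw [← hRS]
    rfl
  obtain ⟨g, hg, hgeq⟩ := himage hspan
  rw [hΦ₀] at hgeq
  have hgf : g = f := DFunLike.coe_injective hgeq
  rwa [← hgf]

end Main

end FLTAgent.Newforms

end
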