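import Fermat.Agent.Newforms.Petersson
import Fermat.Agent.Newforms.MainLemma

/-!
# Adjoints of the degeneracy maps

The adjoints, for the Petersson inner product, of the two maps from level `K` to level `q K`,
`q ∣ K`: a trace (`peterssonInt_trDown`), and the operator `U_q` (`peterssonInt_uDown`).
-/

set_option autoImplicit false

noncomputable section

open CongruenceSubgroup UpperHalfPlane MeasureTheory
open scoped MatrixGroups ModularForm ENNReal Manifold

namespace FLTAgent.Newforms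

variable {q K : ℕ}

/-- Representatives of `Γ₀(q K)` in `Γ₀(K)`, for `q ∣ K`. -/
def trRep (q K : ℕ) (j : Fin q) : SL(2, ℤ) :=
  ⟨!![1, 0; ((K * j : ℕ) : ℤ), 1], by simp [Matrix.det_fin_two_of]⟩

theorem coe_trRep (j : Fin q) : (trRep q K j).1 = !![1, 0; ((K * j : ℕ) : ℤ), 1] := rfl

theorem trRep_mem (j : Fin q) : trRep q K j ∈ Gamma0 K := by
  refine Gamma0_mem.mpr ((ZMod.intCast_zmod_eq_zero_iff_dvd _ _).mpr ?_)
  simp [coe_trRep]

theorem natCast_zmod_inj {q : ℕ} {j j' : Fin q} (h : ((j : ℕ) : ZMod q) = (j' : ℕ)) : j = j' := by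
  rw [ZMod.natCast_eq_natCast_iff', Nat.mod_eq_of_lt j.isLt, Nat.mod_eq_of_lt j'.isLt] at h
  exact Fin.ext h

theorem existsUnique_trRep [NeZero K] (hq : q.Prime) (hqK : q ∣ K) {g : SL(2, ℤ)}
    (hg : g ∈ Gamma0 K) : ∃! j, g * (trRep q K j)⁻¹ ∈ Gamma0 (q * K) := by
  have : Fact q.Prime := ⟨hq⟩
  obtain ⟨c, hc⟩ : (K : ℤ) ∣ g.1 1 0 :=
    (ZMod.intCast_zmod_eq_zero_iff_dvd _ _).mp (Gamma0_mem.mp hg)
  have hdet : g.1 0 0 * g.1 1 1 - g.1 0 1 * g.1 1 0 = 1 := by rw [← Matrix.det_fin_two, g.2]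
  have hd : (g.1 0 0 : ZMod q) * g.1 1 1 = 1 := by
    have h := congrArg (Int.cast : ℤ → ZMod q) hdet
    push_cast at h
    rw [(ZMod.intCast_zmod_eq_zero_iff_dvd (g.1 1 0) q).mpr
      (hc ▸ dvd_mul_of_dvd_left (Int.natCast_dvd_natCast.mpr hqK) c)] at h
    simpa using h
  have key : ∀ j, g * (trRep q K j)⁻¹ ∈ Gamma0 (q * K) ↔
      ((j : ℕ) : ZMod q) = g.1 0 0 * (c : ZMod q) := by
    intro j
    have he : ((g * (trRep q K j)⁻¹ : SL(2, ℤ)).1) 1 0 = (K : ℤ) * (c - g.1 1 1 * (j : ℕ)) := by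
      simp [coe_trRep, Matrix.mul_apply, Fin.sum_univ_two, Matrix.SpecialLinearGroup.coe_inv,
        Matrix.adjugate_fin_two, hc]
      ring
    rw [Gamma0_mem, ZMod.intCast_zmod_eq_zero_iff_dvd, he, Nat.cast_mul, mul_comm (q : ℤ),
      mul_dvd_mul_iff_left (Int.natCast_ne_zero.mpr (NeZero.ne K)),
      ← ZMod.intCast_zmod_eq_zero_iff_dvd]
    push_cast
    constructor
    · intro h
      linear_combination (-((j : ℕ) : ZMod q)) * hd - (g.1 0 0 : ZMod q) * h
    · intro h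
      linear_combination (-(c : ZMod q)) * hd - (g.1 1 1 : ZMod q) * h
  refine ⟨⟨((g.1 0 0 : ZMod q) * (c : ZMod q)).val, ZMod.val_lt _⟩,
    (key _).mpr (ZMod.natCast_zmod_val _), fun j hj => natCast_zmod_inj ?_⟩
  rw [(key j).mp hj]
  exact (ZMod.natCast_zmod_val _).symm

variable [NeZero K] [NeZero (q * K)]

/-- The sum of the translates over the cosets of `Γ₀(q K)` in `Γ₀(K)`. -/
def trSum (q K : ℕ) [NeZero (q * K)] (f : CuspForm (Gamma0 (q * K)) 2) : ℍ → ℂ :=
  ∑ j, ⇑f ∣[(2 : ℤ)] (Matrix.SpecialLinearGroup.mapGL ℝ (trRep q K j) : GL (Fin 2) ℝ)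

omit [NeZero K] in
theorem isZeroAt_trSum (f : CuspForm (Gamma0 (q * K)) 2) {c : OnePoint ℝ} (hc : IsCusp c 𝒮ℒ) :
    c.IsZeroAt (trSum q K f) 2 := by
  classical
  unfold trSum
  induction (Finset.univ : Finset (Fin q)) using Finset.induction with
  | empty =>
    rw [Finset.sum_empty]
    intro g _
    simp only [SlashAction.zero_slash]
    exact Filter.zero_zeroAtFilter _
  | insert j s hj ih =>
    rw [Finset.sum_insert hj, mapGL_eq_intGL]
    exact (isZeroAt_slash_intGL f _ hc).add ih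

/-- The trace from level `q K` to level `K`, for `q ∣ K`. -/
def trDown (hq : q.Prime) (hqK : q ∣ K) :
    CuspForm (Gamma0 (q * K)) 2 →ₗ[ℂ] CuspForm (Gamma0 K) 2 where
  toFun f :=
    { toFun := trSum q K f
      slash_action_eq' := by
        rintro _ ⟨g, hg, rfl⟩
        exact isGamma0Inv_sum_reps (trRep q K) trRep_mem (fun _ h => existsUnique_trRep hq hqK h)
          (isGamma0Inv_coe f) g hg
      holo' := by
        show MDiff (trSum q K f)
        exact MDifferentiable.sum fun j _ => (CuspFormClass.holo f).slash 2 _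
      zero_at_cusps' := fun hc => isZeroAt_trSum f (isCusp_iff_SL2Z.mp hc) }
  map_add' f g := DFunLike.coe_injective <| by
    show trSum q K (f + g) = trSum q K f + trSum q K g
    simp only [trSum, FunLike.coe_add, SlashAction.add_slash, Finset.sum_add_distrib]
  map_smul' c f := DFunLike.coe_injective <| by
    show trSum q K (c • f) = c • trSum q K f
    simp only [trSum, FunLike.coe_smul, mapGL_eq_intGL, Finset.smul_sum]
    refine Finset.sum_congr rfl fun j _ => ?_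
    rw [smul_slash_intGL (by rw [(trRep q K j).2]; exact one_pos)]

theorem coe_trDown (hq : q.Prime) (hqK : q ∣ K) (f : CuspForm (Gamma0 (q * K)) 2) :
    ⇑(trDown hq hqK f) = trSum q K f := rfl

/-- The trace is adjoint to the inclusion. -/
theorem peterssonInt_trDown (hq : q.Prime) (hqK : q ∣ K) (f : CuspForm (Gamma0 (q * K)) 2)
    (g : CuspForm (Gamma0 K) 2) :
    peterssonInt (trDown hq hqK f) g =
      peterssonInt f (Eigenforms.raiseLevel (dvd_mul_left K q) 2 g) := by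
  set G := Eigenforms.raiseLevel (dvd_mul_left K q) 2 g
  obtain ⟨C, hC⟩ := CuspFormClass.petersson_bounded_left 2 _ f G
  have h := integral_sum_reps (isWeight_stdWeight (Gamma0 K)) (isWeight_stdWeight (Gamma0 (q * K)))
    (trRep q K) (Eigenforms.Gamma0_le_of_dvd (dvd_mul_left K q)) trRep_mem
    (fun _ h => existsUnique_trRep hq hqK h) (continuous_petersson_coe f G) hC
    fun _ hh => petersson_smul_Gamma0 f G hh
  rw [peterssonInt, peterssonInt, ← h]
  refine integral_congr_ae (Filter.Eventually.of_forall fun τ => ?_)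
  simp only [coe_trDown, trSum, petersson_sum_left]
  refine Finset.sum_congr rfl fun x _ => ?_
  conv_lhs => rw [← isGamma0Inv_coe g _ (trRep_mem (q := q) x)]
  exact petersson_slash_SL 2 _ _ _ _

omit [NeZero K] [NeZero (q * K)] in
theorem existsUnique_T_zpow (hq : q.Prime) (hqK : q ∣ K) {g : SL(2, ℤ)} (hg : g ∈ Gamma0 K) :
    ∃! j : Fin q, g * (ModularGroup.T ^ ((j : ℕ) : ℤ))⁻¹ ∈ gammaPR K q := by
  have : Fact q.Prime := ⟨hq⟩
  have hK : (K : ℤ) ∣ g.1 1 0 := (ZMod.intCast_zmod_eq_zero_iff_dvd _ _).mp (Gamma0_mem.mp hg)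
  have hdet : g.1 0 0 * g.1 1 1 - g.1 0 1 * g.1 1 0 = 1 := by rw [← Matrix.det_fin_two, g.2]
  have hd : (g.1 0 0 : ZMod q) * g.1 1 1 = 1 := by
    have h := congrArg (Int.cast : ℤ → ZMod q) hdet
    push_cast at h
    rw [(ZMod.intCast_zmod_eq_zero_iff_dvd (g.1 1 0) q).mpr
      ((Int.natCast_dvd_natCast.mpr hqK).trans hK)] at h
    simpa using h
  have key : ∀ j : Fin q, g * (ModularGroup.T ^ ((j : ℕ) : ℤ))⁻¹ ∈ gammaPR K q ↔
      ((j : ℕ) : ZMod q) = g.1 0 1 * g.1 1 1 := by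
    intro j
    have he : ∀ i, ((g * (ModularGroup.T ^ ((j : ℕ) : ℤ))⁻¹ : SL(2, ℤ)).1) i 0 = g.1 i 0 ∧
        ((g * (ModularGroup.T ^ ((j : ℕ) : ℤ))⁻¹ : SL(2, ℤ)).1) i 1
          = g.1 i 1 - g.1 i 0 * (j : ℕ) := fun i => by
      rw [← _root_.zpow_neg, Matrix.SpecialLinearGroup.coe_mul, ModularGroup.coe_T_zpow]
      constructor <;> simp [Matrix.mul_apply, Fin.sum_univ_two]
      ring
    rw [mem_gammaPR, (he 1).1, (he 0).2, ← ZMod.intCast_zmod_eq_zero_iff_dvd _ q]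
    push_cast
    constructor
    · rintro ⟨-, h⟩
      linear_combination (-((j : ℕ) : ZMod q)) * hd - (g.1 1 1 : ZMod q) * h
    · intro h
      exact ⟨hK, by linear_combination (-(g.1 0 1 : ZMod q)) * hd - (g.1 0 0 : ZMod q) * h⟩
  refine ⟨⟨((g.1 0 1 : ZMod q) * g.1 1 1).val, ZMod.val_lt _⟩,
    (key _).mpr (ZMod.natCast_zmod_val _), fun j hj => natCast_zmod_inj ?_⟩
  rw [(key j).mp hj]
  exact (ZMod.natCast_zmod_val _).symm

/-- Conjugation by `diag(1, q)` identifies the two groups. -/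
def conjEquiv (hq0 : q ≠ 0) : gammaPR K q ≃ Gamma0 (q * K) where
  toFun h := ⟨⟨!![h.1.1 0 0, h.1.1 0 1 / q; h.1.1 1 0 * q, h.1.1 1 1], by
      obtain ⟨b, hb⟩ := (mem_gammaPR.mp h.2).2
      have hdet : h.1.1 0 0 * h.1.1 1 1 - h.1.1 0 1 * h.1.1 1 0 = 1 := by
        rw [← Matrix.det_fin_two, h.1.2]
      rw [Matrix.det_fin_two_of, hb, Int.mul_ediv_cancel_left _ (by exact_mod_cast hq0)]
      rw [hb] at hdet
      linear_combination hdet⟩,
    Gamma0_mem.mpr ((ZMod.intCast_zmod_eq_zero_iff_dvd _ _).mpr (by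
      obtain ⟨c, hc⟩ := (mem_gammaPR.mp h.2).1
      refine ⟨c, ?_⟩
      show h.1.1 1 0 * q = _
      rw [hc]
      push_cast
      ring))⟩
  invFun g := ⟨⟨!![g.1.1 0 0, g.1.1 0 1 * q; g.1.1 1 0 / q, g.1.1 1 1], by
      obtain ⟨c, hc⟩ := (ZMod.intCast_zmod_eq_zero_iff_dvd _ _).mp (Gamma0_mem.mp g.2)
      push_cast at hc
      have hdet : g.1.1 0 0 * g.1.1 1 1 - g.1.1 0 1 * g.1.1 1 0 = 1 := by
        rw [← Matrix.det_fin_two, g.1.2]
      rw [Matrix.det_fin_two_of, hc, mul_assoc (q : ℤ),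
        Int.mul_ediv_cancel_left _ (by exact_mod_cast hq0)]
      rw [hc] at hdet
      linear_combination hdet⟩,
    mem_gammaPR.mpr ⟨by
      obtain ⟨c, hc⟩ := (ZMod.intCast_zmod_eq_zero_iff_dvd _ _).mp (Gamma0_mem.mp g.2)
      push_cast at hc
      refine ⟨c, ?_⟩
      show g.1.1 1 0 / q = _
      rw [hc, mul_assoc (q : ℤ), Int.mul_ediv_cancel_left _ (by exact_mod_cast hq0)],
      ⟨g.1.1 0 1, mul_comm _ _⟩⟩⟩
  left_inv h := by
    refine Subtype.ext (Subtype.ext ?_)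
    ext i j
    fin_cases i <;> fin_cases j <;> simp
    · exact Int.ediv_mul_cancel (mem_gammaPR.mp h.2).2
    · exact Int.mul_ediv_cancel _ (by exact_mod_cast hq0)
  right_inv g := by
    refine Subtype.ext (Subtype.ext ?_)
    ext i j
    fin_cases i <;> fin_cases j <;> simp
    · exact Int.mul_ediv_cancel _ (by exact_mod_cast hq0)
    · refine Int.ediv_mul_cancel ?_
      obtain ⟨c, hc⟩ := (ZMod.intCast_zmod_eq_zero_iff_dvd _ _).mp (Gamma0_mem.mp g.2)
      push_cast at hc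
      exact ⟨(K : ℤ) * c, by rw [hc, mul_assoc]⟩

/-- `U_q` is adjoint to `g ↦ q g(q τ)`. -/
theorem peterssonInt_uDown (hq : q.Prime) (hqK : q ∣ K) (f : CuspForm (Gamma0 (q * K)) 2)
    (u g : CuspForm (Gamma0 K) 2)
    (hu : ⇑u = ⇑(CuspForm.heckeULin 2 (dvd_mul_right q K) f)) :
    peterssonInt u g = peterssonInt f (oldLift hq.pos dvd_rfl g) := by
  set G := oldLift (M := K) (N := q * K) hq.pos dvd_rfl g
  have hA : 0 < (!![1, 0; 0, (q : ℤ)] : IMat).det := by
    rw [Matrix.det_fin_two_of]; simp [hq.pos]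
  set A := intGL !![1, 0; 0, (q : ℤ)] with hAdef
  have hw := isWeight_stdWeight (Gamma0 (q * K))
  have he : ∀ h : gammaPR K q, ∀ τ : ℍ,
      A • ((h : SL(2, ℤ)) • τ) = ((conjEquiv hq.ne_zero h : SL(2, ℤ)) • (A • τ : ℍ)) := by
    intro h τ
    show A • (Matrix.SpecialLinearGroup.mapGL ℝ (h : SL(2, ℤ)) : GL (Fin 2) ℝ) • τ =
      (Matrix.SpecialLinearGroup.mapGL ℝ (conjEquiv hq.ne_zero h : SL(2, ℤ)) : GL (Fin 2) ℝ) • A • τ
    rw [← mul_smul, ← mul_smul, hAdef, mapGL_eq_intGL, mapGL_eq_intGL,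
      intGL_mul hA.ne' (by simp), intGL_mul (by simp) hA.ne']
    congr 2
    obtain ⟨b, hb⟩ := (mem_gammaPR.mp h.2).2
    ext i j
    fin_cases i <;> fin_cases j <;> simp [conjEquiv, Matrix.mul_apply, Fin.sum_univ_two]
    · rw [hb, Int.mul_ediv_cancel_left _ (by exact_mod_cast hq.ne_zero)]; ring
    all_goals ring
  set F : ℍ → ℂ := fun τ => petersson 2 f G (A • τ)
  have hFc : Continuous F := (continuous_petersson_coe f G).comp (continuous_const_smul A)
  obtain ⟨C, hC⟩ := CuspFormClass.petersson_bounded_left 2 _ f G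
  have hFinv : ∀ h ∈ gammaPR K q, ∀ τ, F (h • τ) = F τ := fun h hh τ => by
    simp only [F]
    rw [he ⟨h, hh⟩, petersson_smul_Gamma0 f G (conjEquiv hq.ne_zero ⟨h, hh⟩).2]
  have hwH := hw.comp_smul A (conjEquiv hq.ne_zero) he
  have hle : gammaPR K q ≤ Gamma0 K := fun h hh =>
    Gamma0_mem.mpr ((ZMod.intCast_zmod_eq_zero_iff_dvd _ _).mpr (mem_gammaPR.mp hh).1)
  have hTmem : ∀ j : Fin q, ModularGroup.T ^ ((j : ℕ) : ℤ) ∈ Gamma0 K := fun j => by
    rw [Gamma0_mem, ModularGroup.coe_T_zpow]; simp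
  have h := integral_sum_reps (isWeight_stdWeight (Gamma0 K)) hwH
    (fun j : Fin q => ModularGroup.T ^ ((j : ℕ) : ℤ)) hle hTmem
    (fun _ hg => existsUnique_T_zpow hq hqK hg) hFc (fun τ => hC _) hFinv
  have hmap : ((volume : Measure ℍ).withDensity
      (fun τ => stdWeight (Gamma0 (q * K)) (A • τ))).map (fun τ : ℍ => A • τ) =
      (volume : Measure ℍ).withDensity (stdWeight (Gamma0 (q * K))) := by
    have hmp := measurePreserving_smul (μ := (volume : Measure ℍ)) A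
    refine Measure.ext fun S hS => ?_
    rw [Measure.map_apply hmp.measurable hS, withDensity_apply _ hS,
      withDensity_apply _ (hmp.measurable hS)]
    exact hmp.setLIntegral_comp_preimage hS hw.measurable
  have hr : peterssonInt f G = ∫ τ, F τ ∂((volume : Measure ℍ).withDensity
      (fun τ => stdWeight (Gamma0 (q * K)) (A • τ))) := by
    rw [peterssonInt, ← hmap, integral_map
      (measurePreserving_smul (μ := (volume : Measure ℍ)) A).measurable.aemeasurable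
      (continuous_petersson_coe f G).aestronglyMeasurable]
  rw [hr, ← h, peterssonInt]
  refine integral_congr_ae (Filter.Eventually.of_forall fun τ => ?_)
  have hu' : ⇑u = ∑ j : Fin q, ⇑f ∣[(2 : ℤ)] intGL (heckeMat q (some j)) := by
    rw [hu, CuspForm.coe_heckeULin_apply, ModularForm.heckeU_def, Finset.sum_range]
    simp only [intGL_heckeMat hq.ne_zero, Option.elim]
  show petersson 2 ⇑u ⇑g τ = _
  rw [hu', petersson_sum_left]
  refine Finset.sum_congr rfl fun j _ => ?_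
  have hB : 0 < (heckeMat q (some j)).det := by rw [det_heckeMat]; exact_mod_cast hq.pos
  have hT1 : ((ModularGroup.T ^ ((j : ℕ) : ℤ) : SL(2, ℤ)) : IMat).det ≠ 0 := by simp
  have hS : (!![(q : ℤ), 0; 0, q] : IMat).det ≠ 0 := by
    rw [Matrix.det_fin_two_of]; simp [hq.ne_zero]
  have e1 : A * (Matrix.SpecialLinearGroup.mapGL ℝ (ModularGroup.T ^ ((j : ℕ) : ℤ)) : GL (Fin 2) ℝ)
      = intGL (heckeMat q (some j)) := by
    rw [hAdef, mapGL_eq_intGL, intGL_mul hA.ne' hT1, ModularGroup.coe_T_zpow]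
    congr 1
    ext a b
    fin_cases a <;> fin_cases b <;> simp [heckeMat, Matrix.mul_apply, Fin.sum_univ_two]
  have hgG : ⇑g = ⇑G ∣[(2 : ℤ)] intGL (heckeMat q (some j)) := by
    show ⇑g = (⇑g ∣[(2 : ℤ)] intGL !![(q : ℤ), 0; 0, 1]) ∣[(2 : ℤ)] intGL (heckeMat q (some j))
    rw [← SlashAction.slash_mul, intGL_mul (det_diag_pos hq.pos).ne' hB.ne']
    have e : !![(q : ℤ), 0; 0, 1] * heckeMat q (some j) =
        !![(q : ℤ), 0; 0, q] * ((ModularGroup.T ^ ((j : ℕ) : ℤ) : SL(2, ℤ)) : IMat) := by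
      rw [ModularGroup.coe_T_zpow]
      ext a b
      fin_cases a <;> fin_cases b <;> simp [heckeMat, Matrix.mul_apply, Fin.sum_univ_two]
    rw [e, ← intGL_mul hS hT1, SlashAction.slash_mul,
      slash_intGL_scalar (by exact_mod_cast hq.ne_zero), ← mapGL_eq_intGL]
    exact (isGamma0Inv_coe g _ (hTmem j)).symm
  show petersson 2 (⇑f ∣[(2 : ℤ)] intGL (heckeMat q (some j))) ⇑g τ =
    petersson 2 ⇑f ⇑G (A • (Matrix.SpecialLinearGroup.mapGL ℝ (ModularGroup.T ^ ((j : ℕ) : ℤ))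
      : GL (Fin 2) ℝ) • τ)
  conv_lhs => rw [hgG]
  rw [petersson_slash_intGL hB, ← mul_smul, e1]

end FLTAgent.Newforms

end
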