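import Fermat.Agent.Newforms.HeckeCosets

/-!
# The Atkin–Lehner operator

The Atkin–Lehner operator `W_q` (`ALData.wLin`) at a prime `q` exactly dividing the level, the
trace to level `N / q` (`ALData.coe_trace`), and the descent of `U_q` when `q² ∣ N`
(`isGamma0Inv_heckeU_of_sq_dvd`).
-/

set_option autoImplicit false

noncomputable section

open CongruenceSubgroup UpperHalfPlane Matrix
open scoped MatrixGroups ModularForm

namespace FLTAgent.Newforms

/-- Bezout data for `q ∥ N`: `N = q M` and `q w - M y = 1`. -/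
structure ALData (N q : ℕ) where
  M : ℕ
  y : ℤ
  w : ℤ
  hq : q.Prime
  hN : N = q * M
  hM : ¬ q ∣ M
  bezout : (q : ℤ) * w - (M : ℤ) * y = 1

theorem exists_alData {N q : ℕ} (hq : q.Prime) (hqN : q ∣ N) (hq2 : ¬ q ^ 2 ∣ N) :
    Nonempty (ALData N q) := by
  obtain ⟨M, rfl⟩ := hqN
  have hM : ¬ q ∣ M := fun h => hq2 (by rw [pow_two]; exact mul_dvd_mul_left q h)
  obtain ⟨u, v, huv⟩ := Nat.isCoprime_iff_coprime.mpr (hq.coprime_iff_not_dvd.mpr hM)
  exact ⟨⟨M, -v, u, hq, rfl, hM, by linear_combination huv⟩⟩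

variable {N q : ℕ}

/-- The Atkin–Lehner matrix. -/
def ALData.mat (d : ALData N q) : IMat := !![(q : ℤ), d.y; (N : ℤ), q * d.w]

theorem ALData.cast_N (d : ALData N q) : (N : ℤ) = q * d.M := by exact_mod_cast d.hN

theorem ALData.det_mat (d : ALData N q) : d.mat.det = q := by
  rw [ALData.mat, Matrix.det_fin_two_of, d.cast_N]
  linear_combination (q : ℤ) * d.bezout

theorem ALData.det_mat_pos (d : ALData N q) : 0 < d.mat.det := by
  rw [d.det_mat]
  exact_mod_cast d.hq.pos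

/-- Conjugation by `W` preserves matrices with lower left entry divisible by `N`. -/
theorem ALData.exists_conj (d : ALData N q) (C : IMat) (hC : (N : ℤ) ∣ C 1 0) :
    ∃ C' : IMat, (N : ℤ) ∣ C' 1 0 ∧ C'.det = C.det ∧ d.mat * C = C' * d.mat := by
  obtain ⟨c, hc⟩ := hC
  set C' : IMat :=
    !![(C 0 0 * q + d.y * N * c) * d.w - (N * C 0 1 + d.M * d.y * C 1 1),
      -(d.y * C 0 0) - d.y ^ 2 * d.M * c + q * C 0 1 + d.y * C 1 1;
      N * (d.w * (C 0 0 + q * d.w * c) - d.M * C 0 1 - d.w * C 1 1),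
      -(d.M * d.y * (C 0 0 + q * d.w * c)) + N * C 0 1 + q * d.w * C 1 1]
  have heq : d.mat * C = C' * d.mat := by
    have hN := d.cast_N
    ext i j
    fin_cases i <;> fin_cases j <;>
      simp [C', ALData.mat, Matrix.mul_apply, Fin.sum_univ_two, hc, hN]
    · linear_combination -((q : ℤ) * (C 0 0) + d.y * q * d.M * c) * d.bezout
    · linear_combination -((q : ℤ) * C 0 1 + d.y * C 1 1) * d.bezout
    · linear_combination -((q : ℤ) * d.M * (C 0 0) + (q : ℤ) * d.M * q * d.w * c) * d.bezout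
    · linear_combination -((q : ℤ) * d.M * C 0 1 + (q : ℤ) * d.w * C 1 1) * d.bezout
  refine ⟨C', dvd_mul_right _ _, ?_, heq⟩
  have h := congrArg Matrix.det heq
  rw [Matrix.det_mul, Matrix.det_mul, mul_comm C'.det] at h
  exact (mul_left_cancel₀ d.det_mat_pos.ne' h).symm

theorem ALData.intertwines (d : ALData N q) : Intertwines N N d.mat := by
  intro g hg
  obtain ⟨C', hC', hdet, heq⟩ :=
    d.exists_conj g.1 ((ZMod.intCast_zmod_eq_zero_iff_dvd _ _).mp (Gamma0_mem.mp hg))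
  exact ⟨⟨C', by rw [hdet, g.2]⟩, Gamma0_mem.mpr ((ZMod.intCast_zmod_eq_zero_iff_dvd _ _).mpr hC'),
    heq⟩

theorem ALData.heckeCompat (d : ALData N q) (p : ℕ) : HeckeCompat N p d.mat := fun x => by
  obtain ⟨C', hC', -, heq⟩ :=
    d.exists_conj (heckeMat p x) (by cases x <;> simp [heckeMat])
  exact ⟨C', hC', heq⟩

variable [NeZero N]

/-- The Atkin–Lehner operator. -/
def ALData.wLin (d : ALData N q) :
    CuspForm (Gamma0 N) 2 →ₗ[ℂ] CuspForm (Gamma0 N) 2 :=
  slashLin d.mat d.det_mat_pos d.intertwines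

theorem ALData.coe_wLin (d : ALData N q) (f : CuspForm (Gamma0 N) 2) :
    ⇑(d.wLin f) = ⇑f ∣[(2 : ℤ)] intGL d.mat := rfl

/-- `W² = 1` in weight two. -/
theorem ALData.wLin_wLin (d : ALData N q) (f : CuspForm (Gamma0 N) 2) : d.wLin (d.wLin f) = f := by
  refine DFunLike.coe_injective ?_
  set γ : IMat := !![(q : ℤ) + d.y * d.M, d.y * (1 + d.w);
    (N : ℤ) * (1 + d.w), d.y * d.M + q * d.w * d.w]
  have hγ : γ.det = 1 := by
    rw [Matrix.det_fin_two_of, d.cast_N]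
    linear_combination ((q : ℤ) * d.w - d.M * d.y + 1) * d.bezout
  have hmem : (⟨γ, hγ⟩ : SL(2, ℤ)) ∈ Gamma0 N :=
    Gamma0_mem.mpr ((ZMod.intCast_zmod_eq_zero_iff_dvd _ _).mpr (dvd_mul_right _ _))
  have hsq : d.mat * d.mat = γ * !![(q : ℤ), 0; 0, q] := by
    ext i j
    fin_cases i <;> fin_cases j <;>
      simp [γ, ALData.mat, Matrix.mul_apply, Fin.sum_univ_two, d.cast_N] <;> ring
  have hq0 : (q : ℤ) ≠ 0 := by exact_mod_cast d.hq.ne_zero
  rw [d.coe_wLin, d.coe_wLin, ← SlashAction.slash_mul,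
    intGL_mul d.det_mat_pos.ne' d.det_mat_pos.ne', hsq,
    ← intGL_mul (by rw [hγ]; exact one_ne_zero)
      (by rw [Matrix.det_fin_two_of]; simp [d.hq.ne_zero]), SlashAction.slash_mul]
  have h1 : ⇑f ∣[(2 : ℤ)] intGL γ = ⇑f :=
    (mapGL_eq_intGL ⟨γ, hγ⟩) ▸ isGamma0Inv_coe f _ hmem
  rw [h1, slash_intGL_scalar hq0]

theorem ALData.wLin_heckeTLin (d : ALData N q) {p : ℕ} (hp : p.Prime) (hpN : ¬ p ∣ N)
    (f : CuspForm (Gamma0 N) 2) :
    CuspForm.heckeTLin 2 hp hpN (d.wLin f) = d.wLin (CuspForm.heckeTLin 2 hp hpN f) := by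
  refine DFunLike.coe_injective ?_
  rw [CuspForm.coe_heckeTLin_apply, d.coe_wLin, d.coe_wLin, CuspForm.coe_heckeTLin_apply]
  refine heckeT_slash hp hpN d.det_mat_pos.ne' ?_ (d.heckeCompat p) (isGamma0Inv_coe f)
  rw [d.det_mat, Int.natCast_dvd_natCast]
  exact fun h => hpN (((Nat.prime_dvd_prime_iff_eq hp d.hq).mp h).symm ▸ ⟨d.M, d.hN⟩)

/-- Coset representatives of `Γ₀(N)` in `Γ₀(N / q)`. -/
def ALData.rep (d : ALData N q) : Option (Fin q) → SL(2, ℤ)
  | none => 1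
  | some j => ⟨!![1, (j : ℤ) + d.y; (d.M : ℤ), (d.M : ℤ) * j + q * d.w], by
      rw [Matrix.det_fin_two_of]
      linear_combination d.bezout⟩

omit [NeZero N] in
theorem ALData.exists_rep_unique (d : ALData N q) (g : SL(2, ℤ)) (hg : g ∈ Gamma0 d.M) :
    ∃! x, g * (d.rep x)⁻¹ ∈ Gamma0 N := by
  have : Fact q.Prime := ⟨d.hq⟩
  obtain ⟨c, hc⟩ := (ZMod.intCast_zmod_eq_zero_iff_dvd _ _).mp (Gamma0_mem.mp hg)
  have hM0 : (d.M : ℤ) ≠ 0 := fun h => d.hM (by simp [Int.natCast_eq_zero.mp h])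
  have key : ∀ x, g * (d.rep x)⁻¹ ∈ Gamma0 N ↔
      (q : ℤ) ∣ x.elim c (fun j => c * ((d.M : ℤ) * j + q * d.w) - g.1 1 1) := by
    intro x
    rw [Gamma0_mem, ZMod.intCast_zmod_eq_zero_iff_dvd, d.cast_N, mul_comm (q : ℤ) d.M]
    rcases x with _ | j
    · rw [show (g * (d.rep none)⁻¹) 1 0 = (d.M : ℤ) * c by simp [ALData.rep, hc],
        mul_dvd_mul_iff_left hM0]
      rfl
    · rw [show (g * (d.rep (some j))⁻¹) 1 0 =
        (d.M : ℤ) * (c * ((d.M : ℤ) * j + q * d.w) - g.1 1 1) by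
          rw [Matrix.SpecialLinearGroup.coe_mul, Matrix.SpecialLinearGroup.coe_inv]
          simp [ALData.rep, Matrix.adjugate_fin_two_of, Matrix.mul_apply, Fin.sum_univ_two, hc]
          ring,
        mul_dvd_mul_iff_left hM0]
      rfl
  by_cases hqc : (q : ℤ) ∣ c
  · refine ⟨none, (key none).mpr hqc, fun x hx => ?_⟩
    rcases x with _ | j
    · rfl
    exfalso
    have h1 : (q : ℤ) ∣ g.1 1 1 := by
      have := dvd_sub (hqc.mul_right ((d.M : ℤ) * j + q * d.w)) ((key _).mp hx)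
      simpa using this
    have hdet : g.1 0 0 * g.1 1 1 - g.1 0 1 * g.1 1 0 = 1 := by
      rw [← Matrix.det_fin_two, g.2]
    have h2 : (q : ℤ) ∣ 1 := hdet ▸ dvd_sub (h1.mul_left _)
      ((hc ▸ hqc.mul_left _ : (q : ℤ) ∣ g.1 1 0).mul_left _)
    exact d.hq.ne_one (by exact_mod_cast Int.eq_one_of_dvd_one (by positivity) h2)
  · have hc' : (c : ZMod q) ≠ 0 := fun h => hqc ((ZMod.intCast_zmod_eq_zero_iff_dvd _ _).mp h)
    have hM' : (d.M : ZMod q) ≠ 0 := fun h => d.hM ((ZMod.natCast_eq_zero_iff _ _).mp h)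
    set j : ZMod q := (g.1 1 1 : ZMod q) / (c * d.M) with hj
    have hcM : (c : ZMod q) * d.M ≠ 0 := mul_ne_zero hc' hM'
    refine ⟨some ⟨j.val, j.val_lt⟩, (key _).mpr ?_, fun x hx => ?_⟩
    · simp only [Option.elim]
      rw [← ZMod.intCast_zmod_eq_zero_iff_dvd]
      push_cast
      rw [ZMod.natCast_zmod_val, ZMod.natCast_self, hj]
      field_simp
      ring
    · rcases x with _ | i
      · exact absurd ((key none).mp hx) hqc
      have h1 := (key _).mp hx
      simp only [Option.elim] at h1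
      rw [← ZMod.intCast_zmod_eq_zero_iff_dvd] at h1
      push_cast at h1
      rw [ZMod.natCast_self] at h1
      have h2 : j = ((i : ℕ) : ZMod q) := by
        rw [hj, div_eq_iff hcM]
        linear_combination -h1
      refine congrArg some (Fin.ext ?_)
      simp only [h2, ZMod.val_cast_of_lt i.isLt]

omit [NeZero N] in
theorem ALData.rep_mem (d : ALData N q) (x : Option (Fin q)) : d.rep x ∈ Gamma0 d.M := by
  rcases x with _ | j
  · exact one_mem _
  · exact Gamma0_mem.mpr ((ZMod.intCast_zmod_eq_zero_iff_dvd _ _).mpr (dvd_refl _))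

/-- `f + U_q W f` is the sum of the translates of `f` over the cosets of `Γ₀(N)` in `Γ₀(N / q)`. -/
theorem ALData.coe_trace (d : ALData N q) (f : CuspForm (Gamma0 N) 2) :
    ⇑(f + CuspForm.heckeULin 2 (⟨d.M, d.hN⟩ : q ∣ N) (d.wLin f)) =
      ∑ x, ⇑f ∣[(2 : ℤ)]
        (Matrix.SpecialLinearGroup.mapGL ℝ (d.rep x) : GL (Fin 2) ℝ) := by
  have hq0 : (q : ℤ) ≠ 0 := by exact_mod_cast d.hq.ne_zero
  rw [FunLike.coe_add, CuspForm.coe_heckeULin_apply, ModularForm.heckeU_def, d.coe_wLin,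
    Fintype.sum_option, show d.rep none = 1 from rfl, map_one, SlashAction.slash_one,
    ← Fin.sum_univ_eq_sum_range fun j =>
      (⇑f ∣[(2 : ℤ)] intGL d.mat) ∣[(2 : ℤ)] ModularForm.heckeMatrix q j]
  refine congrArg (_ + ·) (Finset.sum_congr rfl fun j _ => ?_)
  have hd : ∀ z, (heckeMat q z).det ≠ 0 := fun z => by rw [det_heckeMat]; exact hq0
  have hs : (!![(q : ℤ), 0; 0, q] : IMat).det ≠ 0 := by
    rw [Matrix.det_fin_two_of]; simp [d.hq.ne_zero]
  have e : d.mat * heckeMat q (some j) = !![(q : ℤ), 0; 0, q] * (d.rep (some j)).1 := by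
    ext a b
    fin_cases a <;> fin_cases b <;>
      simp [ALData.mat, ALData.rep, heckeMat, Matrix.mul_apply, Fin.sum_univ_two, d.cast_N] <;> ring
  rw [show ModularForm.heckeMatrix q j = intGL (heckeMat q (some j)) from
      (intGL_heckeMat d.hq.ne_zero (some j)).symm,
    ← SlashAction.slash_mul, intGL_mul d.det_mat_pos.ne' (hd _), e,
    ← intGL_mul hs (by rw [(d.rep (some j)).2]; exact one_ne_zero), SlashAction.slash_mul,
    slash_intGL_scalar hq0, mapGL_eq_intGL]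

/-- The trace from level `N` to level `N / q`. -/
theorem ALData.isGamma0Inv_trace (d : ALData N q) (f : CuspForm (Gamma0 N) 2) :
    IsGamma0Inv d.M
      ⇑(f + CuspForm.heckeULin 2 (⟨d.M, d.hN⟩ : q ∣ N) (d.wLin f)) := by
  rw [d.coe_trace f]
  exact isGamma0Inv_sum_reps d.rep d.rep_mem d.exists_rep_unique (isGamma0Inv_coe f)

/-- When `q² ∣ N`, the operator `U_q` lowers the level to `N / q`. -/
theorem isGamma0Inv_heckeU_of_sq_dvd {M : ℕ} (hq : q.Prime) (hN : N = q * M) (hqM : q ∣ M)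
    (f : CuspForm (Gamma0 N) 2) :
    IsGamma0Inv M ⇑(CuspForm.heckeULin 2 (⟨M, hN⟩ : q ∣ N) f) := by
  have : Fact q.Prime := ⟨hq⟩
  intro g hg
  have hcM : (M : ℤ) ∣ g.1 1 0 := (ZMod.intCast_zmod_eq_zero_iff_dvd _ _).mp (Gamma0_mem.mp hg)
  have hcq : (q : ℤ) ∣ g.1 1 0 := (Int.natCast_dvd_natCast.mpr hqM).trans hcM
  have hq0 : (q : ℤ) ≠ 0 := by exact_mod_cast hq.ne_zero
  have hdet : g.1 0 0 * g.1 1 1 - g.1 0 1 * g.1 1 0 = 1 := by rw [← Matrix.det_fin_two, g.2]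
  have had : (g.1 0 0 : ZMod q) * g.1 1 1 = 1 := by
    have h := congrArg (fun z : ℤ => (z : ZMod q)) hdet
    push_cast at h
    rw [(ZMod.intCast_zmod_eq_zero_iff_dvd _ _).mpr hcq] at h
    linear_combination h
  have hex : ∀ j : Fin q, ∃ i : Fin q, ∃ γ ∈ Gamma0 N,
      heckeMat q (some j) * g.1 = (γ : SL(2, ℤ)).1 * heckeMat q (some i) := by
    intro j
    set i : ZMod q := (g.1 1 1 : ZMod q) * (g.1 0 1 + (j : ℕ) * g.1 1 1) with hi
    obtain ⟨e, he⟩ : (q : ℤ) ∣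
        g.1 0 1 + (j : ℤ) * g.1 1 1 - (i.val : ℤ) * (g.1 0 0 + (j : ℤ) * g.1 1 0) := by
      rw [← ZMod.intCast_zmod_eq_zero_iff_dvd]
      push_cast
      rw [(ZMod.intCast_zmod_eq_zero_iff_dvd _ _).mpr hcq, ZMod.natCast_zmod_val, hi]
      linear_combination -((g.1 0 1 : ZMod q) + (j : ℕ) * g.1 1 1) * had
    refine ⟨⟨i.val, i.val_lt⟩, ⟨!![g.1 0 0 + (j : ℤ) * g.1 1 0, e;
      q * g.1 1 0, g.1 1 1 - g.1 1 0 * i.val], ?_⟩, ?_, ?_⟩
    · rw [Matrix.det_fin_two_of]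
      linear_combination hdet + g.1 1 0 * he
    · refine Gamma0_mem.mpr ((ZMod.intCast_zmod_eq_zero_iff_dvd _ _).mpr ?_)
      rw [hN, Nat.cast_mul]
      exact mul_dvd_mul_left _ hcM
    · ext a b
      fin_cases a <;> fin_cases b <;>
        simp [heckeMat, Matrix.mul_apply, Fin.sum_univ_two, -ZMod.natCast_val]
      · linear_combination he
      · ring
  choose π γ hγ hπ using hex
  have hinj : Function.Injective π := fun j j' hjj => by
    have h0 := congrFun (congrFun (hπ j) 0) 1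
    have h0' := congrFun (congrFun (hπ j') 0) 1
    have a0 := congrFun (congrFun (hπ j) 0) 0
    have a0' := congrFun (congrFun (hπ j') 0) 0
    rw [hjj] at h0 a0
    simp [heckeMat, Matrix.mul_apply, Fin.sum_univ_two] at h0 h0' a0 a0'
    have z0 := congrArg (fun z : ℤ => (z : ZMod q)) h0
    have z0' := congrArg (fun z : ℤ => (z : ZMod q)) h0'
    rw [← a0] at z0
    rw [← a0'] at z0'
    push_cast at z0 z0'
    rw [ZMod.natCast_self, (ZMod.intCast_zmod_eq_zero_iff_dvd _ _).mpr hcq] at z0 z0'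
    have hd0 : (g.1 1 1 : ZMod q) ≠ 0 := fun h => by simp [h] at had
    have hjz : ((j : ℕ) : ZMod q) = ((j' : ℕ) : ZMod q) :=
      mul_right_cancel₀ hd0 (by linear_combination z0 - z0')
    refine Fin.ext ?_
    have h := congrArg ZMod.val hjz
    rwa [ZMod.val_cast_of_lt j.isLt, ZMod.val_cast_of_lt j'.isLt] at h
  rw [CuspForm.coe_heckeULin_apply, ModularForm.heckeU_def, SlashAction.sum_slash,
    ← Fin.sum_univ_eq_sum_range fun j =>
      (⇑f ∣[(2 : ℤ)] ModularForm.heckeMatrix q j) ∣[(2 : ℤ)]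
        (Matrix.SpecialLinearGroup.mapGL ℝ g : GL (Fin 2) ℝ),
    ← Fin.sum_univ_eq_sum_range fun j => ⇑f ∣[(2 : ℤ)] ModularForm.heckeMatrix q j,
    ← Equiv.sum_comp (Equiv.ofBijective π (Finite.injective_iff_bijective.mp hinj))
    (fun j : Fin q => ⇑f ∣[(2 : ℤ)] ModularForm.heckeMatrix q j)]
  refine Finset.sum_congr rfl fun j _ => ?_
  have hd : ∀ z, (heckeMat q z).det ≠ 0 := fun z => by rw [det_heckeMat]; exact hq0
  have hm : ∀ i : Fin q, ModularForm.heckeMatrix q i = intGL (heckeMat q (some i)) := fun i =>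
    (intGL_heckeMat hq.ne_zero (some i)).symm
  rw [← SlashAction.slash_mul, mapGL_eq_intGL, hm,
    intGL_mul (hd _) (by rw [g.2]; exact one_ne_zero),
    hπ j, ← intGL_mul (by rw [(γ j).2]; exact one_ne_zero) (hd _), ← mapGL_eq_intGL,
    SlashAction.slash_mul, isGamma0Inv_coe f _ (hγ j), ← hm]
  rfl

end FLTAgent.Newforms

end
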