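import Fermat.Agent.Newforms.AtkinLehner
import Fermat.Agent.Newforms.InvariantIntegral
import Fermat.Agent.Eigenforms.Oldforms
import Mathlib.NumberTheory.ModularForms.Bounds

/-!
# The Petersson inner product

The Petersson inner product `peterssonInt` on `S₂(Γ₀(N))`, its positivity, and self-adjointness of
`T_ℓ` for `ℓ ∤ N` (`peterssonInt_heckeTLin`).
-/

set_option autoImplicit false

noncomputable section

open CongruenceSubgroup UpperHalfPlane MeasureTheory ModularGroup
open scoped MatrixGroups ModularForm Modular ENNReal ComplexConjugate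

namespace FLTAgent.Newforms

theorem continuous_SL_smul (g : SL(2, ℤ)) : Continuous fun τ : ℍ => g • τ := by
  simp only [sl_moeb]
  fun_prop

variable {N : ℕ} [NeZero N]

/-- The Petersson inner product (conjugate linear in the first variable). -/
def peterssonInt (f g : CuspForm (Gamma0 N) 2) : ℂ :=
  ∫ τ, petersson 2 f g τ ∂((volume : Measure ℍ).withDensity (stdWeight (Gamma0 N)))

omit [NeZero N] in
theorem petersson_smul_Gamma0 (f g : CuspForm (Gamma0 N) 2) {h : SL(2, ℤ)} (hh : h ∈ Gamma0 N)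
    (τ : ℍ) : petersson 2 f g (h • τ) = petersson 2 f g τ :=
  SlashInvariantFormClass.petersson_smul (f := f) (f' := g) (Subgroup.mem_map_of_mem _ hh)

omit [NeZero N] in
theorem continuous_petersson_coe (f g : CuspForm (Gamma0 N) 2) :
    Continuous (petersson 2 f g) := by
  fun_prop

theorem peterssonInt_eq_weight (f g : CuspForm (Gamma0 N) 2) {w : ℍ → ℝ≥0∞}
    (hw : IsWeight (Gamma0 N) w) :
    peterssonInt f g = ∫ τ, petersson 2 f g τ ∂((volume : Measure ℍ).withDensity w) :=
  integral_weight_eq (isWeight_stdWeight _) hw (continuous_petersson_coe f g).measurable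
    fun _ hh => petersson_smul_Gamma0 f g hh

theorem integrable_petersson (f g : CuspForm (Gamma0 N) 2) {H : Subgroup SL(2, ℤ)} {w : ℍ → ℝ≥0∞}
    (hw : IsWeight H w) :
    Integrable (petersson 2 f g) ((volume : Measure ℍ).withDensity w) := by
  obtain ⟨C, hC⟩ := CuspFormClass.petersson_bounded_left 2 _ f g
  exact integrable_weight hw (continuous_petersson_coe f g) hC

theorem peterssonInt_add_right (f g g' : CuspForm (Gamma0 N) 2) :
    peterssonInt f (g + g') = peterssonInt f g + peterssonInt f g' := by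
  have hw := isWeight_stdWeight (Gamma0 N)
  rw [peterssonInt, peterssonInt, peterssonInt,
    ← integral_add (integrable_petersson f g hw) (integrable_petersson f g' hw)]
  refine integral_congr_ae (Filter.Eventually.of_forall fun τ => ?_)
  simp [petersson]
  ring

theorem peterssonInt_smul_right (c : ℂ) (f g : CuspForm (Gamma0 N) 2) :
    peterssonInt f (c • g) = c * peterssonInt f g := by
  rw [peterssonInt, peterssonInt, ← integral_const_mul]
  refine integral_congr_ae (Filter.Eventually.of_forall fun τ => ?_)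
  simp [petersson]
  ring

theorem peterssonInt_symm (f g : CuspForm (Gamma0 N) 2) :
    conj (peterssonInt f g) = peterssonInt g f := by
  rw [peterssonInt, peterssonInt, ← integral_conj]
  exact integral_congr_ae (Filter.Eventually.of_forall fun τ => (petersson_symm 2 _ _ τ).symm)

/-- The inner product, linear in the second variable. -/
def peterssonRight (f : CuspForm (Gamma0 N) 2) : CuspForm (Gamma0 N) 2 →ₗ[ℂ] ℂ where
  toFun g := peterssonInt f g
  map_add' := peterssonInt_add_right f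
  map_smul' c g := peterssonInt_smul_right c f g

theorem peterssonInt_zero_right (f : CuspForm (Gamma0 N) 2) : peterssonInt f 0 = 0 :=
  map_zero (peterssonRight f)

/-- The inner product is positive definite. -/
theorem eq_zero_of_peterssonInt_self {f : CuspForm (Gamma0 N) 2} (hf : peterssonInt f f = 0) :
    f = 0 := by
  classical
  set F : ℍ → ℝ := fun τ => ‖f τ‖ ^ 2 * τ.im ^ 2 with hF
  have hFc : ∀ τ, petersson 2 f f τ = (F τ : ℂ) := fun τ => by
    simp [petersson, hF, Complex.conj_mul']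
  have hw := isWeight_stdWeight (Gamma0 N)
  have hint : Integrable F ((volume : Measure ℍ).withDensity (stdWeight (Gamma0 N))) := by
    have h := (integrable_petersson f f hw).re
    simp only [hFc] at h
    exact h
  have h0 : F =ᵐ[(volume : Measure ℍ).withDensity (stdWeight (Gamma0 N))] 0 := by
    refine (integral_eq_zero_iff_of_nonneg (fun τ => by positivity) hint).mp ?_
    rw [peterssonInt] at hf
    simp only [hFc, integral_complex_ofReal, Complex.ofReal_eq_zero] at hf
    exact hf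
  rw [Filter.EventuallyEq, ae_withDensity_iff (hw.measurable)] at h0
  let : Fintype (SL(2, ℤ) ⧸ Gamma0 N) := Subgroup.fintypeQuotientOfFiniteIndex
  have hFcont : Continuous F := by fun_prop
  have hopen : ∀ (q : SL(2, ℤ) ⧸ Gamma0 N) (τ : ℍ), q.out • τ ∈ (𝒟ᵒ : Set ℍ) → F τ = 0 := by
    intro q τ hτ
    by_contra hne
    have hU : IsOpen ({σ : ℍ | F σ ≠ 0} ∩ (fun σ : ℍ => q.out • σ) ⁻¹' 𝒟ᵒ) := by
      exact (isOpen_ne_fun hFcont continuous_const).inter
        (isOpen_fdo.preimage (continuous_SL_smul _))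
    refine (volume_pos_of_isOpen hU ⟨τ, hne, hτ⟩).ne' (measure_mono_null ?_ (ae_iff.mp h0))
    rintro σ ⟨hσ, hσ'⟩
    simp only [Set.mem_ofPred_eq, Classical.not_imp, Pi.zero_apply]
    refine ⟨fun h => ?_, hσ⟩
    have h' := (Finset.sum_eq_zero_iff.mp h) q (Finset.mem_univ q)
    rw [Set.indicator_of_mem (fdo_subset_fd hσ')] at h'
    exact one_ne_zero h'
  have hclosed : ∀ (q : SL(2, ℤ) ⧸ Gamma0 N) (σ : ℍ), σ ∈ (𝒟 : Set ℍ) →
      F (q.out⁻¹ • σ) = 0 := by
    intro q σ hσ
    rw [fd_eq_closure_fdo] at hσ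
    have hc : Continuous fun x : ℍ => F (q.out⁻¹ • x) :=
      hFcont.comp (continuous_SL_smul _)
    exact closure_minimal (fun x hx => hopen q _ (by rwa [smul_inv_smul]))
      (isClosed_eq hc continuous_const) hσ
  refine DFunLike.ext _ _ fun τ => ?_
  obtain ⟨g, hg⟩ := exists_smul_mem_fd τ
  set q : SL(2, ℤ) ⧸ Gamma0 N := (g : SL(2, ℤ) ⧸ Gamma0 N)
  have h1 := hclosed q _ hg
  have hmem : (QuotientGroup.mk g : SL(2, ℤ) ⧸ Gamma0 N).out⁻¹ * g ∈ Gamma0 N :=
    QuotientGroup.eq.mp (Quotient.out_eq' _)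
  have h2 := petersson_smul_Gamma0 f f hmem τ
  rw [hFc, hFc, Complex.ofReal_inj, mul_smul] at h2
  rw [h2] at h1
  simpa [hF, τ.im_ne_zero] using h1

theorem petersson_slash_intGL {A : IMat} (hA : 0 < A.det) (f g : ℍ → ℂ) (τ : ℍ) :
    petersson 2 (f ∣[(2 : ℤ)] intGL A) (g ∣[(2 : ℤ)] intGL A) τ =
      petersson 2 f g (intGL A • τ) := by
  rw [petersson_slash, σ_intGL hA]
  simp

theorem ALData.peterssonInt_wLin {q : ℕ} (d : ALData N q) (f g : CuspForm (Gamma0 N) 2) :
    peterssonInt (d.wLin f) g = peterssonInt f (d.wLin g) := by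
  set A := intGL d.mat with hA
  have hpt : ∀ τ, petersson 2 (d.wLin f) g τ = petersson 2 f (d.wLin g) (A • τ) := fun τ => by
    conv_lhs => rw [← d.wLin_wLin g]
    rw [d.coe_wLin f, d.coe_wLin (d.wLin g), petersson_slash_intGL d.det_mat_pos]
  -- conjugation by `A` is a bijection of `Γ₀(N)`
  have hconj : ∀ h : Gamma0 N, ∃ h' : Gamma0 N,
      A * Matrix.SpecialLinearGroup.mapGL ℝ (h : SL(2, ℤ)) =
        Matrix.SpecialLinearGroup.mapGL ℝ (h' : SL(2, ℤ)) * A := fun h => by
    obtain ⟨g', hg', heq⟩ := d.intertwines h.1 h.2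
    refine ⟨⟨g', hg'⟩, ?_⟩
    rw [hA, mapGL_eq_intGL, mapGL_eq_intGL, intGL_mul d.det_mat_pos.ne' (by simp),
      intGL_mul (by simp) d.det_mat_pos.ne', heq]
  choose φ hφ using hconj
  have hφinj : Function.Injective φ := fun h h' heq => by
    have := hφ h
    rw [heq, ← hφ h'] at this
    exact Subtype.ext (Matrix.SpecialLinearGroup.mapGL_injective (mul_left_cancel this))
  have hφsurj : Function.Surjective φ := fun k => by
    set γ : IMat := !![(q : ℤ) + d.y * d.M, d.y * (1 + d.w);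
      (N : ℤ) * (1 + d.w), d.y * d.M + q * d.w * d.w]
    have hsq : d.mat * d.mat = γ * !![(q : ℤ), 0; 0, q] := by
      ext i j
      fin_cases i <;> fin_cases j <;>
        simp [γ, ALData.mat, Matrix.mul_apply, Fin.sum_univ_two, d.cast_N] <;> ring
    have hγdet : γ.det = 1 := by
      rw [Matrix.det_fin_two_of, d.cast_N]
      linear_combination ((q : ℤ) * d.w - d.M * d.y + 1) * d.bezout
    set γ' : Gamma0 N := ⟨⟨γ, hγdet⟩,
      Gamma0_mem.mpr ((ZMod.intCast_zmod_eq_zero_iff_dvd _ _).mpr (dvd_mul_right _ _))⟩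
    have hs : (!![(q : ℤ), 0; 0, q] : IMat).det ≠ 0 := by
      rw [Matrix.det_fin_two_of]; simp [d.hq.ne_zero]
    -- `φ (φ h) = γ h γ⁻¹`
    have hφφ : ∀ h, φ (φ h) = γ' * h * γ'⁻¹ := fun h => by
      refine Subtype.ext (Matrix.SpecialLinearGroup.mapGL_injective (n := Fin 2) (S := ℝ) ?_)
      have e1 : A * A = Matrix.SpecialLinearGroup.mapGL ℝ (γ' : SL(2, ℤ)) *
          intGL !![(q : ℤ), 0; 0, q] := by
        rw [hA, mapGL_eq_intGL, intGL_mul d.det_mat_pos.ne' d.det_mat_pos.ne', hsq,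
          ← intGL_mul (by rw [hγdet]; exact one_ne_zero) hs]
      have e2 : intGL !![(q : ℤ), 0; 0, q] * Matrix.SpecialLinearGroup.mapGL ℝ (h : SL(2, ℤ)) =
          Matrix.SpecialLinearGroup.mapGL ℝ (h : SL(2, ℤ)) * intGL !![(q : ℤ), 0; 0, q] := by
        rw [mapGL_eq_intGL, intGL_mul hs (by simp), intGL_mul (by simp) hs]
        congr 1
        ext i j
        fin_cases i <;> fin_cases j <;> simp [Matrix.mul_apply, Fin.sum_univ_two, mul_comm]
      have e3 : A * A * Matrix.SpecialLinearGroup.mapGL ℝ (h : SL(2, ℤ)) =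
          Matrix.SpecialLinearGroup.mapGL ℝ (φ (φ h) : SL(2, ℤ)) * (A * A) := by
        rw [mul_assoc, hφ, ← mul_assoc, hφ, mul_assoc]
      rw [e1, mul_assoc, e2, ← mul_assoc, ← mul_assoc] at e3
      simp only [Subgroup.coe_mul, Subgroup.coe_inv, map_mul, map_inv]
      rw [mul_right_cancel e3, mul_inv_cancel_right]
    exact ⟨φ (γ'⁻¹ * k * γ'), by rw [hφφ]; group⟩
  let e : Gamma0 N ≃ Gamma0 N := (Equiv.ofBijective φ ⟨hφinj, hφsurj⟩).symm
  have he : ∀ h : Gamma0 N, ∀ τ : ℍ,
      A⁻¹ • ((h : SL(2, ℤ)) • τ) = ((e h : SL(2, ℤ)) • (A⁻¹ • τ : ℍ)) := fun h τ => by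
    have h1 := hφ (e h)
    rw [show φ (e h) = h from (Equiv.ofBijective φ ⟨hφinj, hφsurj⟩).apply_symm_apply h] at h1
    rw [inv_smul_eq_iff]
    show (Matrix.SpecialLinearGroup.mapGL ℝ (h : SL(2, ℤ)) : GL (Fin 2) ℝ) • τ =
      A • (Matrix.SpecialLinearGroup.mapGL ℝ (e h : SL(2, ℤ)) : GL (Fin 2) ℝ) • (A⁻¹ • τ : ℍ)
    rw [← mul_smul, h1, mul_smul, smul_inv_smul]
  have hw := isWeight_stdWeight (Gamma0 N)
  rw [peterssonInt_eq_weight f (d.wLin g) (hw.comp_smul A⁻¹ e he), peterssonInt]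
  simp only [hpt]
  have hmap : (volume : Measure ℍ).withDensity (fun τ => stdWeight (Gamma0 N) (A⁻¹ • τ)) =
      ((volume : Measure ℍ).withDensity (stdWeight (Gamma0 N))).map (fun τ : ℍ => A • τ) := by
    have hmp := measurePreserving_smul (μ := (volume : Measure ℍ)) A
    refine Measure.ext fun S hS => ?_
    rw [Measure.map_apply hmp.measurable hS, withDensity_apply _ hS,
      withDensity_apply _ (hmp.measurable hS)]
    rw [← hmp.setLIntegral_comp_preimage hS (hw.measurable.fun_comp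
      (measurePreserving_smul (μ := (volume : Measure ℍ)) A⁻¹).measurable)]
    exact lintegral_congr fun τ => by rw [inv_smul_smul]
  rw [hmap, integral_map
    (measurePreserving_smul (μ := (volume : Measure ℍ)) A).measurable.aemeasurable
    (continuous_petersson_coe f (d.wLin g)).aestronglyMeasurable]

theorem petersson_sum_left {X : Type*} (s : Finset X) (F : X → ℍ → ℂ) (g : ℍ → ℂ) (τ : ℍ) :
    petersson 2 (∑ x ∈ s, F x) g τ = ∑ x ∈ s, petersson 2 (F x) g τ := by
  simp [petersson, Finset.sum_apply, Finset.sum_mul]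

/-- Integrals of invariant functions for a subgroup, computed on the larger group. -/
theorem integral_sum_reps {H H' : Subgroup SL(2, ℤ)} {w w' : ℍ → ℝ≥0∞} (hw : IsWeight H' w')
    (hwH : IsWeight H w) {X : Type*} [Fintype X] (rep : X → SL(2, ℤ)) (hle : H ≤ H')
    (hrep : ∀ x, rep x ∈ H') (huniq : ∀ g ∈ H', ∃! x, g * (rep x)⁻¹ ∈ H)
    {F : ℍ → ℂ} (hF : Continuous F) {C : ℝ} (hC : ∀ τ, ‖F τ‖ ≤ C)
    (hinv : ∀ h ∈ H, ∀ τ, F (h • τ) = F τ) :
    ∫ τ, ∑ x, F (rep x • τ) ∂((volume : Measure ℍ).withDensity w') =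
      ∫ τ, F τ ∂((volume : Measure ℍ).withDensity w) := by
  have hbij : Function.Bijective fun p : X × H =>
      (⟨(rep p.1)⁻¹ * p.2, mul_mem (inv_mem (hrep p.1)) (hle p.2.2)⟩ : H') := by
    constructor
    · rintro ⟨x, h⟩ ⟨x', h'⟩ heq
      have h1 : (rep x)⁻¹ * (h : SL(2, ℤ)) = (rep x')⁻¹ * (h' : SL(2, ℤ)) :=
        congrArg Subtype.val heq
      have hxx : x = x' := by
        refine (huniq _ (hrep x)).unique (by rw [mul_inv_cancel]; exact one_mem _) ?_
        have : rep x * (rep x')⁻¹ = (h : SL(2, ℤ)) * (h' : SL(2, ℤ))⁻¹ := by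
          rw [eq_mul_inv_iff_mul_eq, mul_assoc, ← h1, mul_inv_cancel_left]
        rw [this]
        exact mul_mem h.2 (inv_mem h'.2)
      subst hxx
      exact Prod.ext rfl (Subtype.ext (mul_left_cancel h1))
    · rintro ⟨k, hk⟩
      obtain ⟨x, hx, -⟩ := huniq k⁻¹ (inv_mem hk)
      exact ⟨⟨x, ⟨_, inv_mem hx⟩⟩, Subtype.ext (by simp)⟩
  have hwK : IsWeight H (fun τ => ∑ x, w' ((rep x)⁻¹ • τ)) :=
    hw.sum (fun x => (rep x)⁻¹) (Equiv.ofBijective _ hbij) fun _ _ => rfl
  rw [integral_weight_eq hwH hwK hF.measurable hinv]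
  have hsum : (volume : Measure ℍ).withDensity (fun τ => ∑ x, w' ((rep x)⁻¹ • τ)) =
      ∑ x, ((volume : Measure ℍ).withDensity w').map (fun τ : ℍ => rep x • τ) := by
    refine Measure.ext fun S hS => ?_
    rw [Measure.finsetSum_apply, withDensity_apply _ hS, lintegral_finsetSum _
      (f := fun x τ => w' ((rep x)⁻¹ • τ)) fun x _ =>
      hw.measurable.fun_comp (measurable_SL_smul _)]
    refine Finset.sum_congr rfl fun x _ => ?_
    rw [Measure.map_apply (measurable_SL_smul _) hS,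
      withDensity_apply _ ((measurable_SL_smul _) hS),
      ← (measurePreserving_SL_smul (rep x)).setLIntegral_comp_preimage hS
      (hw.measurable.fun_comp (measurable_SL_smul _))]
    exact lintegral_congr fun τ => by rw [inv_smul_smul]
  have : IsFiniteMeasure ((volume : Measure ℍ).withDensity w') :=
    isFiniteMeasure_withDensity hw.finite
  have hi : ∀ x, Integrable F (((volume : Measure ℍ).withDensity w').map
      (fun τ : ℍ => rep x • τ)) := fun x =>
    Integrable.of_bound hF.aestronglyMeasurable C (Filter.Eventually.of_forall hC)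
  rw [hsum, integral_finsetSum_measure fun x _ => hi x,
    integral_finsetSum _ (f := fun x τ => F (rep x • τ))
      fun x _ => (hi x).comp_measurable (measurable_SL_smul _)]
  refine Finset.sum_congr rfl fun x _ => ?_
  rw [integral_map (measurable_SL_smul _).aemeasurable hF.aestronglyMeasurable]

/-- The trace is adjoint to the inclusion. -/
theorem ALData.peterssonInt_trace {q : ℕ} (d : ALData N q) [NeZero d.M]
    (F : CuspForm (Gamma0 N) 2) (t g : CuspForm (Gamma0 d.M) 2)
    (ht : ⇑t = ⇑(F + CuspForm.heckeULin 2 (⟨d.M, d.hN⟩ : q ∣ N) (d.wLin F))) :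
    peterssonInt t g =
      peterssonInt F (Eigenforms.raiseLevel ⟨q, d.hN.trans (Nat.mul_comm _ _)⟩ 2 g) := by
  set G := Eigenforms.raiseLevel ⟨q, d.hN.trans (Nat.mul_comm _ _)⟩ 2 g
  obtain ⟨C, hC⟩ := CuspFormClass.petersson_bounded_left 2 _ F G
  rw [peterssonInt, peterssonInt, ← integral_sum_reps (isWeight_stdWeight (Gamma0 d.M))
    (isWeight_stdWeight (Gamma0 N)) d.rep
    (Eigenforms.Gamma0_le_of_dvd ⟨q, d.hN.trans (Nat.mul_comm _ _)⟩) d.rep_mem d.exists_rep_unique
    (continuous_petersson_coe F G) hC fun _ hh => petersson_smul_Gamma0 F G hh]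
  refine integral_congr_ae (Filter.Eventually.of_forall fun τ => ?_)
  rw [ht, d.coe_trace F, petersson_sum_left]
  refine Finset.sum_congr rfl fun x _ => ?_
  conv_lhs => rw [← isGamma0Inv_coe g _ (d.rep_mem x)]
  exact petersson_slash_SL 2 _ _ _ _

/-- `T_ℓ` is self-adjoint for `ℓ ∤ N`. -/
theorem peterssonInt_heckeTLin {p : ℕ} (hp : p.Prime) (hpN : ¬ p ∣ N)
    (f g : CuspForm (Gamma0 N) 2) :
    peterssonInt (CuspForm.heckeTLin 2 hp hpN f) g =
      peterssonInt f (CuspForm.heckeTLin 2 hp hpN g) := by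
  have : NeZero (p * N) := ⟨mul_ne_zero hp.ne_zero (NeZero.ne N)⟩
  obtain ⟨d⟩ := exists_alData (N := p * N) hp (dvd_mul_right p N)
    (fun h => hpN (Nat.dvd_of_mul_dvd_mul_left hp.pos (by rwa [pow_two] at h)))
  have hMN : d.M = N := (Nat.eq_of_mul_eq_mul_left hp.pos d.hN).symm
  obtain ⟨M, y, w, hq, hN, hM, hb⟩ := d
  have hMN' : M = N := hMN
  clear hMN
  subst hMN'
  set d : ALData (p * M) p := ⟨M, y, w, hq, hN, hM, hb⟩
  set ι := Eigenforms.raiseLevel (M := M) (N := p * M) (dvd_mul_left M p) 2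
  have hT : ∀ f : CuspForm (Gamma0 M) 2, ⇑(CuspForm.heckeTLin 2 hp hpN f) =
      ⇑(d.wLin (ι f) + CuspForm.heckeULin 2 (⟨M, hN⟩ : p ∣ p * M) (d.wLin (d.wLin (ι f)))) := by
    intro f
    have hW : ⇑(d.wLin (ι f)) = ⇑f ∣[(2 : ℤ)] ModularForm.heckeDiagMatrix p := by
      have hg : (!![1, y; (M : ℤ), (p : ℤ) * w] : IMat).det = 1 := by
        rw [Matrix.det_fin_two_of]
        linear_combination hb
      have hmat : d.mat = !![1, y; (M : ℤ), (p : ℤ) * w] * heckeMat p none := by
        ext i j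
        fin_cases i <;> fin_cases j <;>
          simp [d, ALData.mat, heckeMat, Matrix.mul_apply, Fin.sum_univ_two]
        ring
      have hfix : ⇑f ∣[(2 : ℤ)] intGL !![1, y; (M : ℤ), (p : ℤ) * w] = ⇑f :=
        (mapGL_eq_intGL ⟨_, hg⟩) ▸ isGamma0Inv_coe f ⟨_, hg⟩
          (Gamma0_mem.mpr ((ZMod.intCast_zmod_eq_zero_iff_dvd _ _).mpr dvd_rfl))
      rw [d.coe_wLin, Eigenforms.coe_raiseLevel, hmat,
        ← intGL_mul (by rw [hg]; exact one_ne_zero)
          (by rw [det_heckeMat]; exact_mod_cast hp.ne_zero),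
        SlashAction.slash_mul, hfix, intGL_heckeMat hp.ne_zero]
      rfl
    rw [CuspForm.coe_heckeTLin_apply, ModularForm.heckeT_eq_heckeU_add, d.wLin_wLin,
      FunLike.coe_add, hW, CuspForm.coe_heckeULin_apply, Eigenforms.coe_raiseLevel, add_comm]
  have key : ∀ f g : CuspForm (Gamma0 M) 2,
      peterssonInt (CuspForm.heckeTLin 2 hp hpN f) g = peterssonInt (d.wLin (ι f)) (ι g) :=
    fun f g => d.peterssonInt_trace _ _ g (hT f)
  rw [key, d.peterssonInt_wLin, ← peterssonInt_symm (CuspForm.heckeTLin 2 hp hpN g) f, key,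
    peterssonInt_symm]

end FLTAgent.Newforms

end
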