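import Fermat.Agent.Eigenforms.Basic
import Mathlib.NumberTheory.ModularForms.Cusps

/-!
# Slash operators by integral matrices

Weight two slash operators by integral matrices, as maps between spaces of cusp forms on `Γ₀`
(`slashLin`, `lowerLevel`).
-/

set_option autoImplicit false

noncomputable section

open CongruenceSubgroup UpperHalfPlane OnePoint Matrix
open scoped MatrixGroups ModularForm

namespace FLTAgent.Newforms

/-- Two by two integral matrices. -/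
abbrev IMat := Matrix (Fin 2) (Fin 2) ℤ

/-- An integral matrix with nonzero determinant, as an element of `GL(2, ℚ)`. -/
def ratGL (A : IMat) : GL (Fin 2) ℚ :=
  if h : A.det ≠ 0 then
    Matrix.GeneralLinearGroup.mkOfDetNeZero (A.map (Int.castRingHom ℚ))
      (by rw [← RingHom.mapMatrix_apply, ← RingHom.map_det, eq_intCast]; exact_mod_cast h)
  else 1

/-- An integral matrix with nonzero determinant, as an element of `GL(2, ℝ)`. -/
def intGL (A : IMat) : GL (Fin 2) ℝ :=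
  Matrix.GeneralLinearGroup.map (Rat.castHom ℝ) (ratGL A)

theorem val_intGL {A : IMat} (h : A.det ≠ 0) :
    ((intGL A : GL (Fin 2) ℝ) : Matrix (Fin 2) (Fin 2) ℝ) = A.map (Int.castRingHom ℝ) := by
  ext i j
  simp [intGL, ratGL, dif_pos h, Matrix.GeneralLinearGroup.mkOfDetNeZero]

/-- The map of integral matrices to `GL₂` is multiplicative. -/
theorem intGL_mul {A B : IMat} (hA : A.det ≠ 0) (hB : B.det ≠ 0) :
    intGL A * intGL B = intGL (A * B) := by
  refine Units.ext ?_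
  rw [Units.val_mul, val_intGL hA, val_intGL hB,
    val_intGL (by rw [Matrix.det_mul]; exact mul_ne_zero hA hB), Matrix.map_mul]

theorem mapGL_eq_intGL (g : SL(2, ℤ)) :
    (Matrix.SpecialLinearGroup.mapGL ℝ g : GL (Fin 2) ℝ) = intGL g.1 := by
  refine Units.ext ?_
  rw [val_intGL (by rw [g.2]; exact one_ne_zero)]
  ext i j
  simp

theorem det_intGL {A : IMat} (h : A.det ≠ 0) :
    ((intGL A).det : ℝ) = (A.det : ℝ) := by
  rw [Matrix.GeneralLinearGroup.val_det_apply, val_intGL h]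
  exact ((Int.castRingHom ℝ).map_det A).symm

theorem σ_intGL {A : IMat} (h : 0 < A.det) : σ (intGL A) = .refl ℝ ℂ := by
  rw [σ, if_pos (by rw [det_intGL h.ne']; exact_mod_cast h)]

theorem smul_slash_intGL {A : IMat} (h : 0 < A.det) (c : ℂ) (f : ℍ → ℂ) :
    (c • f) ∣[(2 : ℤ)] intGL A = c • (f ∣[(2 : ℤ)] intGL A) := by
  rw [ModularForm.smul_slash, σ_intGL h]
  rfl

/-- Scalar matrices act trivially in weight two. -/
theorem slash_intGL_scalar {D : ℤ} (hD : D ≠ 0) (f : ℍ → ℂ) :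
    f ∣[(2 : ℤ)] intGL !![D, 0; 0, D] = f := by
  have hdet : (!![D, 0; 0, D] : IMat).det = D * D := by rw [Matrix.det_fin_two_of]; ring
  have hne : (!![D, 0; 0, D] : IMat).det ≠ 0 := by rw [hdet]; exact mul_ne_zero hD hD
  have hpos : 0 < (!![D, 0; 0, D] : IMat).det :=
    lt_of_le_of_ne (by rw [hdet]; exact mul_self_nonneg D) (Ne.symm hne)
  have hden : ∀ τ : ℍ, denom (intGL !![D, 0; 0, D]) τ = D := fun τ => by
    simp [denom, val_intGL hne]
  have hsmul : ∀ τ : ℍ, intGL !![D, 0; 0, D] • τ = τ := fun τ => by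
    apply UpperHalfPlane.ext
    rw [coe_smul_of_det_pos (by rw [det_intGL hne]; exact_mod_cast hpos), hden, num,
      val_intGL hne]
    have : (D : ℂ) ≠ 0 := Int.cast_ne_zero.mpr hD
    simp
    field_simp
  funext τ
  rw [ModularForm.slash_apply, σ_intGL hpos, hsmul, hden, det_intGL hne, hdet]
  have : (D : ℂ) ≠ 0 := Int.cast_ne_zero.mpr hD
  simp [abs_of_nonneg (mul_self_nonneg (D : ℝ))]
  field_simp

theorem isCusp_iff_SL2Z {N : ℕ} [NeZero N] {c : OnePoint ℝ} :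
    IsCusp c ((Gamma0 N : Subgroup SL(2, ℤ)).map (Matrix.SpecialLinearGroup.mapGL ℝ)) ↔
      IsCusp c 𝒮ℒ :=
  Subgroup.IsArithmetic.isCusp_iff_isCusp_SL2Z _

theorem isCusp_intGL_smul {c : OnePoint ℝ} (hc : IsCusp c 𝒮ℒ) (A : IMat) :
    IsCusp (intGL A • c) 𝒮ℒ := by
  rw [isCusp_SL2Z_iff] at hc ⊢
  obtain ⟨c, rfl⟩ := hc
  exact ⟨ratGL A • c, by rw [intGL, ← Rat.coe_castHom, OnePoint.map_smul]⟩

theorem isZeroAt_slash_intGL {M : ℕ} [NeZero M] (f : CuspForm (Gamma0 M) 2) (A : IMat)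
    {c : OnePoint ℝ} (hc : IsCusp c 𝒮ℒ) : c.IsZeroAt (⇑f ∣[(2 : ℤ)] intGL A) 2 :=
  OnePoint.IsZeroAt.smul_iff.mp
    (CuspFormClass.zero_at_cusps f (isCusp_iff_SL2Z.mpr (isCusp_intGL_smul hc A)))

/-- Invariance of a function under the weight two action of `Γ₀(N)`. -/
def IsGamma0Inv (N : ℕ) (F : ℍ → ℂ) : Prop :=
  ∀ g ∈ Gamma0 N, F ∣[(2 : ℤ)] (Matrix.SpecialLinearGroup.mapGL ℝ g : GL (Fin 2) ℝ) = F

theorem isGamma0Inv_coe {N : ℕ} (f : CuspForm (Gamma0 N) 2) : IsGamma0Inv N ⇑f := fun _ hg =>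
  SlashInvariantFormClass.slash_action_eq f _ (Subgroup.mem_map_of_mem _ hg)

/-- Every element of `A Γ₀(N)` lies in `Γ₀(M) A`. -/
def Intertwines (M N : ℕ) (A : IMat) : Prop :=
  ∀ g ∈ Gamma0 N, ∃ g' ∈ Gamma0 M, A * (g : SL(2, ℤ)).1 = (g' : SL(2, ℤ)).1 * A

theorem isGamma0Inv_slash {M N : ℕ} {A : IMat} (hA : A.det ≠ 0) (h : Intertwines M N A)
    {F : ℍ → ℂ} (hF : IsGamma0Inv M F) : IsGamma0Inv N (F ∣[(2 : ℤ)] intGL A) := by
  intro g hg
  obtain ⟨g', hg', heq⟩ := h g hg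
  have hdet : ∀ x : SL(2, ℤ), (x.1).det ≠ 0 := fun x => by rw [x.2]; exact one_ne_zero
  rw [← SlashAction.slash_mul, mapGL_eq_intGL, intGL_mul hA (hdet g), heq,
    ← intGL_mul (hdet g') hA, ← mapGL_eq_intGL, SlashAction.slash_mul, hF g' hg']

/-- A form of level `M` slashed by an intertwining matrix, as a form of level `N`. -/
def slashLin {M N : ℕ} [NeZero M] [NeZero N] (A : IMat) (hA : 0 < A.det)
    (h : Intertwines M N A) : CuspForm (Gamma0 M) 2 →ₗ[ℂ] CuspForm (Gamma0 N) 2 where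
  toFun f :=
    { toFun := ⇑f ∣[(2 : ℤ)] intGL A
      slash_action_eq' := by
        rintro _ ⟨g, hg, rfl⟩
        exact isGamma0Inv_slash hA.ne' h (isGamma0Inv_coe f) g hg
      holo' := (CuspFormClass.holo f).slash 2 _
      zero_at_cusps' := fun hc => isZeroAt_slash_intGL f A (isCusp_iff_SL2Z.mp hc) }
  map_add' f g := DFunLike.coe_injective <| by
    show ⇑(f + g) ∣[(2 : ℤ)] intGL A = ⇑f ∣[(2 : ℤ)] intGL A + ⇑g ∣[(2 : ℤ)] intGL A
    rw [FunLike.coe_add, SlashAction.add_slash]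
  map_smul' c f := DFunLike.coe_injective <| by
    show ⇑(c • f) ∣[(2 : ℤ)] intGL A = c • (⇑f ∣[(2 : ℤ)] intGL A)
    rw [FunLike.coe_smul, smul_slash_intGL hA]

@[simp] theorem coe_slashLin {M N : ℕ} [NeZero M] [NeZero N] (A : IMat) (hA : 0 < A.det)
    (h : Intertwines M N A) (f : CuspForm (Gamma0 M) 2) :
    ⇑(slashLin A hA h f) = ⇑f ∣[(2 : ℤ)] intGL A := rfl

/-- A form of level `N` which is invariant under `Γ₀(M)`, as a form of level `M`. -/
def lowerLevel {M N : ℕ} [NeZero M] [NeZero N] (f : CuspForm (Gamma0 N) 2)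
    (h : IsGamma0Inv M ⇑f) : CuspForm (Gamma0 M) 2 where
  toFun := ⇑f
  slash_action_eq' := by
    rintro _ ⟨g, hg, rfl⟩
    exact h g hg
  holo' := CuspFormClass.holo f
  zero_at_cusps' := fun hc =>
    CuspFormClass.zero_at_cusps f (isCusp_iff_SL2Z.mpr (isCusp_iff_SL2Z.mp hc))

@[simp] theorem coe_lowerLevel {M N : ℕ} [NeZero M] [NeZero N] (f : CuspForm (Gamma0 N) 2)
    (h : IsGamma0Inv M ⇑f) : ⇑(lowerLevel f h) = ⇑f := rfl

/-- Finite sums over a system of representatives of `Γ₀(N)` in `Γ₀(M)` are `Γ₀(M)`-invariant. -/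
theorem isGamma0Inv_sum_reps {M N : ℕ} {X : Type*} [Fintype X] (rep : X → SL(2, ℤ))
    (hrep : ∀ x, rep x ∈ Gamma0 M)
    (hcos : ∀ g ∈ Gamma0 M, ∃! x, g * (rep x)⁻¹ ∈ Gamma0 N)
    {F : ℍ → ℂ} (hF : IsGamma0Inv N F) :
    IsGamma0Inv M
      (∑ x, F ∣[(2 : ℤ)] (Matrix.SpecialLinearGroup.mapGL ℝ (rep x) : GL (Fin 2) ℝ)) := by
  intro g hg
  choose π hπ hπu using fun x => hcos (rep x * g) (mul_mem (hrep x) hg)
  have hinj : Function.Injective π := fun x x' hxx => by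
    have h1 := mul_mem (hπ x) (inv_mem (hπ x'))
    rw [hxx, show rep x * g * (rep (π x'))⁻¹ * (rep x' * g * (rep (π x'))⁻¹)⁻¹ =
      rep x * (rep x')⁻¹ by group] at h1
    exact (hcos _ (hrep x)).unique (by rw [mul_inv_cancel]; exact one_mem _) h1
  rw [SlashAction.sum_slash, ← Equiv.sum_comp
    (Equiv.ofBijective π (Finite.injective_iff_bijective.mp hinj))
    (fun y => F ∣[(2 : ℤ)] (Matrix.SpecialLinearGroup.mapGL ℝ (rep y) : GL (Fin 2) ℝ))]
  refine Finset.sum_congr rfl fun x _ => ?_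
  rw [← SlashAction.slash_mul, ← map_mul]
  conv_lhs => rw [show rep x * g = (rep x * g * (rep (π x))⁻¹) * rep (π x) by group, map_mul,
    SlashAction.slash_mul, hF _ (hπ x)]
  rfl

end FLTAgent.Newforms

end
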